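import Fermat.Agent.S19x.Geo.ConfigOfLeaves
import Fermat.Agent.S19x.Geo.Frame
import Fermat.Agent.S19x.Geo.TrueSolOut
import Fermat.Agent.S19x.Geo.TrueSolInt

/-!
# P-S19, block A, leaf L6: the geometric base data of the residual system (helper41)

The base solution of the factorisation system of a lifted configuration
`L : LiftCfg.LiftedCfg c`, for the two configurations

* `Cfg1` : `W0 = W1 L = C0 + 3 D0`, `Dc = D1 L`, base function `L.u0`, pole order `m`;
* `Cfg2` : `W0 = W2 L = C0' + D1`, `Dc = D0 L`, base function `L.u0'`, pole order `m'`.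

Generic part (any `TrueSol.Input`):

* `isTrueSol_of_u` : a function `u ∈ O` with divisor `W + E - m oo` and reduction `ub` together with
  its cofactor `ρ_W(z) ρ_E(z) / u` is a true solution in the sense of `TrueSol.IsTrueSol`
  (the second half of `TrueSol.Input.exists_isTrueSol`, for a GIVEN `u`);
* `smul_aeval_eq`, `isFixed_cofactor` : the cofactor of `S`-fixed data is `S`-fixed;
* `exists_fixedPoly` : a monic polynomial over `K` with coefficients in `A^S` comes from a monic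
  polynomial over `A^S`.

For a lifted configuration (with `e = (ez : ℤ)`, `1 ≤ ez`): `input1`, `input2` (the `TrueSol.Input`s),
`cof1`, `cof2` (the cofactors), `isTrueSol1`, `isTrueSol2`, membership of `z`, `u0`, `u0'`, `cof1`,
`cof2` in the lattices `Frame.LamS`, the polynomials `ρ` over `A^S` with their reductions.
-/

set_option autoImplicit false
set_option linter.unusedSectionVars false
set_option linter.style.haveILetI false

noncomputable section

namespace Fermat.Agent.S19x.Geo.Residual.BaseData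

open AlgebraicCurve Polynomial Module IsLocalRing
open Fermat.Agent.Gateway.C0 Fermat.Agent.Gateway.Red Fermat.Agent.S27x.Spec.Inj
  Fermat.Agent.S27x.Spec.Disc Fermat.Agent.S27x.Lift.NiceRep Fermat.Agent.S27x.Lift.JacInj
  Fermat.Agent.S19x.Geo Fermat.Agent.S19x.Geo.JacKerMult Fermat.Agent.S19x.Geo.Lattice
  Fermat.Agent.S19x.Geo.TrueSol Fermat.Agent.S24.ZP

universe u v w z

variable {K : Type u} [Field K] {A : ValuationSubring K}
  {F : Type v} [Field F] [Algebra K F] {O : ValuationSubring F}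
  {k : Type w} {κ : Type z} [Field k] [Field κ] [Algebra k κ]
  [HasPrincipalDivisors K F] [∀ v : Place K F, v.FiniteResidue]
  [HasPrincipalDivisors k κ] [∀ v : Place k κ, v.FiniteResidue]

/-! ### A given function with the right divisor is a true solution -/

section Given

variable {G : GeoSetting A O k κ} {m e : ℕ} {z : F} {zb : κ} {vF : Place K F → K}
  {Uvar Ufix : Finset (Place k κ)} {μ : Place k κ → ℕ} {val : Place k κ → k} {ub ub' : κ}

/-- **A given function with divisor `W + E - m oo` and reduction `ub`, together with its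
cofactor, is a true solution.** -/
theorem isTrueSol_of_u (I : Input G m e z zb vF Uvar Ufix μ val ub ub')
    {W E : Divisor K F} (hW : 0 ≤ W) (hspW : G.spDiv W = multDiv Ufix μ)
    (hE0 : 0 ≤ E) (hspE : G.spDiv E = finDiv Uvar) {u : F} (huO : u ∈ O)
    (hres_u : G.R.res ⟨u, huO⟩ = ub)
    (hordu : ∀ v : Place K F, v.ord u = (W + E - Finsupp.single G.oo (m : ℤ)) v) :
    IsTrueSol G m e z vF Uvar ub ub' W E u
      (aeval z (rhoV vF W) * aeval z (rhoV vF E) / u) := by
  classical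
  haveI := G.nonempty_placeF
  haveI := G.nonempty_placeκ
  have S := I.resSol
  have hub0 : ub ≠ 0 := S.u_ne
  have hvalu : O.valuation u = 1 :=
    valuation_eq_one_of_res_ne huO (by rw [hres_u]; exact hub0)
  have hu0 : u ≠ 0 := ne_zero_of_valuation_eq_one hvalu
  -- supports
  have hspE' : G.spDiv E = multDiv Uvar (fun _ => 1) := by rw [hspE, multDiv_one]
  have hsuppW : ∀ Q ∈ W.support, G.sp Q ∈ Ufix := fun Q hQ =>
    sp_mem_of_mem_support G.sp hW hspW hQ
  have hsuppE : ∀ Q ∈ E.support, G.sp Q ∈ Uvar := fun Q hQ =>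
    sp_mem_of_mem_support G.sp hE0 hspE' hQ
  have hWoo : W G.oo = 0 := by
    by_contra h
    exact S.P_notMem_fix (hsuppW G.oo (Finsupp.mem_support_iff.mpr h))
  have hEoo : E G.oo = 0 := by
    by_contra h
    exact S.P_notMem_var (hsuppE G.oo (Finsupp.mem_support_iff.mpr h))
  have hvW : ∀ Q ∈ W.support, HasValue Q z (vF Q) := fun Q hQ =>
    I.vF_spec Q (I.ne_oo (I.ne_oob_of_mem (Or.inr (hsuppW Q hQ))))
  have hvE : ∀ Q ∈ E.support, HasValue Q z (vF Q) := fun Q hQ =>
    I.vF_spec Q (I.ne_oo (I.ne_oob_of_mem (Or.inl (hsuppE Q hQ))))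
  -- reductions of the two root polynomials
  obtain ⟨hρWO, hρWres⟩ := I.res_aeval_rhoV hW hspW (fun w hw => Or.inr hw)
  obtain ⟨hρEO, hρEres⟩ := I.res_aeval_rhoV hE0 hspE' (fun w hw => Or.inl hw)
  set ρW : F := aeval z (rhoV vF W) with hρW
  set ρE : F := aeval z (rhoV vF E) with hρE
  -- the cofactor
  set u' : F := ρW * ρE / u with hu'
  have hprod : u * u' = ρW * ρE := by
    rw [hu', mul_div_cancel₀ _ hu0]
  have hu'O : u' ∈ O := by
    rw [← O.valuation_le_one_iff, hu', map_div₀, hvalu, div_one, map_mul]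
    exact mul_le_one' ((O.valuation_le_one_iff _).mpr hρWO) ((O.valuation_le_one_iff _).mpr hρEO)
  have hres_u' : G.R.res ⟨u', hu'O⟩ = ub' := by
    have e1 : (⟨u, huO⟩ : O) * ⟨u', hu'O⟩ = ⟨ρW, hρWO⟩ * ⟨ρE, hρEO⟩ := Subtype.ext hprod
    have e2 := congrArg G.R.res e1
    rw [map_mul, map_mul, hres_u, hρWres, hρEres] at e2
    have e3 : ub * ub' = ub * G.R.res ⟨u', hu'O⟩ := by
      rw [e2, S.prod, aeval_rootPolyMult, aeval_rootPoly]
      simp only [pow_one]
    exact (mul_left_cancel₀ hub0 e3).symm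
  -- the pole order of `u'`
  have hsumW : (∑ Q ∈ W.support, ((W Q).toNat : ℤ)) = ∑ Q ∈ Ufix, (μ Q : ℤ) := by
    have := sum_toNat_eq G.sp hW hspW
    exact_mod_cast this
  have hsumE : (∑ Q ∈ E.support, ((E Q).toNat : ℤ)) = Uvar.card := by
    have := sum_toNat_eq G.sp hE0 hspE'
    rw [Finset.sum_const, smul_eq_mul, mul_one] at this
    exact_mod_cast this
  have hu'L : u' ∈ riemannRochSpace (Finsupp.single G.oo ((e : ℤ) * m - m)) := by
    rw [mem_riemannRochSpace_iff_ordGE]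
    intro v
    rw [hu', div_eq_mul_inv]
    by_cases hv : v = G.oo
    · rw [hv, Finsupp.single_eq_same]
      have h1 := ordGE_aeval_rhoV_pole vF W G.oo I.z_pole
      have h2 := ordGE_aeval_rhoV_pole vF E G.oo I.z_pole
      rw [hsumW] at h1
      rw [hsumE] at h2
      have h3 : OrdGE G.oo u⁻¹ (-(-(m : ℤ))) := by
        apply OrdGE.inv
        rw [hordu G.oo]
        simp only [Finsupp.add_apply, Finsupp.sub_apply, Finsupp.single_eq_same, hWoo, hEoo]
        ring
      refine ((h1.mul h2).mul h3).mono ?_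
      rw [I.m_eq]
      ring_nf
      exact le_refl _
    · rw [Finsupp.single_eq_of_ne hv, neg_zero]
      have hz := I.z_reg hv
      have h1 := ordGE_aeval_rhoV hvW v hz
      have h2 := ordGE_aeval_rhoV hvE v hz
      have h3 : OrdGE v u⁻¹ (-(W v + E v)) := by
        apply OrdGE.inv
        rw [hordu v]
        simp only [Finsupp.add_apply, Finsupp.sub_apply, Finsupp.single_eq_of_ne hv]
        ring
      exact ((h1.mul h2).mul h3).mono (by omega)
  exact ⟨hE0, hspE, hu0, hordu, huO, hu'O, hu'L, hres_u, hres_u', hprod⟩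

end Given

/-! ### Fixedness of cofactors, polynomials over `A^S` -/

section Fixed

variable {G : GeoSetting A O k κ}

/-- the value at a fixed function of a polynomial with fixed coefficients is fixed. -/
theorem smul_aeval_eq (s : SemilinearAut K F) {z : F} (hz : s • z = z) {p : K[X]}
    (hp : ∀ l, SemilinearAut.baseAut s (p.coeff l) = p.coeff l) :
    s • aeval z p = aeval z p := by
  rw [aeval_eq_sum_range, Finset.smul_sum]
  refine Finset.sum_congr rfl fun i _ => ?_
  rw [Algebra.smul_def, smul_mul', SemilinearAut.smul_algebraMap, hp, smul_pow', hz]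

/-- the value at a fixed function of a polynomial with coefficients in `A^S` is fixed. -/
theorem isFixed_aeval (I : InertiaData G) {z : F} (hz : I.IsFixed z) {p : K[X]}
    (hp : ∀ l, I.IsFixedInt (p.coeff l)) : I.IsFixed (aeval z p) := fun s hs =>
  smul_aeval_eq s (hz s hs) fun l => by
    obtain ⟨ha, hfix⟩ := hp l
    exact hfix s hs

/-- the cofactor of fixed data is fixed. -/
theorem isFixed_cofactor (I : InertiaData G) {z u : F} (hz : I.IsFixed z) (hu : I.IsFixed u)
    {p q : K[X]} (hp : ∀ l, I.IsFixedInt (p.coeff l)) (hq : ∀ l, I.IsFixedInt (q.coeff l)) :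
    I.IsFixed (aeval z p * aeval z q / u) := fun s hs => by
  rw [div_eq_mul_inv, smul_mul', smul_mul', smul_inv'', isFixed_aeval I hz hp s hs,
    isFixed_aeval I hz hq s hs, hu s hs]

/-- a monic polynomial over `K` with coefficients in `A^S` comes from a monic polynomial over
`A^S`. -/
theorem exists_fixedPoly (I : InertiaData G) {p : K[X]} (hp : p.Monic)
    (h : ∀ l, I.IsFixedInt (p.coeff l)) :
    ∃ q : Polynomial I.fixedRing, q.Monic ∧ q.natDegree = p.natDegree ∧
      q.map (A.subtype.comp I.fixedRing.subtype) = p := by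
  have hl : p ∈ Polynomial.lifts (A.subtype.comp I.fixedRing.subtype) := by
    rw [Polynomial.lifts_iff_coeff_lifts]
    intro n
    obtain ⟨ha, hfix⟩ := h n
    exact ⟨⟨⟨p.coeff n, ha⟩, hfix⟩, rfl⟩
  obtain ⟨q, hq, hdeg, hmon⟩ := Polynomial.lifts_and_natDegree_eq_and_monic hl hp
  exact ⟨q, hmon, hdeg, hq⟩

end Fixed

/-! ### The base data of a lifted configuration -/

section Cfg

open Fermat.Agent.S19x.Geo.NiceRepL Fermat.Agent.S19x.Geo.LiftCfg
  Fermat.Agent.S19x.Geo.ConfigOfLeaves Fermat.Agent.S19x.Geo.BaseCfgResSol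
  Fermat.Agent.S19x.Geo.Frame

variable [Nonempty (Place k κ)] [IsAlgClosed k] {G : GeoSetting A O k κ} {I : InertiaData G}
  {m m' : ℕ} {e : ℤ} {c : BaseCfg G.oob m m' e} (L : LiftedCfg (I := I) c)
  {ez : ℕ} (he : e = (ez : ℤ))

include he in
theorem z_rrs : L.z ∈ riemannRochSpace (Finsupp.single G.oo (ez : ℤ)) := he ▸ L.z_mem

include he in
/-- the coordinate function lies in `Λ(ez ∞)^S`. -/
theorem z_mem_LamS : L.z ∈ LamS G I ez := ⟨⟨z_rrs L he, L.hz⟩, L.z_fixed⟩

include he in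
/-- **The input of `Geo/TrueSol` for `Cfg1`.** -/
theorem input1 : Input G m ez L.z c.z (fun Q => valAt Q L.z) c.D1 (fix1 c) (mu1 c) c.val c.u0
    (u1' c) :=
  Input.of_valAt L.hz L.res_z (z_rrs L he) (resSolM1 c) c.nonspecial_D1
    (by rw [c.card_D1, BaseCfgGeo.genusFF_special G]) (ord_u0_oo c)

include he in
/-- **The input of `Geo/TrueSol` for `Cfg2`.** -/
theorem input2 : Input G m' ez L.z c.z (fun Q => valAt Q L.z) c.D0 (fix2 c) (mu2 c) c.val c.u0'
    (u2' c) :=
  Input.of_valAt L.hz L.res_z (z_rrs L he) (resSolM2 c) c.nonspecial_D0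
    (by rw [c.card_D0, BaseCfgGeo.genusFF_special G]) (ord_u0'_oo c)

theorem spDiv_W1_eq : G.spDiv (W1 L) = multDiv (fix1 c) (mu1 c) := by
  rw [spDiv_W1, multDiv_fix1]
  ext w
  simp only [Finsupp.add_apply, Finsupp.smul_apply, smul_eq_mul, nsmul_eq_mul]
  push_cast
  ring

theorem spDiv_W2_eq : G.spDiv (W2 L) = multDiv (fix2 c) (mu2 c) := by
  rw [spDiv_W2, multDiv_fix2]

/-- the cofactor of `Cfg1`: `ρ_{W1}(z) ρ_{D1}(z) / u0`. -/
def cof1 : F := aeval L.z (divPoly L.z (W1 L)) * aeval L.z (divPoly L.z (D1 L)) / L.u0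

/-- the cofactor of `Cfg2`: `ρ_{W2}(z) ρ_{D0}(z) / u0'`. -/
def cof2 : F := aeval L.z (divPoly L.z (W2 L)) * aeval L.z (divPoly L.z (D0 L)) / L.u0'

include he in
/-- **The base solution of `Cfg1` is a true solution.** -/
theorem isTrueSol1 : IsTrueSol G m ez L.z (fun Q => valAt Q L.z) c.D1 c.u0 (u1' c)
    (W1 L) (D1 L) L.u0 (cof1 L) :=
  isTrueSol_of_u (input1 L he) (W1_nonneg L) (spDiv_W1_eq L) (D1_nonneg L) (spDiv_D1 L) L.hu0
    L.res_u0 (fun v => (W1_apply L v).symm)

include he in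
/-- **The base solution of `Cfg2` is a true solution.** -/
theorem isTrueSol2 : IsTrueSol G m' ez L.z (fun Q => valAt Q L.z) c.D0 c.u0' (u2' c)
    (W2 L) (D0 L) L.u0' (cof2 L) :=
  isTrueSol_of_u (input2 L he) (W2_nonneg L) (spDiv_W2_eq L) (D0_nonneg L) (spDiv_D0 L) L.hu0'
    L.res_u0' (fun v => (W2_apply L v).symm)

include he in
theorem rho_W1_fixed (l : ℕ) : I.IsFixedInt ((divPoly L.z (W1 L)).coeff l) :=
  divPoly_coeff_isFixedInt (ChartOfBase.hasValues G) L.hz L.z_mem L.z_fixed (W1_nonneg L)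
    (smul_W1 L) (fun _ hQ => (input1 L he).ne_oob_of_mem
      (Or.inr (sp_mem_of_mem_support G.sp (W1_nonneg L) (spDiv_W1_eq L) hQ))) l

include he in
theorem rho_W2_fixed (l : ℕ) : I.IsFixedInt ((divPoly L.z (W2 L)).coeff l) :=
  divPoly_coeff_isFixedInt (ChartOfBase.hasValues G) L.hz L.z_mem L.z_fixed (W2_nonneg L)
    (smul_W2 L) (fun _ hQ => (input2 L he).ne_oob_of_mem
      (Or.inr (sp_mem_of_mem_support G.sp (W2_nonneg L) (spDiv_W2_eq L) hQ))) l

include he in
theorem isFixed_cof1 : I.IsFixed (cof1 L) :=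
  isFixed_cofactor I L.z_fixed L.u0_fixed (rho_W1_fixed L he) (rho_D1_fixed L)

include he in
theorem isFixed_cof2 : I.IsFixed (cof2 L) :=
  isFixed_cofactor I L.z_fixed L.u0'_fixed (rho_W2_fixed L he) (rho_D0_fixed L)

include he in
/-- the base function of `Cfg1` lies in `Λ(m ∞)^S`. -/
theorem u0_mem_LamS : L.u0 ∈ LamS G I m :=
  ⟨⟨(isTrueSol1 L he).u_mem_rrs (W1_nonneg L), L.hu0⟩, L.u0_fixed⟩

include he in
/-- the base function of `Cfg2` lies in `Λ(m' ∞)^S`. -/
theorem u0'_mem_LamS : L.u0' ∈ LamS G I m' :=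
  ⟨⟨(isTrueSol2 L he).u_mem_rrs (W2_nonneg L), L.hu0'⟩, L.u0'_fixed⟩

theorem cast_sub_eq (n : ℕ) (hez : 1 ≤ ez) : ((ez * n - n : ℕ) : ℤ) = (ez : ℤ) * n - n := by
  have h : n ≤ ez * n := Nat.le_mul_of_pos_left n hez
  rw [Nat.cast_sub h]
  push_cast
  ring

include he in
/-- the cofactor of `Cfg1` lies in `Λ((ez m - m) ∞)^S`. -/
theorem cof1_mem_LamS (hez : 1 ≤ ez) : cof1 L ∈ LamS G I (ez * m - m) := by
  refine ⟨⟨?_, (isTrueSol1 L he).u'_mem⟩, isFixed_cof1 L he⟩
  rw [nOo, cast_sub_eq m hez]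
  exact (isTrueSol1 L he).u'_rrs

include he in
/-- the cofactor of `Cfg2` lies in `Λ((ez m' - m') ∞)^S`. -/
theorem cof2_mem_LamS (hez : 1 ≤ ez) : cof2 L ∈ LamS G I (ez * m' - m') := by
  refine ⟨⟨?_, (isTrueSol2 L he).u'_mem⟩, isFixed_cof2 L he⟩
  rw [nOo, cast_sub_eq m' hez]
  exact (isTrueSol2 L he).u'_rrs

include he in
theorem res_cof1 : G.R.res ⟨cof1 L, (isTrueSol1 L he).u'_mem⟩ = u1' c := (isTrueSol1 L he).res_u'

include he in
theorem res_cof2 : G.R.res ⟨cof2 L, (isTrueSol2 L he).u'_mem⟩ = u2' c := (isTrueSol2 L he).res_u'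

include he in
theorem u0_mul_cof1 :
    L.u0 * cof1 L = aeval L.z (divPoly L.z (W1 L)) * aeval L.z (divPoly L.z (D1 L)) :=
  (isTrueSol1 L he).prod

include he in
theorem u0'_mul_cof2 :
    L.u0' * cof2 L = aeval L.z (divPoly L.z (W2 L)) * aeval L.z (divPoly L.z (D0 L)) :=
  (isTrueSol2 L he).prod

end Cfg

/-! ### The polynomials over `A^S` and the base data in `B^S` -/

section Poly

open Fermat.Agent.S19x.Geo.NiceRepL Fermat.Agent.S19x.Geo.LiftCfg
  Fermat.Agent.S19x.Geo.ConfigOfLeaves Fermat.Agent.S19x.Geo.BaseCfgResSol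
  Fermat.Agent.S19x.Geo.Frame

variable [Nonempty (Place k κ)] [IsAlgClosed k] {G : GeoSetting A O k κ} {I : InertiaData G}
  {m m' : ℕ} {e : ℤ} {c : BaseCfg G.oob m m' e} (L : LiftedCfg (I := I) c)
  {ez : ℕ} (he : e = (ez : ℤ))

/-- the value in `B^S` of a polynomial over `A^S`. -/
theorem coe_aeval_BS (x : BS G I) (q : Polynomial I.fixedRing) :
    ((aeval x q : BS G I) : F) = aeval (x : F) (q.map (A.subtype.comp I.fixedRing.subtype)) := by
  rw [← Subalgebra.aeval_coe]
  have := Polynomial.aeval_map_algebraMap (R := I.fixedRing) K (x : F) q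
  rw [← this]
  rfl

/-- a polynomial over `A^S` is determined by its image over `K`; reduction through `A`. -/
theorem map_πS_eq {ρ : Polynomial I.fixedRing} {q : Polynomial A} {p : K[X]}
    (hρ : ρ.map (A.subtype.comp I.fixedRing.subtype) = p) (hq : q.map A.subtype = p) :
    ρ.map (πS G I) = q.map G.R.π := by
  have h1 : ρ.map I.fixedRing.subtype = q := by
    apply Polynomial.map_injective A.subtype Subtype.val_injective
    rw [Polynomial.map_map, hρ, hq]
  rw [← h1, Polynomial.map_map]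
  rfl

include he in
/-- **The polynomials of `Cfg1` over `A^S`**: `ρ_{W1}`, `ρ_{D1}` with their degrees and their
reductions. -/
theorem exists_rho1 : ∃ ρW ρD : Polynomial I.fixedRing, ρW.Monic ∧ ρD.Monic ∧
    ρW.map (A.subtype.comp I.fixedRing.subtype) = divPoly L.z (W1 L) ∧
    ρD.map (A.subtype.comp I.fixedRing.subtype) = divPoly L.z (D1 L) ∧
    ρW.natDegree + G.g = m ∧ ρD.natDegree = G.g ∧
    ρW.map (πS G I) = rootPolyMult c.val (fix1 c) (mu1 c) ∧
    ρD.map (πS G I) = rootPoly c.val c.D1 := by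
  obtain ⟨ρW, hWm, hWd, hWmap⟩ :=
    exists_fixedPoly I (divPoly_monic L.z (W1 L)) (rho_W1_fixed L he)
  obtain ⟨ρD, hDm, hDd, hDmap⟩ :=
    exists_fixedPoly I (divPoly_monic L.z (D1 L)) (rho_D1_fixed L)
  have h1 := natDegree_divPoly_of_nonneg L.z (W1_nonneg L) G.rrF.deg_one
  have h2 := natDegree_divPoly_of_nonneg L.z (D1_nonneg L) G.rrF.deg_one
  rw [degree_W1] at h1
  rw [degree_D1] at h2
  obtain ⟨q, -, hq2, hq3⟩ :=
    TrueSolInt.exists_monic_map_eq_fix (input1 L he) (W1_nonneg L) (spDiv_W1_eq L)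
  obtain ⟨q', -, hq2', hq3'⟩ :=
    TrueSolInt.exists_monic_map_eq_var (input1 L he) (D1_nonneg L) (spDiv_D1 L)
  refine ⟨ρW, ρD, hWm, hDm, hWmap, hDmap, ?_, ?_, ?_, ?_⟩
  · rw [hWd]
    omega
  · rw [hDd]
    exact_mod_cast h2
  · rw [map_πS_eq hWmap hq2, hq3]
  · rw [map_πS_eq hDmap hq2', hq3']

include he in
/-- **The polynomials of `Cfg2` over `A^S`**: `ρ_{W2}`, `ρ_{D0}` with their degrees and their
reductions. -/
theorem exists_rho2 : ∃ ρW ρD : Polynomial I.fixedRing, ρW.Monic ∧ ρD.Monic ∧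
    ρW.map (A.subtype.comp I.fixedRing.subtype) = divPoly L.z (W2 L) ∧
    ρD.map (A.subtype.comp I.fixedRing.subtype) = divPoly L.z (D0 L) ∧
    ρW.natDegree + G.g = m' ∧ ρD.natDegree = G.g ∧
    ρW.map (πS G I) = rootPolyMult c.val (fix2 c) (mu2 c) ∧
    ρD.map (πS G I) = rootPoly c.val c.D0 := by
  obtain ⟨ρW, hWm, hWd, hWmap⟩ :=
    exists_fixedPoly I (divPoly_monic L.z (W2 L)) (rho_W2_fixed L he)
  obtain ⟨ρD, hDm, hDd, hDmap⟩ :=
    exists_fixedPoly I (divPoly_monic L.z (D0 L)) (rho_D0_fixed L)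
  have h1 := natDegree_divPoly_of_nonneg L.z (W2_nonneg L) G.rrF.deg_one
  have h2 := natDegree_divPoly_of_nonneg L.z (D0_nonneg L) G.rrF.deg_one
  rw [degree_W2] at h1
  rw [degree_D0] at h2
  obtain ⟨q, -, hq2, hq3⟩ :=
    TrueSolInt.exists_monic_map_eq_fix (input2 L he) (W2_nonneg L) (spDiv_W2_eq L)
  obtain ⟨q', -, hq2', hq3'⟩ :=
    TrueSolInt.exists_monic_map_eq_var (input2 L he) (D0_nonneg L) (spDiv_D0 L)
  refine ⟨ρW, ρD, hWm, hDm, hWmap, hDmap, ?_, ?_, ?_, ?_⟩
  · rw [hWd]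
    omega
  · rw [hDd]
    exact_mod_cast h2
  · rw [map_πS_eq hWmap hq2, hq3]
  · rw [map_πS_eq hDmap hq2', hq3']

/-- the coordinate function as an element of `B^S`. -/
def zB : BS G I := ⟨L.z, mem_BS_of_mem_LamS G I (z_mem_LamS L he)⟩

/-- the base function of `Cfg1` as an element of `B^S`. -/
def u0B : BS G I := ⟨L.u0, mem_BS_of_mem_LamS G I (u0_mem_LamS L he)⟩

/-- the base function of `Cfg2` as an element of `B^S`. -/
def u0'B : BS G I := ⟨L.u0', mem_BS_of_mem_LamS G I (u0'_mem_LamS L he)⟩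

/-- the cofactor of `Cfg1` as an element of `B^S`. -/
def cof1B (hez : 1 ≤ ez) : BS G I := ⟨cof1 L, mem_BS_of_mem_LamS G I (cof1_mem_LamS L he hez)⟩

/-- the cofactor of `Cfg2` as an element of `B^S`. -/
def cof2B (hez : 1 ≤ ez) : BS G I := ⟨cof2 L, mem_BS_of_mem_LamS G I (cof2_mem_LamS L he hez)⟩

@[simp] theorem coe_zB : ((zB L he : BS G I) : F) = L.z := rfl
@[simp] theorem coe_u0B : ((u0B L he : BS G I) : F) = L.u0 := rfl
@[simp] theorem coe_u0'B : ((u0'B L he : BS G I) : F) = L.u0' := rfl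
@[simp] theorem coe_cof1B (hez : 1 ≤ ez) : ((cof1B L he hez : BS G I) : F) = cof1 L := rfl
@[simp] theorem coe_cof2B (hez : 1 ≤ ez) : ((cof2B L he hez : BS G I) : F) = cof2 L := rfl

/-- **The base factorisation of `Cfg1` in `B^S`.** -/
theorem base_eq1 (hez : 1 ≤ ez) {ρW ρD : Polynomial I.fixedRing}
    (hW : ρW.map (A.subtype.comp I.fixedRing.subtype) = divPoly L.z (W1 L))
    (hD : ρD.map (A.subtype.comp I.fixedRing.subtype) = divPoly L.z (D1 L)) :
    u0B L he * cof1B L he hez = aeval (zB L he) ρW * aeval (zB L he) ρD := by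
  apply Subtype.ext
  rw [MulMemClass.coe_mul, MulMemClass.coe_mul, coe_aeval_BS, coe_aeval_BS, hW, hD]
  exact u0_mul_cof1 L he

/-- **The base factorisation of `Cfg2` in `B^S`.** -/
theorem base_eq2 (hez : 1 ≤ ez) {ρW ρD : Polynomial I.fixedRing}
    (hW : ρW.map (A.subtype.comp I.fixedRing.subtype) = divPoly L.z (W2 L))
    (hD : ρD.map (A.subtype.comp I.fixedRing.subtype) = divPoly L.z (D0 L)) :
    u0'B L he * cof2B L he hez = aeval (zB L he) ρW * aeval (zB L he) ρD := by
  apply Subtype.ext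
  rw [MulMemClass.coe_mul, MulMemClass.coe_mul, coe_aeval_BS, coe_aeval_BS, hW, hD]
  exact u0'_mul_cof2 L he

/-! reductions in `Bbar` -/

theorem coe_resB_zB : ((resB G I (zB L he) : Bbar G) : κ) = c.z := L.res_z

theorem coe_resB_u0B : ((resB G I (u0B L he) : Bbar G) : κ) = c.u0 := L.res_u0

theorem coe_resB_u0'B : ((resB G I (u0'B L he) : Bbar G) : κ) = c.u0' := L.res_u0'

theorem coe_resB_cof1B (hez : 1 ≤ ez) :
    ((resB G I (cof1B L he hez) : Bbar G) : κ) = u1' c := res_cof1 L he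

theorem coe_resB_cof2B (hez : 1 ≤ ez) :
    ((resB G I (cof2B L he hez) : Bbar G) : κ) = u2' c := res_cof2 L he

end Poly

end Fermat.Agent.S19x.Geo.Residual.BaseData
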