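import Fermat.Agent.S19x.Geo.Residual.FinalGlue
import Fermat.Agent.S19x.Geo.Residual.BaseData
import Fermat.Agent.S19x.Geo.FrameFacts
import Fermat.Agent.S19x.Geo.ResidualGenusZero
import Fermat.Agent.S19x.Geo.AbsMain

/-!
# P-S19, block A, leaf L6: the last plug (helper32, backup of `Residual/Builder`)

`residualBuilder` : `ConfigOfLeaves.ResidualBuilder G I` from `LatticeFixed.FixData` and
`span_K {fixed} = ⊤`, by instantiating `FinalGlue.exists_residualOut_of_frames` (helper92) at the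
base data of a lifted configuration (`Residual/BaseData`, helper41) for the two configurations,
with the frames of `FrameFacts.fixedLatticeFacts` (helper17) at `N0 = 2g - 1`, and the genus-zero
branch of `ResidualGenusZero` (helper97).

`residualTarget : Geo.ResidualTarget` is the closed form of `Geo/AbsMain`.
-/

set_option autoImplicit false
set_option linter.unusedSectionVars false
set_option linter.unusedVariables false
set_option linter.style.haveILetI false

noncomputable section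

namespace Fermat.Agent.S19x.Geo.Residual.BuilderB

open AlgebraicCurve IsLocalRing Module Polynomial
open Fermat.Agent.Gateway.C0 Fermat.Agent.Gateway.Red Fermat.Agent.S27x.Spec.Inj
  Fermat.Agent.S27x.Spec.Disc Fermat.Agent.S19x.Geo Fermat.Agent.S19x.Geo.Lattice
  Fermat.Agent.S19x.Geo.Frame Fermat.Agent.S19x.Geo.JacKerMult
  Fermat.Agent.S19x.Geo.TrueSol Fermat.Agent.S19x.Geo.NiceRepL Fermat.Agent.S19x.Geo.LiftCfg
  Fermat.Agent.S19x.Geo.ConfigOfLeaves Fermat.Agent.S19x.Geo.BaseCfgResSol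
  Fermat.Agent.S19x.Geo.Residual.BaseData Fermat.Agent.S19x.Geo.Residual.FinalGlue

universe u v w z

variable {K : Type u} [Field K] {A : ValuationSubring K}
  {F : Type v} [Field F] [Algebra K F] {O : ValuationSubring F}
  {k : Type w} {κ : Type z} [Field k] [Field κ] [Algebra k κ]
  [HasPrincipalDivisors K F] [∀ v : Place K F, v.FiniteResidue]
  [HasPrincipalDivisors k κ] [∀ v : Place k κ, v.FiniteResidue]

section Cfg

variable [Nonempty (Place k κ)] [IsAlgClosed k] {G : GeoSetting A O k κ} {I : InertiaData G}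
  {m m' : ℕ} {e : ℤ} {c : BaseCfg G.oob m m' e} (L : LiftedCfg (I := I) c)
  {ez : ℕ} (he : e = (ez : ℤ)) {N0 : ℕ} (H : FixedLatticeFacts G I N0)
  (hN0 : 2 * (G.g : ℤ) - 1 ≤ N0)

include he H hN0 in
/-- **The Residual Theorem for `Cfg1`** (`W0 = C0 + 3 D0`, `Dc = D1`, pole order `m`). -/
theorem exists_residualOut1 (hez : 1 ≤ ez) (hNm : N0 ≤ m) (hNm' : N0 ≤ ez * m - m)
    (hordz : G.oob.ord c.z = -e) :
    ∃ R : ResidualOut I, R.z = L.z ∧ R.m = m ∧ R.W0 = W1 L ∧ R.Dc = D1 L := by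
  obtain ⟨ρW, ρD, hWm, hDm, hWmap, hDmap, hdegW, hdegD, hWbar, hDbar⟩ := exists_rho1 L he
  have hj1 : m = N0 + (m - N0) := by omega
  have hj2 : ez * m - m = N0 + (ez * m - m - N0) := by omega
  have hN2 : (ez : ℤ) * m - m = ((N0 + (ez * m - m - N0) : ℕ) : ℤ) := by
    rw [← hj2, cast_sub_eq m hez]
  have hu0 : ((u0B L he : BS G I) : F) ∈ LamS G I (N0 + (m - N0)) := by
    rw [← hj1]
    exact u0_mem_LamS L he
  have hu0' : ((cof1B L he hez : BS G I) : F) ∈ LamS G I (N0 + (ez * m - m - N0)) := by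
    rw [← hj2]
    exact cof1_mem_LamS L he hez
  have hres1 : G.R.res ⟨((u0B L he : BS G I) : F), mem_O_of_mem_BS G I (u0B L he).2⟩ = c.u0 :=
    L.res_u0
  have hres2 : G.R.res ⟨((cof1B L he hez : BS G I) : F),
      mem_O_of_mem_BS G I (cof1B L he hez).2⟩ = u1' c := res_cof1 L he
  have Inp : Input G m ez ((zB L he : BS G I) : F) c.z
      (fun Q => valAt Q ((zB L he : BS G I) : F)) c.D1 (fix1 c) (mu1 c) c.val
      (G.R.res ⟨((u0B L he : BS G I) : F), mem_O_of_mem_BS G I (u0B L he).2⟩)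
      (G.R.res ⟨((cof1B L he hez : BS G I) : F), mem_O_of_mem_BS G I (cof1B L he hez).2⟩) := by
    rw [hres1, hres2]
    exact input1 L he
  have hepos : 0 < e := by
    rw [he]
    exact_mod_cast hez
  have hord' : G.oob.ord (G.R.res ⟨((cof1B L he hez : BS G I) : F),
      mem_O_of_mem_BS G I (cof1B L he hez).2⟩) ≤ -((N0 + (ez * m - m - N0) : ℕ) : ℤ) := by
    rw [hres2, BaseCfgExact.ord_u1'_oo c hepos hordz, ← hN2, he]
  have hdegW1 : Divisor.degree (W1 L) = ((m - G.g : ℕ) : ℤ) := by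
    rw [degree_W1]
    omega
  obtain ⟨R, hz, hm, hW, hDc, -⟩ := exists_residualOut_of_frames H hN0 (m - N0)
    (ez * m - m - N0) hj1 hN2 (zB L he) (u0B L he) (cof1B L he hez) hu0 hu0' ρW ρD hDm hdegD
    hWmap hDmap hWbar (base_eq1 L he hez hWmap hDmap) Inp hord' (spDiv_W1_eq L) (spDiv_D1 L)
    (W1_nonneg L) hdegW1 (D1_nonneg L) (degree_D1 L) (isPrincipal_W1 L)
  exact ⟨R, hz, hm, hW, hDc⟩

include he H hN0 in
/-- **The Residual Theorem for `Cfg2`** (`W0 = C0' + D1`, `Dc = D0`, pole order `m'`). -/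
theorem exists_residualOut2 (hez : 1 ≤ ez) (hNm : N0 ≤ m') (hNm' : N0 ≤ ez * m' - m')
    (hordz : G.oob.ord c.z = -e) :
    ∃ R : ResidualOut I, R.z = L.z ∧ R.m = m' ∧ R.W0 = W2 L ∧ R.Dc = D0 L := by
  obtain ⟨ρW, ρD, hWm, hDm, hWmap, hDmap, hdegW, hdegD, hWbar, hDbar⟩ := exists_rho2 L he
  have hj1 : m' = N0 + (m' - N0) := by omega
  have hj2 : ez * m' - m' = N0 + (ez * m' - m' - N0) := by omega
  have hN2 : (ez : ℤ) * m' - m' = ((N0 + (ez * m' - m' - N0) : ℕ) : ℤ) := by
    rw [← hj2, cast_sub_eq m' hez]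
  have hu0 : ((u0'B L he : BS G I) : F) ∈ LamS G I (N0 + (m' - N0)) := by
    rw [← hj1]
    exact u0'_mem_LamS L he
  have hu0' : ((cof2B L he hez : BS G I) : F) ∈ LamS G I (N0 + (ez * m' - m' - N0)) := by
    rw [← hj2]
    exact cof2_mem_LamS L he hez
  have hres1 : G.R.res ⟨((u0'B L he : BS G I) : F), mem_O_of_mem_BS G I (u0'B L he).2⟩ = c.u0' :=
    L.res_u0'
  have hres2 : G.R.res ⟨((cof2B L he hez : BS G I) : F),
      mem_O_of_mem_BS G I (cof2B L he hez).2⟩ = u2' c := res_cof2 L he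
  have Inp : Input G m' ez ((zB L he : BS G I) : F) c.z
      (fun Q => valAt Q ((zB L he : BS G I) : F)) c.D0 (fix2 c) (mu2 c) c.val
      (G.R.res ⟨((u0'B L he : BS G I) : F), mem_O_of_mem_BS G I (u0'B L he).2⟩)
      (G.R.res ⟨((cof2B L he hez : BS G I) : F), mem_O_of_mem_BS G I (cof2B L he hez).2⟩) := by
    rw [hres1, hres2]
    exact input2 L he
  have hepos : 0 < e := by
    rw [he]
    exact_mod_cast hez
  have hord' : G.oob.ord (G.R.res ⟨((cof2B L he hez : BS G I) : F),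
      mem_O_of_mem_BS G I (cof2B L he hez).2⟩) ≤ -((N0 + (ez * m' - m' - N0) : ℕ) : ℤ) := by
    rw [hres2, BaseCfgExact.ord_u2'_oo c hepos hordz, ← hN2, he]
  have hdegW2 : Divisor.degree (W2 L) = ((m' - G.g : ℕ) : ℤ) := by
    rw [degree_W2]
    omega
  obtain ⟨R, hz, hm, hW, hDc, -⟩ := exists_residualOut_of_frames H hN0 (m' - N0)
    (ez * m' - m' - N0) hj1 hN2 (zB L he) (u0'B L he) (cof2B L he hez) hu0 hu0' ρW ρD hDm hdegD
    hWmap hDmap hWbar (base_eq2 L he hez hWmap hDmap) Inp hord' (spDiv_W2_eq L) (spDiv_D0 L)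
    (W2_nonneg L) hdegW2 (D0_nonneg L) (degree_D0 L) (isPrincipal_W2 L)
  exact ⟨R, hz, hm, hW, hDc⟩

end Cfg


/-! ### The builder and the closed target -/

section Top

variable [IsAlgClosed k]

/-- **The Residual-Theorem builder (L6)** from the two descent hypotheses. -/
theorem residualBuilder (G : GeoSetting A O k κ) (I : InertiaData G)
    (hD : LatticeFixed.FixData G.R (I.S : Set (SemilinearAut K F)))
    (hF : Submodule.span K {f : F | LatticeFixed.IsFixed (I.S : Set (SemilinearAut K F)) f} = ⊤) :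
    ConfigOfLeaves.ResidualBuilder G I := by
  refine ResidualGenusZero.residualBuilder_of_pos fun hg => ?_
  haveI := G.nonempty_placeκ
  intro m m' e c L hm hm' he hordz
  have he0 : 0 ≤ e := by omega
  obtain ⟨ez, rfl⟩ : ∃ ez : ℕ, e = (ez : ℤ) := ⟨e.toNat, (Int.toNat_of_nonneg he0).symm⟩
  have hez : 2 * (m + m') + 1 ≤ ez := by exact_mod_cast he
  have hez1 : 1 ≤ ez := by omega
  have hN0 : 2 * (G.g : ℤ) - 1 ≤ ((2 * G.g - 1 : ℕ) : ℤ) := by omega
  have H := FrameFacts.fixedLatticeFacts I hD hF hN0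
  have h2 : 2 ≤ ez := by omega
  have hmle : m ≤ ez * m - m := by
    have : 2 * m ≤ ez * m := Nat.mul_le_mul_right m h2
    omega
  have hmle' : m' ≤ ez * m' - m' := by
    have : 2 * m' ≤ ez * m' := Nat.mul_le_mul_right m' h2
    omega
  exact ⟨exists_residualOut1 L rfl H hN0 hez1 (by omega) (by omega) hordz,
    exists_residualOut2 L rfl H hN0 hez1 (by omega) (by omega) hordz⟩

end Top

/-- **`ResidualTarget`** (the closed form of `Geo/AbsMain`). -/
theorem residualTarget : Fermat.Agent.S19x.Geo.ResidualTarget :=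
  fun G I hD hF => residualBuilder G I hD hF

end Fermat.Agent.S19x.Geo.Residual.BuilderB
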