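import Fermat.Agent.S27x.Lift.FactorSystem
import Fermat.Agent.S19x.Geo.FrameAlg
import Fermat.Agent.S19x.Geo.ResidualCore

/-!
# P-S19, block A, leaf L6 (S)-BUILD (helper41): the factorisation system of an adapted frame

Pure algebra.  `FD : FrameAlg.FiltRed π B Bbar` is a filtered reduction (helper27's `Geo/FrameAlg`)
of a commutative `R`-algebra `B` (for us `R = O^ur`, `B = B^S = ⋃ₘ Λ(m∞)^S`) with a ring-level
reduction map and a multiplicative filtration (`RingCompat`).  We build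

* `sysData FD j1 j2 j3 z rfix t0 α0 : FactorSystem.Data R B (Fin (r0+j1)) (Fin (r0+j2)) (Fin (r0+j3))`
  (`b1 = b2 = frame`, `φ = coord`, exponent `1`) : the datum `D` consumed by
  `Geo/ResidualCore(NA)`, `Geo/KerDict`, `Geo/FactorJac`;
* `sqEquiv` : equations ≃ unknowns when `r0 + j3 + 1 = (r0 + j1) + (r0 + j2) + g`;
* `basePt FD j1 j2 u0 u0' ρ` : the coordinates of a base factorisation `u0 * u0' = rfix * ρ(z)`, and
  `isSol_basePt` : it is a solution of `sysData` (normalisation `α0 := coord t0 u0`);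
* `value_mem`, `hsep` : the values of the system lie in `L (N0 + j3)`, where the coordinate
  functionals separate points;
* the special-fibre inputs of `KerDict.isUnit_det_jacobian_of_resSolM`: `hφ`, `hsepbar`,
  `linearIndependent_b1bar/_b2bar`, `uOf_bar_basePt`, `vOf_bar_basePt`;
* `isSolP_of_factorisation` : coordinates (in the extended frame over a bigger valuation ring `P`)
  of a true factorisation give `ResidualCore.IsSolP`; `coord_compat` : the coordinate functionals
  of the extended frame extend those of the frame; `rfix_param_eq` : the parametrised fixed factor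
  `ι (ρ_{W0}(z)) + ∑ l, a_l z^l` is `ρ_W(z)`.
-/

set_option autoImplicit false
set_option linter.unusedSectionVars false

noncomputable section

namespace Fermat.Agent.S19x.Geo.Residual.FrameSystem

open Fermat.Agent.S27x.Lift.FactorSystem Fermat.Agent.S19x.Geo.FrameAlg

variable {R : Type*} [CommRing R] [IsDomain R] [ValuationRing R] {k : Type*} [Field k]
  {π : R →+* k}
variable {B : Type*} [CommRing B] [Algebra R B]
variable {Bbar : Type*} [CommRing Bbar] [Algebra k Bbar]

/-- Ring-level compatibility of a filtered reduction: the reduction is a ring homomorphism and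
the filtration is multiplicative at the levels `≥ N0`. -/
structure RingCompat (FD : FiltRed π B Bbar) where
  /-- the reduction as a ring homomorphism -/
  redR : B →+* Bbar
  redR_eq : ∀ x, redR x = FD.red x
  /-- multiplicativity of the filtration at the levels `≥ N0` (the levels below `N0` of the frame
  datum of `Geo/Frame` are identified with the level `N0`) -/
  mul_mem : ∀ i j x y, x ∈ FD.L (FD.N0 + i) → y ∈ FD.L (FD.N0 + j) →
    x * y ∈ FD.L (FD.N0 + i + (FD.N0 + j))

section Build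

variable (FD : FiltRed π B Bbar)

/-- **The factorisation system of the frame**: `u ∈ L (N0 + j1)`, `u' ∈ L (N0 + j2)`, equations
read off by the first `r0 + j3` coordinate functionals, exponent `1`. -/
def sysData [NoZeroSMulDivisors R B] (j1 j2 j3 : ℕ) (z rfix : B) (t0 : Fin (FD.r0 + j1))
    (α0 : R) : Data R B (Fin (FD.r0 + j1)) (Fin (FD.r0 + j2)) (Fin (FD.r0 + j3)) where
  b1 s := FD.frame s
  b2 t := FD.frame t
  z := z
  rfix := rfix
  n := 1
  φ w := FD.coord w
  t0 := t0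
  α0 := α0

/-- equations ≃ unknowns. -/
def sqEquiv {j1 j2 j3 g : ℕ} (h : FD.r0 + j3 + 1 = (FD.r0 + j1) + (FD.r0 + j2) + g) :
    Fin (FD.r0 + j3) ⊕ Unit ≃ Idx (Fin (FD.r0 + j1)) (Fin (FD.r0 + j2)) g :=
  Fintype.equivOfCardEq (by
    simp only [Fintype.card_sum, Fintype.card_fin, Fintype.card_unit]
    omega)

variable [NoZeroSMulDivisors R B]

/-- the first `r0 + j` coordinates recover an element of `L (N0 + j)`. -/
theorem sum_coord_smul_frame {j : ℕ} {x : B} (hx : x ∈ FD.L (FD.N0 + j)) :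
    ∑ s : Fin (FD.r0 + j), FD.coord s x • FD.frame s = x := by
  classical
  have hmem : ∑ s : Fin (FD.r0 + j), FD.coord s x • FD.frame s ∈ FD.L (FD.N0 + j) :=
    Submodule.sum_mem _ fun s _ => Submodule.smul_mem _ _ (FD.frame_mem j s.2)
  have h0 : x - ∑ s : Fin (FD.r0 + j), FD.coord s x • FD.frame s = 0 := by
    refine FD.eq_zero_of_coord_eq_zero (Submodule.sub_mem _ hx hmem) fun i hi => ?_
    rw [map_sub, map_sum, sub_eq_zero]
    simp only [map_smul, FD.coord_frame, smul_eq_mul]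
    rw [Finset.sum_eq_single (⟨i, hi⟩ : Fin (FD.r0 + j))]
    · simp
    · intro b _ hb
      rw [if_neg (fun h => hb (Fin.ext h)), mul_zero]
    · intro h
      exact absurd (Finset.mem_univ _) h
  exact (sub_eq_zero.mp h0).symm

/-- a coordinate of a combination of the first frame vectors. -/
theorem coord_sum_smul_frame {j : ℕ} (c : Fin (FD.r0 + j) → R) (s : Fin (FD.r0 + j)) :
    FD.coord s (∑ s' : Fin (FD.r0 + j), c s' • FD.frame s') = c s := by
  classical
  rw [map_sum]
  simp only [map_smul, FD.coord_frame, smul_eq_mul]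
  rw [Finset.sum_eq_single s]
  · simp
  · intro b _ hb
    rw [if_neg (fun h => hb (Fin.ext h)), mul_zero]
  · intro h
    exact absurd (Finset.mem_univ _) h

variable {j1 j2 j3 g : ℕ} (z rfix : B) (t0 : Fin (FD.r0 + j1)) (α0 : R)

theorem sys_uOf (x : Idx (Fin (FD.r0 + j1)) (Fin (FD.r0 + j2)) g → R) :
    (sysData FD j1 j2 j3 z rfix t0 α0).toCore.uOf (Data.pt x)
      = ∑ s : Fin (FD.r0 + j1), x (uIdx s) • FD.frame s := by
  simp only [Core.uOf, Data.pt, sysData, Algebra.smul_def]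

theorem sys_vOf (x : Idx (Fin (FD.r0 + j1)) (Fin (FD.r0 + j2)) g → R) :
    (sysData FD j1 j2 j3 z rfix t0 α0).toCore.vOf (Data.pt x)
      = ∑ t : Fin (FD.r0 + j2), x (vIdx t) • FD.frame t := by
  simp only [Core.vOf, Data.pt, sysData, Algebra.smul_def]

theorem sys_rvar (x : Idx (Fin (FD.r0 + j1)) (Fin (FD.r0 + j2)) g → R) :
    (sysData FD j1 j2 j3 z rfix t0 α0).toCore.rvar (Data.pt x)
      = Polynomial.aeval z (rvarPoly fun l => x (rIdx l)) := by
  rw [Core.rvar_eq_eval]
  show Polynomial.eval z (rvarPoly fun l => algebraMap R B (x (rIdx l))) = _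
  rw [← rvarPoly_map (algebraMap R B), Polynomial.eval_map_algebraMap]

theorem sys_uOf_mem (x : Idx (Fin (FD.r0 + j1)) (Fin (FD.r0 + j2)) g → R) :
    (sysData FD j1 j2 j3 z rfix t0 α0).toCore.uOf (Data.pt x) ∈ FD.L (FD.N0 + j1) := by
  rw [sys_uOf]
  exact Submodule.sum_mem _ fun s _ => Submodule.smul_mem _ _ (FD.frame_mem j1 s.2)

theorem sys_vOf_mem (x : Idx (Fin (FD.r0 + j1)) (Fin (FD.r0 + j2)) g → R) :
    (sysData FD j1 j2 j3 z rfix t0 α0).toCore.vOf (Data.pt x) ∈ FD.L (FD.N0 + j2) := by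
  rw [sys_vOf]
  exact Submodule.sum_mem _ fun s _ => Submodule.smul_mem _ _ (FD.frame_mem j2 s.2)

/-! ### The base solution -/

/-- the coordinates of a base factorisation `(u0, u0', ρ)`. -/
def basePt (j1 j2 : ℕ) {g : ℕ} (u0 u0' : B) (ρ : Polynomial R) :
    Idx (Fin (FD.r0 + j1)) (Fin (FD.r0 + j2)) g → R :=
  Sum.elim (fun s => FD.coord s u0) (Sum.elim (fun t => FD.coord t u0') fun l => ρ.coeff l)

theorem basePt_uIdx (u0 u0' : B) (ρ : Polynomial R) (s : Fin (FD.r0 + j1)) :
    basePt FD j1 j2 (g := g) u0 u0' ρ (uIdx s) = FD.coord s u0 := rfl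

theorem basePt_vIdx (u0 u0' : B) (ρ : Polynomial R) (t : Fin (FD.r0 + j2)) :
    basePt FD j1 j2 (g := g) u0 u0' ρ (vIdx t) = FD.coord t u0' := rfl

theorem basePt_rIdx (u0 u0' : B) (ρ : Polynomial R) (l : Fin g) :
    basePt FD j1 j2 (g := g) u0 u0' ρ (rIdx l) = ρ.coeff l := rfl

theorem uOf_basePt {u0 : B} (hu0 : u0 ∈ FD.L (FD.N0 + j1)) (u0' : B) (ρ : Polynomial R) :
    (sysData FD j1 j2 j3 z rfix t0 α0).toCore.uOf
      (Data.pt (basePt FD j1 j2 (g := g) u0 u0' ρ)) = u0 := by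
  rw [sys_uOf]
  exact sum_coord_smul_frame FD hu0

theorem vOf_basePt (u0 : B) {u0' : B} (hu0' : u0' ∈ FD.L (FD.N0 + j2)) (ρ : Polynomial R) :
    (sysData FD j1 j2 j3 z rfix t0 α0).toCore.vOf
      (Data.pt (basePt FD j1 j2 (g := g) u0 u0' ρ)) = u0' := by
  rw [sys_vOf]
  exact sum_coord_smul_frame FD hu0'

theorem rvar_basePt (u0 u0' : B) {ρ : Polynomial R} (hρ : ρ.Monic) (hdeg : ρ.natDegree = g) :
    (sysData FD j1 j2 j3 z rfix t0 α0).toCore.rvar
      (Data.pt (basePt FD j1 j2 (g := g) u0 u0' ρ)) = Polynomial.aeval z ρ := by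
  rw [sys_rvar]
  congr 1
  exact rvarPoly_coeff_eq hρ hdeg

/-- **The base solution.** -/
theorem isSol_basePt {u0 u0' : B} (hu0 : u0 ∈ FD.L (FD.N0 + j1))
    (hu0' : u0' ∈ FD.L (FD.N0 + j2)) {ρ : Polynomial R} (hρ : ρ.Monic) (hdeg : ρ.natDegree = g)
    (hprod : u0 * u0' = rfix * Polynomial.aeval z ρ) :
    (sysData FD j1 j2 j3 z rfix t0 (FD.coord t0 u0)).IsSol
      (basePt FD j1 j2 (g := g) u0 u0' ρ) := by
  refine ⟨?_, rfl⟩
  rw [uOf_basePt FD z rfix t0 _ hu0, vOf_basePt FD z rfix t0 _ u0 hu0',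
    rvar_basePt FD z rfix t0 _ u0 u0' hρ hdeg, hprod]
  show _ = (rfix * _) ^ 1
  rw [pow_one]

/-! ### Separation on the `R`-side -/

variable (C : RingCompat FD)

include C in
theorem sys_value_mem (hlev : FD.N0 + j1 + (FD.N0 + j2) ≤ FD.N0 + j3)
    (hrz : ∀ l, l ≤ g → rfix * z ^ l ∈ FD.L (FD.N0 + j3))
    (x : Idx (Fin (FD.r0 + j1)) (Fin (FD.r0 + j2)) g → R) :
    (sysData FD j1 j2 j3 z rfix t0 α0).toCore.value (Data.pt x) ∈ FD.L (FD.N0 + j3) := by
  rw [Core.value]
  refine Submodule.sub_mem _ ?_ ?_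
  · exact FD.L_mono hlev (C.mul_mem _ _ _ _ (sys_uOf_mem FD z rfix t0 α0 x)
      (sys_vOf_mem FD z rfix t0 α0 x))
  · show ((sysData FD j1 j2 j3 z rfix t0 α0).rfix
      * (sysData FD j1 j2 j3 z rfix t0 α0).toCore.rvar (Data.pt x)) ^ 1 ∈ _
    rw [pow_one, Core.rvar, Core.rdot, mul_add, Finset.mul_sum]
    refine Submodule.add_mem _ (hrz g le_rfl) (Submodule.sum_mem _ fun l _ => ?_)
    show rfix * (algebraMap R B (x (rIdx l)) * z ^ (l : ℕ)) ∈ _
    rw [mul_left_comm, ← Algebra.smul_def]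
    exact Submodule.smul_mem _ _ (hrz l l.2.le)

include C in
/-- the coordinate functionals separate the values of the system. -/
theorem sys_hsep (hlev : FD.N0 + j1 + (FD.N0 + j2) ≤ FD.N0 + j3)
    (hrz : ∀ l, l ≤ g → rfix * z ^ l ∈ FD.L (FD.N0 + j3))
    (x : Idx (Fin (FD.r0 + j1)) (Fin (FD.r0 + j2)) g → R)
    (h : ∀ w, (sysData FD j1 j2 j3 z rfix t0 α0).φ w
      ((sysData FD j1 j2 j3 z rfix t0 α0).toCore.value (Data.pt x)) = 0) :
    (sysData FD j1 j2 j3 z rfix t0 α0).toCore.value (Data.pt x) = 0 :=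
  FD.eq_zero_of_coord_eq_zero (sys_value_mem FD z rfix t0 α0 C hlev hrz x)
    fun i hi => h ⟨i, hi⟩

/-! ### The special-fibre inputs of the Jacobian criterion -/

/-- `hφ` of `FactorJac.isUnit_det_jacobian` / `KerDict.isUnit_det_jacobian_of_resSolM`. -/
theorem sys_hφ (w : Fin (FD.r0 + j3)) (b : B) :
    FD.coordBar w (C.redR b) = π ((sysData FD j1 j2 j3 z rfix t0 α0).φ w b) := by
  rw [C.redR_eq]
  exact FD.coordBar_red w b

theorem redR_smul (a : R) (x : B) : C.redR (a • x) = algebraMap k Bbar (π a) * C.redR x := by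
  rw [C.redR_eq, C.redR_eq, FD.red_smul, Algebra.smul_def]

theorem redR_mem {n : ℕ} {x : B} (hx : x ∈ FD.L n) : C.redR x ∈ FD.Lbar n := by
  rw [C.redR_eq]
  exact FD.red_mem n x hx

theorem redR_algebraMap (a : R) : C.redR (algebraMap R B a) = algebraMap k Bbar (π a) := by
  have := redR_smul FD C a 1
  rwa [Algebra.smul_def, mul_one, map_one, mul_one] at this

theorem uOf_bar_mem (v : Idx (Fin (FD.r0 + j1)) (Fin (FD.r0 + j2)) g → k) :
    ((sysData FD j1 j2 j3 z rfix t0 α0).toCore.map C.redR).uOf (ptbar v)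
      ∈ FD.redMap (FD.L (FD.N0 + j1)) := by
  classical
  have hsurj : ∀ c : k, ∃ a : R, π a = c := FD.π_surj
  choose lift hlift using hsurj
  refine ⟨∑ s : Fin (FD.r0 + j1), lift (v (uIdx s)) • FD.frame s,
    Submodule.sum_mem _ fun s _ => Submodule.smul_mem _ _ (FD.frame_mem j1 s.2), ?_⟩
  rw [← C.redR_eq, map_sum]
  refine Finset.sum_congr rfl fun s _ => ?_
  rw [redR_smul, hlift]
  rfl

theorem vOf_bar_mem (v : Idx (Fin (FD.r0 + j1)) (Fin (FD.r0 + j2)) g → k) :
    ((sysData FD j1 j2 j3 z rfix t0 α0).toCore.map C.redR).vOf (ptbar v)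
      ∈ FD.redMap (FD.L (FD.N0 + j2)) := by
  classical
  have hsurj : ∀ c : k, ∃ a : R, π a = c := FD.π_surj
  choose lift hlift using hsurj
  refine ⟨∑ t : Fin (FD.r0 + j2), lift (v (vIdx t)) • FD.frame t,
    Submodule.sum_mem _ fun t _ => Submodule.smul_mem _ _ (FD.frame_mem j2 t.2), ?_⟩
  rw [← C.redR_eq, map_sum]
  refine Finset.sum_congr rfl fun t _ => ?_
  rw [redR_smul, hlift]
  rfl

include C in
/-- the product of reductions of elements of `L (N0 + i)`, `L (N0 + j)` lies in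
`Lbar (N0 + i + (N0 + j))`. -/
theorem mul_mem_Lbar_of_redMap {i j : ℕ} {y y' : Bbar} (hy : y ∈ FD.redMap (FD.L (FD.N0 + i)))
    (hy' : y' ∈ FD.redMap (FD.L (FD.N0 + j))) : y * y' ∈ FD.Lbar (FD.N0 + i + (FD.N0 + j)) := by
  obtain ⟨x, hx, rfl⟩ := hy
  obtain ⟨x', hx', rfl⟩ := hy'
  rw [← C.redR_eq, ← C.redR_eq, ← map_mul]
  exact redR_mem FD C (C.mul_mem _ _ _ _ hx hx')

/-- the differential of the reduced system takes its values in `Lbar (N0 + j3)`. -/
theorem sys_dval_mem (hlev : FD.N0 + j1 + (FD.N0 + j2) ≤ FD.N0 + j3)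
    (hrz : ∀ l, l ≤ g → rfix * z ^ l ∈ FD.L (FD.N0 + j3))
    (xbar v : Idx (Fin (FD.r0 + j1)) (Fin (FD.r0 + j2)) g → k) :
    ((sysData FD j1 j2 j3 z rfix t0 α0).toCore.map C.redR).dval (ptbar xbar) (ptbar v)
      ∈ FD.Lbar (FD.N0 + j3) := by
  rw [Core.dval]
  have hn : ((sysData FD j1 j2 j3 z rfix t0 α0).toCore.map C.redR).n = 1 := rfl
  rw [hn]
  simp only [Nat.cast_one, Nat.sub_self, pow_zero, mul_one, one_mul]
  refine Submodule.sub_mem _ (Submodule.add_mem _ ?_ ?_) ?_
  · exact FD.Lbar_mono hlev (mul_mem_Lbar_of_redMap FD C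
      (uOf_bar_mem FD z rfix t0 α0 C v) (vOf_bar_mem FD z rfix t0 α0 C xbar))
  · exact FD.Lbar_mono hlev (mul_mem_Lbar_of_redMap FD C
      (uOf_bar_mem FD z rfix t0 α0 C xbar) (vOf_bar_mem FD z rfix t0 α0 C v))
  · rw [Core.rdot, Finset.mul_sum]
    refine Submodule.sum_mem _ fun l _ => ?_
    show C.redR rfix * (algebraMap k Bbar (v (rIdx l)) * C.redR z ^ (l : ℕ)) ∈ _
    rw [mul_left_comm, ← Algebra.smul_def, ← map_pow, ← map_mul]
    exact Submodule.smul_mem _ _ (redR_mem FD C (hrz l l.2.le))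

/-- `hsepbar` of `KerDict.isUnit_det_jacobian_of_resSolM`. -/
theorem sys_hsepbar (hlev : FD.N0 + j1 + (FD.N0 + j2) ≤ FD.N0 + j3)
    (hrz : ∀ l, l ≤ g → rfix * z ^ l ∈ FD.L (FD.N0 + j3))
    (xbar v : Idx (Fin (FD.r0 + j1)) (Fin (FD.r0 + j2)) g → k)
    (h : ∀ w : Fin (FD.r0 + j3), FD.coordBar w
      (((sysData FD j1 j2 j3 z rfix t0 α0).toCore.map C.redR).dval (ptbar xbar) (ptbar v)) = 0) :
    ((sysData FD j1 j2 j3 z rfix t0 α0).toCore.map C.redR).dval (ptbar xbar) (ptbar v) = 0 :=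
  FD.eq_zero_of_coordBar_eq_zero (sys_dval_mem FD z rfix t0 α0 C hlev hrz xbar v)
    fun i hi => h ⟨i, hi⟩

/-- the reduced frame vectors of the lattice of `u` are linearly independent, also after an
injective `k`-linear map (e.g. the inclusion of `Bbar` into the residue function field). -/
theorem linearIndependent_b1bar {V : Type*} [AddCommGroup V] [Module k V] (ι : Bbar →ₗ[k] V)
    (hι : Function.Injective ι) :
    LinearIndependent k fun s : Fin (FD.r0 + j1) =>
      ι (C.redR ((sysData FD j1 j2 j3 z rfix t0 α0).b1 s)) := by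
  have h := FD.linearIndependent_frameBar_fin j1
  have h2 := h.map' ι (LinearMap.ker_eq_bot.mpr hι)
  have hfun : (fun s : Fin (FD.r0 + j1) => ι (C.redR ((sysData FD j1 j2 j3 z rfix t0 α0).b1 s)))
      = ⇑ι ∘ fun i : Fin (FD.r0 + j1) => FD.frameBar i := by
    funext s
    show ι (C.redR (FD.frame s)) = ι (FD.red (FD.frame s))
    rw [C.redR_eq]
  rw [hfun]
  exact h2

theorem linearIndependent_b2bar {V : Type*} [AddCommGroup V] [Module k V] (ι : Bbar →ₗ[k] V)
    (hι : Function.Injective ι) :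
    LinearIndependent k fun t : Fin (FD.r0 + j2) =>
      ι (C.redR ((sysData FD j1 j2 j3 z rfix t0 α0).b2 t)) := by
  have h := FD.linearIndependent_frameBar_fin j2
  have h2 := h.map' ι (LinearMap.ker_eq_bot.mpr hι)
  have hfun : (fun t : Fin (FD.r0 + j2) => ι (C.redR ((sysData FD j1 j2 j3 z rfix t0 α0).b2 t)))
      = ⇑ι ∘ fun i : Fin (FD.r0 + j2) => FD.frameBar i := by
    funext t
    show ι (C.redR (FD.frame t)) = ι (FD.red (FD.frame t))
    rw [C.redR_eq]
  rw [hfun]
  exact h2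

/-- the reduction of a point of the system. -/
theorem uOf_bar_eq (x : Idx (Fin (FD.r0 + j1)) (Fin (FD.r0 + j2)) g → R) :
    ((sysData FD j1 j2 j3 z rfix t0 α0).toCore.map C.redR).uOf (ptbar fun i => π (x i))
      = C.redR ((sysData FD j1 j2 j3 z rfix t0 α0).toCore.uOf (Data.pt x)) := by
  simp only [Core.uOf, Core.map, ptbar, Data.pt, map_sum, map_mul, redR_algebraMap]

theorem vOf_bar_eq (x : Idx (Fin (FD.r0 + j1)) (Fin (FD.r0 + j2)) g → R) :
    ((sysData FD j1 j2 j3 z rfix t0 α0).toCore.map C.redR).vOf (ptbar fun i => π (x i))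
      = C.redR ((sysData FD j1 j2 j3 z rfix t0 α0).toCore.vOf (Data.pt x)) := by
  simp only [Core.vOf, Core.map, ptbar, Data.pt, map_sum, map_mul, redR_algebraMap]

/-- `hu` of the Jacobian criterion at the base solution. -/
theorem uOf_bar_basePt {u0 : B} (hu0 : u0 ∈ FD.L (FD.N0 + j1)) (u0' : B) (ρ : Polynomial R) :
    ((sysData FD j1 j2 j3 z rfix t0 α0).toCore.map C.redR).uOf
      (ptbar fun i => π (basePt FD j1 j2 (g := g) u0 u0' ρ i)) = C.redR u0 := by
  rw [uOf_bar_eq, uOf_basePt FD z rfix t0 α0 hu0]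

/-- `hu'` of the Jacobian criterion at the base solution. -/
theorem vOf_bar_basePt (u0 : B) {u0' : B} (hu0' : u0' ∈ FD.L (FD.N0 + j2)) (ρ : Polynomial R) :
    ((sysData FD j1 j2 j3 z rfix t0 α0).toCore.map C.redR).vOf
      (ptbar fun i => π (basePt FD j1 j2 (g := g) u0 u0' ρ i)) = C.redR u0' := by
  rw [vOf_bar_eq, vOf_basePt FD z rfix t0 α0 u0 hu0']

/-- the normalised coordinate of the base solution has nonzero residue as soon as the
corresponding reduced coordinate of `red u0` is nonzero. -/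
theorem π_basePt_t0 (u0 u0' : B) (ρ : Polynomial R) :
    π (basePt FD j1 j2 (g := g) u0 u0' ρ (uIdx t0)) = FD.coordBar t0 (C.redR u0) := by
  rw [C.redR_eq, FD.coordBar_red]
  rfl

end Build

/-! ### True solutions over a bigger valuation ring -/

section TrueSol

variable [NoZeroSMulDivisors R B] (FD : FiltRed π B Bbar)
variable {P : Type*} [CommRing P] {BP : Type*} [CommRing BP] [Algebra P BP]
variable (ψ : R →+* P) (ι : B →+* BP)

/-- `ι` is `ψ`-semilinear. -/
theorem ι_smul (hι : ∀ r, ι (algebraMap R B r) = algebraMap P BP (ψ r)) (r : R) (b : B) :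
    ι (r • b) = ψ r • ι b := by
  rw [Algebra.smul_def, map_mul, hι, Algebra.smul_def]

variable {j1 j2 j3 g : ℕ} (z rfix : B) (t0 : Fin (FD.r0 + j1)) (α0 : R)
variable {κ : Type*} [Fintype κ]

/-- **A true factorisation gives a solution in the sense of `ResidualCore.IsSolP`**: `xs` are
the coordinates of `u*`, `u'*` in the extended frame `ι ∘ frame` and the lower coefficients of
`ρ_{E*}`. -/
theorem isSolP_of_factorisation (d : κ → ℕ) (a : κ → P)
    (xs : Idx (Fin (FD.r0 + j1)) (Fin (FD.r0 + j2)) g → P)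
    (hprod : (∑ s : Fin (FD.r0 + j1), xs (uIdx s) • ι (FD.frame s))
        * (∑ t : Fin (FD.r0 + j2), xs (vIdx t) • ι (FD.frame t))
      = (ι rfix + ∑ l, a l • ι z ^ d l)
        * (ι z ^ g + ∑ l : Fin g, xs (rIdx l) • ι z ^ (l : ℕ)))
    (hnorm : xs (uIdx t0) = ψ α0) :
    ResidualCore.IsSolP (sysData FD j1 j2 j3 z rfix t0 α0) ψ ι d a xs := by
  refine ⟨?_, hnorm⟩
  simp only [Core.uOf, Core.vOf, Core.rvar, Core.rdot, ResidualCore.coreP, ResidualCore.ptP,
    sysData, ← Algebra.smul_def]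
  exact hprod

theorem rfix_param_aux (hι : ∀ r, ι (algebraMap R B r) = algebraMap P BP (ψ r)) {dW : ℕ}
    (c0 : Fin dW → R) (c : Fin dW → P) :
    ι (Polynomial.aeval z (rvarPoly c0)) + ∑ l : Fin dW, (c l - ψ (c0 l)) • ι z ^ (l : ℕ)
      = Polynomial.aeval (ι z) (rvarPoly c) := by
  simp only [rvarPoly, map_add, map_sum, map_mul, map_pow, Polynomial.aeval_X,
    Polynomial.aeval_C, hι, Algebra.smul_def]
  rw [add_assoc, ← Finset.sum_add_distrib]
  congr 1
  refine Finset.sum_congr rfl fun l _ => ?_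
  rw [map_sub]
  ring

/-- the parametrised fixed factor is the value of the perturbed polynomial. -/
theorem rfix_param_eq (hι : ∀ r, ι (algebraMap R B r) = algebraMap P BP (ψ r)) {dW : ℕ}
    {ρ0 : Polynomial R} (hρ0 : ρ0.Monic) (hd0 : ρ0.natDegree = dW)
    {ρW : Polynomial P} (hρW : ρW.Monic) (hdW : ρW.natDegree = dW) :
    ι (Polynomial.aeval z ρ0)
      + ∑ l : Fin dW, (ρW.coeff l - ψ (ρ0.coeff l)) • ι z ^ (l : ℕ)
      = Polynomial.aeval (ι z) ρW := by
  have h := rfix_param_aux ψ ι z hι (fun l : Fin dW => ρ0.coeff l) (fun l : Fin dW => ρW.coeff l)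
  rw [rvarPoly_coeff_eq hρ0 hd0, rvarPoly_coeff_eq hρW hdW] at h
  exact h

end TrueSol

/-! ### The extended frame -/

section Extend

variable [NoZeroSMulDivisors R B] (FD : FiltRed π B Bbar)
variable {P : Type*} [CommRing P] [IsDomain P] [ValuationRing P] {kP : Type*} [Field kP]
  {πP : P →+* kP}
variable {BP : Type*} [AddCommGroup BP] [Module P BP] [NoZeroSMulDivisors P BP]
  {BPbar : Type*} [AddCommGroup BPbar] [Module kP BPbar] (FP : FiltRed πP BP BPbar)

/-- **The coordinate functionals of the extended frame extend those of the frame**: `ι` is a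
`ψ`-semilinear map sending the frame of `FD` to the frame of `FP`. -/
theorem coord_compat (ψ : R →+* P) (ι : B →+ BP) (hι : ∀ (r : R) (b : B), ι (r • b) = ψ r • ι b)
    (hframe : ∀ i, ι (FD.frame i) = FP.frame i) (w : ℕ) (b : B) :
    FP.coord w (ι b) = ψ (FD.coord w b) := by
  classical
  have hb : b = ∑ i ∈ (FD.frameBasis.repr b).support, FD.frameBasis.repr b i • FD.frame i := by
    conv_lhs => rw [← FD.frameBasis.linearCombination_repr b]
    rw [Finsupp.linearCombination_apply, Finsupp.sum]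
    exact Finset.sum_congr rfl fun i _ => by rw [FD.frameBasis_apply]
  have h1 : ι b = ∑ i ∈ (FD.frameBasis.repr b).support,
      ψ (FD.frameBasis.repr b i) • FP.frame i := by
    conv_lhs => rw [hb]
    rw [map_sum]
    exact Finset.sum_congr rfl fun i _ => by rw [hι, hframe]
  rw [h1, map_sum]
  simp only [map_smul, FP.coord_frame, smul_eq_mul, mul_ite, mul_one, mul_zero]
  rw [Finset.sum_ite_eq' (FD.frameBasis.repr b).support w]
  have hc : FD.coord w b = FD.frameBasis.repr b w := by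
    rw [FiltRed.coord, Module.Basis.coord_apply]
  rw [hc]
  split_ifs with hw
  · rfl
  · rw [Finsupp.notMem_support_iff.mp hw, map_zero]

end Extend

end Fermat.Agent.S19x.Geo.Residual.FrameSystem
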