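import Fermat.Agent.S19x.Geo.Residual.Glue
import Fermat.Agent.S19x.Geo.Residual.FrameSystem
import Fermat.Agent.S19x.Geo.FrameA
import Fermat.Agent.S19x.Geo.TrueSolOut
import Fermat.Agent.S19x.Geo.TrueSolInt

/-!
# P-S19, block A, leaf L6 (C): coordinates of the true solution (helper92)

The `htrue` input of `Glue.exists_residualOut` (helper33) from the geometric true solution
(`TrueSolOut.exists_trueSol_divPoly`, helper72) and the frames (`Frame`, `FrameA`, helper27;
`FrameSystem.sysData`, helper41).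

* `hasTrueSol_of_trueSol` : a true solution `(Es, u, u')` with `u ∈ Λ((N0+j1)∞)`,
  `u' ∈ Λ((N0+j2)∞)`, `res u = res u0`, `res u' = res u0'`, gives `Glue.HasTrueSol` for the frame
  system `sysData (frameData H hN0) j1 j2 j3 zB rfixB t0 (coord t0 u0)` and the base point
  `basePt _ j1 j2 u0 u0' ρDc`: the coordinates are the `A`-coordinates `coordA` of `u`, `u'`,
  rescaled by the unit `a = α0 / coordA t0 u` (`π a = 1`), and the lower coefficients of `ρ_Es`.
* `htrue_of_input` : the same for every `W`, from a `TrueSol.Input`.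
-/

set_option autoImplicit false
set_option linter.unusedSectionVars false
set_option linter.style.haveILetI false

noncomputable section

namespace Fermat.Agent.S19x.Geo.Residual.Coord

open AlgebraicCurve IsLocalRing Module Polynomial
open Fermat.Agent.Gateway.C0 Fermat.Agent.Gateway.Red Fermat.Agent.S27x.Spec.Inj
  Fermat.Agent.S27x.Spec.Disc Fermat.Agent.S19x.Geo Fermat.Agent.S19x.Geo.Lattice
  Fermat.Agent.S19x.Geo.FrameAlg Fermat.Agent.S19x.Geo.Frame Fermat.Agent.S19x.Geo.FrameA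
  Fermat.Agent.S27x.Lift.FactorSystem Fermat.Agent.S19x.Geo.Residual.FrameSystem
  Fermat.Agent.S19x.Geo.Residual.Glue

universe u v w z

variable {K : Type u} [Field K] {A : ValuationSubring K}
  {F : Type v} [Field F] [Algebra K F] {O : ValuationSubring F}
  {k : Type w} {κ : Type z} [Field k] [Field κ] [Algebra k κ]
  [HasPrincipalDivisors K F] [∀ v : Place K F, v.FiniteResidue]
  [HasPrincipalDivisors k κ] [∀ v : Place k κ, v.FiniteResidue]
  {G : GeoSetting A O k κ} {I : InertiaData G} [ValuationRing I.fixedRing]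
  {N0 : ℕ} (H : FixedLatticeFacts G I N0) (hN0 : 2 * (G.g : ℤ) - 1 ≤ N0)

/-- the inclusion `B^S → F` as a ring homomorphism. -/
def ιF (G : GeoSetting A O k κ) (I : InertiaData G) : BS G I →+* F := (BS G I).val.toRingHom

theorem ιF_apply (b : BS G I) : ιF G I b = (b : F) := rfl

/-- **Coordinates of a true solution.** -/
theorem hasTrueSol_of_trueSol (j1 j2 j3 : ℕ) (zB rfixB : BS G I)
    (t0 : Fin ((frameData H hN0).r0 + j1)) (u0 u0' : BS G I)
    (hα0 : πS G I ((frameData H hN0).coord t0 u0) ≠ 0)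
    (ρDc : Polynomial I.fixedRing)
    {z : F} {m : ℕ} {Dc W Es : Divisor K F}
    (hρDc : ∀ l : Fin G.g, ψK I (ρDc.coeff l) = (divPoly z Dc).coeff l)
    (hEs : 0 ≤ Es) (hEsdeg : Divisor.degree Es = G.g)
    (hprinc : Divisor.IsPrincipal (W + Es - G.mulOo m)) (hspEs : G.spDiv Es = G.spDiv Dc)
    {u u' : F} (hu : u ∈ Lam G.R (nOo G (N0 + j1))) (hu' : u' ∈ Lam G.R (nOo G (N0 + j2)))
    (hresu : G.R.res ⟨u, hu.2⟩ = G.R.res ⟨(u0 : F), mem_O_of_mem_BS G I u0.2⟩)
    (hresu' : G.R.res ⟨u', hu'.2⟩ = G.R.res ⟨(u0' : F), mem_O_of_mem_BS G I u0'.2⟩)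
    (hprod : u * u' = aeval z (divPoly z W) * aeval z (divPoly z Es))
    (hcoeffA : ∀ l : Fin G.g, (divPoly z Es).coeff l ∈ A)
    (hcoeff𝔪 : ∀ l : Fin G.g, (divPoly z Es).coeff l - (divPoly z Dc).coeff l ∈ A.nonunits) :
    HasTrueSol I (sysData (frameData H hN0) j1 j2 j3 zB rfixB t0
        ((frameData H hN0).coord t0 u0)) (ιF G I) z m Dc
      (basePt (frameData H hN0) j1 j2 (g := G.g) u0 u0' ρDc) W := by
  classical
  -- `u`, `u'` as elements of `B_A`
  have huBA : u ∈ BA G := (mem_BA G).mpr ⟨N0 + j1, hu⟩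
  have hu'BA : u' ∈ BA G := (mem_BA G).mpr ⟨N0 + j2, hu'⟩
  set uA : BA G := ⟨u, huBA⟩ with huA
  set uA' : BA G := ⟨u', hu'BA⟩ with huA'
  -- the coordinates
  set c : Fin ((frameData H hN0).r0 + j1) → A := fun s => coordA H hN0 s uA with hc
  set c' : Fin ((frameData H hN0).r0 + j2) → A := fun t => coordA H hN0 t uA' with hc'
  have hexp : ∑ s : Fin ((frameData H hN0).r0 + j1), c s • (frameDataA H hN0).frame s = uA :=
    sum_coord_smul_frame (frameDataA H hN0) ((mem_frameDataA_L H hN0 j1 uA).mpr hu)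
  have hexp' : ∑ t : Fin ((frameData H hN0).r0 + j2), c' t • (frameDataA H hN0).frame t = uA' :=
    sum_coord_smul_frame (frameDataA H hN0) ((mem_frameDataA_L H hN0 j2 uA').mpr hu')
  have hexpF : ∑ s : Fin ((frameData H hN0).r0 + j1), ((c s : A) : K) • (((frameData H hN0).frame s : BS G I) : F) = u := by
    have h1 : ((∑ s : Fin ((frameData H hN0).r0 + j1), c s • (frameDataA H hN0).frame s : BA G) : F) = u :=
      congrArg (fun x : BA G => (x : F)) hexp
    rw [AddSubmonoidClass.coe_finsetSum] at h1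
    rw [← h1]
    refine Finset.sum_congr rfl fun s _ => ?_
    rw [frameA_eq]
    rfl
  have hexpF' : ∑ t : Fin ((frameData H hN0).r0 + j2), ((c' t : A) : K) • (((frameData H hN0).frame t : BS G I) : F) = u' := by
    have h1 : ((∑ t : Fin ((frameData H hN0).r0 + j2), c' t • (frameDataA H hN0).frame t : BA G) : F) = u' :=
      congrArg (fun x : BA G => (x : F)) hexp'
    rw [AddSubmonoidClass.coe_finsetSum] at h1
    rw [← h1]
    refine Finset.sum_congr rfl fun s _ => ?_
    rw [frameA_eq]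
    rfl
  -- the reductions of the coordinates
  have hresBA : resBA G uA = resB G I u0 := Subtype.ext hresu
  have hresBA' : resBA G uA' = resB G I u0' := Subtype.ext hresu'
  have hπc : ∀ s : Fin ((frameData H hN0).r0 + j1), G.R.π (c s) = πS G I ((frameData H hN0).coord s u0) := by
    intro s
    rw [hc, ← coordBar_resBA H hN0 s uA, hresBA, ← frameData_red H hN0 u0, (frameData H hN0).coordBar_red]
  have hπc' : ∀ t : Fin ((frameData H hN0).r0 + j2), G.R.π (c' t) = πS G I ((frameData H hN0).coord t u0') := by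
    intro t
    rw [hc', ← coordBar_resBA H hN0 t uA', hresBA', ← frameData_red H hN0 u0', (frameData H hN0).coordBar_red]
  -- the two units
  have hunit : ∀ x : A, G.R.π x ≠ 0 → IsUnit x := by
    intro x hx
    by_contra hcon
    exact hx ((G.R.π_eq_zero_iff x).mpr ((mem_maximalIdeal x).mpr hcon))
  obtain ⟨cu, hcu⟩ := hunit (c t0) (by rw [hπc t0]; exact hα0)
  obtain ⟨αu, hαu⟩ := hunit (ψA I ((frameData H hN0).coord t0 u0)) hα0
  set a : A := (αu : A) * ((cu⁻¹ : Aˣ) : A) with ha
  set b : A := (cu : A) * ((αu⁻¹ : Aˣ) : A) with hb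
  have hab : a * b = 1 := by
    rw [ha, hb]
    calc (αu : A) * ((cu⁻¹ : Aˣ) : A) * ((cu : A) * ((αu⁻¹ : Aˣ) : A))
        = ((αu : A) * ((αu⁻¹ : Aˣ) : A)) * (((cu⁻¹ : Aˣ) : A) * (cu : A)) := by ring
      _ = 1 := by rw [Units.mul_inv, Units.inv_mul, one_mul]
  have hact0 : a * c t0 = ψA I ((frameData H hN0).coord t0 u0) := by
    rw [ha, ← hcu, ← hαu, mul_assoc, Units.inv_mul, mul_one]
  have hπa : G.R.π a = 1 := by
    have h1 : G.R.π a * G.R.π (c t0) = G.R.π (c t0) := by
      rw [← map_mul, hact0, hπc t0]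
      rfl
    have h2 : G.R.π (c t0) ≠ 0 := by rw [hπc t0]; exact hα0
    exact mul_right_cancel₀ h2 (by rw [h1, one_mul])
  have hπb : G.R.π b = 1 := by
    have h1 : G.R.π a * G.R.π b = 1 := by rw [← map_mul, hab, map_one]
    rwa [hπa, one_mul] at h1
  have habK : ((a : A) : K) * ((b : A) : K) = 1 := by
    have := congrArg (fun x : A => (x : K)) hab
    simpa using this
  refine ⟨Es, hEs, hEsdeg, hprinc, hspEs,
    Sum.elim (fun s => a * c s) (Sum.elim (fun t => b * c' t)
      (fun l => (⟨(divPoly z Es).coeff l, hcoeffA l⟩ : A))), ?_, ?_, ?_, ?_⟩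
  · -- the product
    have h1 : ∑ s : Fin ((frameData H hN0).r0 + j1), ((a * c s : A) : K) • (((frameData H hN0).frame s : BS G I) : F)
        = ((a : A) : K) • u := by
      rw [← hexpF, Finset.smul_sum]
      refine Finset.sum_congr rfl fun s _ => ?_
      rw [smul_smul]
      rfl
    have h2 : ∑ t : Fin ((frameData H hN0).r0 + j2), ((b * c' t : A) : K) • (((frameData H hN0).frame t : BS G I) : F)
        = ((b : A) : K) • u' := by
      rw [← hexpF', Finset.smul_sum]
      refine Finset.sum_congr rfl fun s _ => ?_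
      rw [smul_smul]
      rfl
    show (∑ s : Fin ((frameData H hN0).r0 + j1), ((a * c s : A) : K) • (((frameData H hN0).frame s : BS G I) : F)) *
      (∑ t : Fin ((frameData H hN0).r0 + j2), ((b * c' t : A) : K) • (((frameData H hN0).frame t : BS G I) : F)) = _
    rw [h1, h2, smul_mul_smul_comm, habK, one_smul, hprod]
  · -- the normalisation
    exact hact0
  · intro l
    rfl
  · -- congruent to the base point
    intro i
    rcases i with s | t | l
    · show a * c s - ψA I ((frameData H hN0).coord s u0) ∈ maximalIdeal A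
      rw [← G.R.π_eq_zero_iff, map_sub, map_mul, hπa, one_mul, hπc s]
      exact sub_self _
    · show b * c' t - ψA I ((frameData H hN0).coord t u0') ∈ maximalIdeal A
      rw [← G.R.π_eq_zero_iff, map_sub, map_mul, hπb, one_mul, hπc' t]
      exact sub_self _
    · show (⟨(divPoly z Es).coeff l, hcoeffA l⟩ : A) - ψA I (ρDc.coeff l) ∈ maximalIdeal A
      have h1 := hcoeff𝔪 l
      rw [← hρDc l, ValuationSubring.mem_nonunits_iff_exists_mem_maximalIdeal] at h1
      obtain ⟨h2, h3⟩ := h1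
      exact h3

open Fermat.Agent.S19x.Geo.TrueSol Fermat.Agent.S19x.Geo.TrueSolInt
  Fermat.Agent.S19x.Geo.JacKerMult Fermat.Agent.S27x.Lift.NiceRep in
/-- **The `htrue` input of `Glue.exists_residualOut`** from a `TrueSol.Input` whose residue
solution is `(res u0, res u0')`. -/
theorem htrue_of_input (j1 j2 j3 : ℕ) (zB rfixB : BS G I)
    (t0 : Fin ((frameData H hN0).r0 + j1)) (u0 u0' : BS G I)
    (hα0 : πS G I ((frameData H hN0).coord t0 u0) ≠ 0)
    (ρDc : Polynomial I.fixedRing)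
    {z : F} {zb : κ} {m e : ℕ} {Uvar Ufix : Finset (Place k κ)} {μ : Place k κ → ℕ}
    {val : Place k κ → k}
    (Inp : Input G m e z zb (fun Q => valAt Q z) Uvar Ufix μ val
      (G.R.res ⟨(u0 : F), mem_O_of_mem_BS G I u0.2⟩)
      (G.R.res ⟨(u0' : F), mem_O_of_mem_BS G I u0'.2⟩))
    (hm : m = N0 + j1) (hN2 : (e : ℤ) * m - m = ((N0 + j2 : ℕ) : ℤ))
    {W0 Dc : Divisor K F} (hspW0 : G.spDiv W0 = multDiv Ufix μ) (hDc : 0 ≤ Dc)
    (hspDc : G.spDiv Dc = finDiv Uvar)
    (hρDc : ∀ l : Fin G.g, ψK I (ρDc.coeff l) = (divPoly z Dc).coeff l) :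
    ∀ W : Divisor K F, 0 ≤ W → G.spDiv W = G.spDiv W0 →
      HasTrueSol I (sysData (frameData H hN0) j1 j2 j3 zB rfixB t0
          ((frameData H hN0).coord t0 u0)) (ιF G I) z m Dc
        (basePt (frameData H hN0) j1 j2 (g := G.g) u0 u0' ρDc) W := by
  intro W hW hspW
  obtain ⟨E, u, u', hE, hEdeg, hspE, hprinc, huL, hu'L, ⟨hu, hu', hru, hru'⟩, hprod⟩ :=
    exists_trueSol_divPoly Inp hW (hspW.trans hspW0)
  have huL' : u ∈ Lam G.R (nOo G (N0 + j1)) := by
    rw [← hm]
    exact huL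
  have hu'L' : u' ∈ Lam G.R (nOo G (N0 + j2)) := by
    rw [hN2] at hu'L
    exact hu'L
  refine hasTrueSol_of_trueSol H hN0 j1 j2 j3 zB rfixB t0 u0 u0' hα0 ρDc hρDc hE hEdeg hprinc
    (hspE.trans hspDc.symm) huL' hu'L' hru hru' hprod (fun l => ?_) (fun l => ?_)
  · exact coeff_rhoV_mem Inp hE (U := Uvar) (μ' := fun _ => 1) (by rw [hspE, multDiv_one])
      (fun _ hw => Or.inl hw) l
  · exact coeff_rhoV_sub_mem_nonunits_var Inp hE hDc hspE hspDc l

end Fermat.Agent.S19x.Geo.Residual.Coord
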