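import Fermat.Agent.S19x.Geo.Frame

/-!
# P-S19, BLOCK A, leaf (L6), piece (X) (helper43): `K`-linear extension functionals

The coordinate functionals of the frame of `B^S = ⋃ₘ Λ(m∞)^S` are `A^S`-linear maps `B^S → A^S`.
The algebra core of the Residual Theorem (`Geo/ResidualCore`: `eval₂_GP_inl`, `eval₂_GP_eq_zero`)
wants `P`-linear functionals `φP w : BP →ₗ[P] P` on a `P`-algebra `BP ⊇ B^S` with
`φP w (ι b) = ψ (coord w b)`.  Nonzero `A`-linear maps `F → A` do not exist, so one takes `P := K`,
`BP := F` and `K`-linear functionals.  This file provides them.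

* `linearIndependent_of_res` : a family of elements of `O` whose reductions are `k`-linearly
  independent is `K`-linearly independent (`RedSetup` level: scale a relation by its coefficient of
  maximal valuation and reduce).
* `exists_extFun` : for a `K`-linearly independent family `b : ι → F` there are `K`-linear
  functionals `Φ i : F →ₗ[K] K` with `Φ i (b j) = δ_ij` (dual family, extended to all of `F`).
* `linearIndependent_frame_coe` : the frame of a `FiltRed (πS G I) (BS G I) (Bbar G)` whose `red`
  is `resB` (e.g. `Frame.frameData`) is `K`-linearly independent in `F`.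
* `exists_extFun_frame` : `∃ ΦK : ℕ → (F →ₗ[K] K)` with `ΦK i (frame j) = δ_ij` and
  `ΦK i (x : F) = ((coord i x : A^S) : K)` for every `x : B^S` — the hypothesis `hφ` of
  `ResidualCore.eval₂_GP_inl` for `ψ = (A^S ↪ K)`, `ι = (B^S ↪ F)`.
* `coe_eq_sum_coord` : `(x : F) = ∑ i ∈ supp, (coord i x : K) • (frame i : F)`.
-/

set_option autoImplicit false
set_option linter.unusedSectionVars false
set_option linter.style.haveILetI false

noncomputable section

namespace Fermat.Agent.S19x.Geo.Residual.ExtFun

open AlgebraicCurve IsLocalRing Module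
open Fermat.Agent.Gateway.C0 Fermat.Agent.S19x.Geo Fermat.Agent.S19x.Geo.Frame
  Fermat.Agent.S19x.Geo.FrameAlg

/-! ### Independence from independent reductions -/

section Indep

variable {K : Type*} [Field K] {A : ValuationSubring K} {F : Type*} [Field F] [Algebra K F]
  {O : ValuationSubring F} {k κ : Type*} [Field k] [Field κ] [Algebra k κ]
  (R : RedSetup A O k κ)

/-- **Elements of `O` with `k`-linearly independent reductions are `K`-linearly independent.** -/
theorem linearIndependent_of_res {ι : Type*} (b : ι → F) (hb : ∀ i, b i ∈ O)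
    (hli : LinearIndependent k (fun i => R.res ⟨b i, hb i⟩)) : LinearIndependent K b := by
  classical
  rw [linearIndependent_iff']
  intro s c hsum
  by_contra hne
  push Not at hne
  obtain ⟨i0, hi0, hc0⟩ := hne
  -- the coefficient of maximal valuation
  obtain ⟨i1, hi1, hmax⟩ := s.exists_max_image (fun i => A.valuation (c i)) ⟨i0, hi0⟩
  have hc1 : c i1 ≠ 0 := by
    intro h0
    have h1 := hmax i0 hi0
    rw [h0, map_zero] at h1
    exact hc0 ((map_eq_zero _).mp (le_antisymm h1 zero_le))
  have hv1 : (0 : _) < A.valuation (c i1) := by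
    rw [zero_lt_iff]
    exact (map_ne_zero _).mpr hc1
  have hd : ∀ i ∈ s, c i / c i1 ∈ A := by
    intro i hi
    rw [← A.valuation_le_one_iff, map_div₀]
    exact (div_le_one₀ hv1).mpr (hmax i hi)
  -- the normalised coefficients, in `A`
  let d : ι → A := fun i => if h : i ∈ s then ⟨c i / c i1, hd i h⟩ else 0
  have hd1 : d i1 = 1 := by
    apply Subtype.ext
    show ((d i1 : A) : K) = 1
    simp only [d, dif_pos hi1]
    exact div_self hc1
  have hdb : ∀ i, (d i : A) • b i ∈ O := fun i => R.smul_mem_O (d i) (hb i)
  have hsum' : ∑ i ∈ s, (d i : A) • b i = 0 := by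
    have h1 : ∀ i ∈ s, (d i : A) • b i = (c i1)⁻¹ • (c i • b i) := by
      intro i hi
      show ((d i : A) : K) • b i = _
      simp only [d, dif_pos hi]
      rw [smul_smul, div_eq_inv_mul]
    rw [Finset.sum_congr rfl h1, ← Finset.smul_sum, hsum, smul_zero]
  have hres : ∑ i ∈ s, R.π (d i) • R.res ⟨b i, hb i⟩ = 0 := by
    have h0 : (∑ i ∈ s, (d i : A) • b i) ∈ O := by rw [hsum']; exact O.zero_mem
    have h1 := R.res_sum s (fun i => (d i : A) • b i) hdb h0
    have h2 : (⟨∑ i ∈ s, (d i : A) • b i, h0⟩ : O) = 0 := Subtype.ext hsum'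
    rw [h2, map_zero] at h1
    rw [h1]
    exact Finset.sum_congr rfl fun i _ => (R.res_smul (d i) (hb i)).symm
  have h3 := linearIndependent_iff'.mp hli s (fun i => R.π (d i)) hres i1 hi1
  rw [hd1, map_one] at h3
  exact one_ne_zero h3

end Indep

/-! ### Dual functionals of an independent family, extended to the whole space -/

section Ext

variable {K : Type*} [Field K] {F : Type*} [AddCommGroup F] [Module K F]

/-- the coordinate map of an independent family, extended to the whole space. -/
theorem exists_extRepr {ι : Type*} (b : ι → F) (hli : LinearIndependent K b) :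
    ∃ Φ : F →ₗ[K] (ι →₀ K), ∀ j, Φ (b j) = Finsupp.single j 1 := by
  obtain ⟨Φ, hΦ⟩ := LinearMap.exists_extend (hli.repr : Submodule.span K (Set.range b) →ₗ[K] _)
  refine ⟨Φ, fun j => ?_⟩
  have hj : b j ∈ Submodule.span K (Set.range b) := Submodule.subset_span ⟨j, rfl⟩
  have h1 : Φ (b j) = (Φ.comp (Submodule.span K (Set.range b)).subtype) ⟨b j, hj⟩ := rfl
  rw [h1, hΦ]
  exact hli.repr_eq_single j ⟨b j, hj⟩ rfl

/-- **Dual functionals**: `Φ i (b j) = δ_ij`, defined on the whole space. -/
theorem exists_extFun {ι : Type*} [DecidableEq ι] (b : ι → F) (hli : LinearIndependent K b) :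
    ∃ Φ : ι → (F →ₗ[K] K), ∀ i j, Φ i (b j) = if j = i then 1 else 0 := by
  obtain ⟨Ψ, hΨ⟩ := exists_extRepr b hli
  refine ⟨fun i => (Finsupp.lapply i).comp Ψ, fun i j => ?_⟩
  show (Ψ (b j)) i = _
  rw [hΨ, Finsupp.single_apply]

end Ext

/-! ### The frame of `B^S` -/

section FrameExt

universe u v w z

variable {K : Type u} [Field K] {A : ValuationSubring K}
  {F : Type v} [Field F] [Algebra K F] {O : ValuationSubring F}
  {k : Type w} {κ : Type z} [Field k] [Field κ] [Algebra k κ]
  {G : GeoSetting A O k κ} {I : InertiaData G}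
  [HasPrincipalDivisors K F] [ValuationRing I.fixedRing]
  (D : FiltRed (πS G I) (BS G I) (Bbar G)) (hred : ∀ x, D.red x = resB G I x)

include hred

/-- the frame of `B^S` is `K`-linearly independent in `F`. -/
theorem linearIndependent_frame_coe :
    LinearIndependent K (fun i : ℕ => ((D.frame i : BS G I) : F)) := by
  refine linearIndependent_of_res G.R _ (fun i => mem_O_of_mem_BS G I (D.frame i).2) ?_
  have h1 : LinearIndependent k D.frameBar := D.linearIndependent_frameBar
  have h2 := h1.map' (Bbar G).val.toLinearMap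
    (LinearMap.ker_eq_bot.mpr Subtype.val_injective)
  have h3 : (fun i : ℕ => G.R.res ⟨((D.frame i : BS G I) : F),
      mem_O_of_mem_BS G I (D.frame i).2⟩) = ⇑(Bbar G).val.toLinearMap ∘ D.frameBar := by
    funext i
    show G.R.res ⟨((D.frame i : BS G I) : F), _⟩ = ((D.frameBar i : Bbar G) : κ)
    rw [FiltRed.frameBar, hred, coe_resB]
  rw [h3]
  exact h2

omit hred in
/-- an element of `B^S` is the (finite) combination of the frame with its coordinates. -/
theorem coe_eq_sum_coord (x : BS G I) :
    (x : F) = ∑ i ∈ (D.frameBasis.repr x).support,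
      (((D.coord i x : I.fixedRing) : A) : K) • ((D.frame i : BS G I) : F) := by
  have hx : x = ∑ i ∈ (D.frameBasis.repr x).support, D.frameBasis.repr x i • D.frame i := by
    conv_lhs => rw [← D.frameBasis.linearCombination_repr x]
    rw [Finsupp.linearCombination_apply, Finsupp.sum]
    exact Finset.sum_congr rfl fun i _ => by rw [D.frameBasis_apply]
  conv_lhs => rw [hx]
  rw [AddSubmonoidClass.coe_finsetSum]
  refine Finset.sum_congr rfl fun i _ => ?_
  rfl

/-- **The `K`-linear extension functionals of the frame coordinates.** -/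
theorem exists_extFun_frame :
    ∃ ΦK : ℕ → (F →ₗ[K] K),
      (∀ i j, ΦK i ((D.frame j : BS G I) : F) = if j = i then 1 else 0) ∧
      ∀ (i : ℕ) (x : BS G I), ΦK i (x : F) = (((D.coord i x : I.fixedRing) : A) : K) := by
  classical
  obtain ⟨ΦK, hΦ⟩ := exists_extFun _ (linearIndependent_frame_coe D hred)
  refine ⟨ΦK, hΦ, fun i x => ?_⟩
  rw [coe_eq_sum_coord D x, map_sum]
  simp only [map_smul, hΦ, smul_eq_mul, mul_ite, mul_one, mul_zero]
  rw [Finset.sum_ite_eq' (D.frameBasis.repr x).support i]
  split_ifs with h
  · rfl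
  · have h0 : D.frameBasis.repr x i = 0 := Finsupp.notMem_support_iff.mp h
    have : D.coord i x = 0 := by
      rw [FiltRed.coord, Module.Basis.coord_apply, h0]
    rw [this]
    rfl

end FrameExt

end Fermat.Agent.S19x.Geo.Residual.ExtFun
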