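import Fermat.Agent.S19x.Geo.Targets
import Fermat.Agent.S19x.Geo.ResidualCore
import Fermat.Agent.S19x.Geo.ResidualCoreNA

/-!
# P-S19, BLOCK A, leaf (L6), the abstract GLUE (helper33)

From

* a factorisation system `D : FactorSystem.Data A^S B₀ I1 I2 I3` with exponent `1`, square
  (`e : I3 ⊕ Unit ≃ Idx I1 I2 g`), realised in the function field through `ι : B₀ →+* F`,
* `K`-linear functionals `ΦK w : F →ₗ[K] K` extending the coordinate functionals `D.φ w`,
* a base solution `x0` over `A^S` with invertible Jacobian,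
* for every effective `W` with the specialisation of `W0`: a TRUE solution of the system with
  `R_fix = ρ_W`, with coordinates in `A`, congruent to the base solution,

the structure `ResidualOut I` of `Geo/Targets.lean` (the Residual Theorem for the configuration
`(W0, Dc, m)`).  Pure plumbing: `ResidualCore.eval₂_GP_eq_zero` over the FIELD `K` (`BP := F`),
descent to `A` by injectivity, `NewtonApproxB.approx_spec` over the local ring `A`.
-/

set_option autoImplicit false
set_option linter.unusedSectionVars false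
set_option linter.unusedVariables false

noncomputable section

namespace Fermat.Agent.S19x.Geo.Residual.Glue

open AlgebraicCurve MvPolynomial
open Fermat.Agent.S19x.Geo Fermat.Agent.S27x.Lift.FactorSystem
  Fermat.Agent.S19x.Geo.ResidualCore Fermat.Agent.S19x.Alg

universe u v w z

variable {K : Type u} [Field K] {A : ValuationSubring K}
  {F : Type v} [Field F] [Algebra K F] {O : ValuationSubring F}
  {k : Type w} {κ : Type z} [Field k] [Field κ] [Algebra k κ]
  {G : GeoSetting A O k κ}

/-- the inclusion `A^S → A`. -/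
def ψA (I : InertiaData G) : I.fixedRing →+* A := I.fixedRing.subtype

/-- the inclusion `A^S → K`. -/
def ψK (I : InertiaData G) : I.fixedRing →+* K := A.subtype.comp I.fixedRing.subtype

theorem ψK_apply (I : InertiaData G) (a : I.fixedRing) : ψK I a = ((a : A) : K) := rfl

theorem algebraMap_fixedRing_K (I : InertiaData G) :
    (algebraMap I.fixedRing K : I.fixedRing →+* K) = ψK I := rfl

/-- coercion of an `eval₂` over `A` to `K`. -/
theorem coe_eval₂ (I : InertiaData G) {σ : Type*} (x : σ → A) (p : MvPolynomial σ I.fixedRing) :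
    ((eval₂ (ψA I) x p : A) : K) = eval₂ (ψK I) (fun s => (x s : K)) p := by
  have h1 := eval₂_comp_left A.subtype (ψA I) x p
  exact h1


/-! ### Monic polynomials and their lower coefficients -/

section Poly

open Polynomial

/-- the value at `z` of a monic polynomial of degree `d` in terms of its lower coefficients. -/
theorem aeval_eq_of_monic {p : K[X]} {d : ℕ} (hp : p.Monic) (hd : p.natDegree = d) (z : F) :
    aeval z p = z ^ d + ∑ j : Fin d, algebraMap K F (p.coeff j) * z ^ (j : ℕ) := by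
  conv_lhs => rw [← rvarPoly_coeff_eq hp hd]
  simp only [rvarPoly, map_add, map_pow, Polynomial.aeval_X, map_sum, map_mul, Polynomial.aeval_C]

/-- the difference of the values at `z` of two monic polynomials of the same degree. -/
theorem aeval_sub_of_monic {p q : K[X]} {d : ℕ} (hp : p.Monic) (hpd : p.natDegree = d)
    (hq : q.Monic) (hqd : q.natDegree = d) (z : F) :
    aeval z p = aeval z q + ∑ j : Fin d, algebraMap K F (p.coeff j - q.coeff j) * z ^ (j : ℕ) := by
  rw [aeval_eq_of_monic hp hpd, aeval_eq_of_monic hq hqd, add_assoc, ← Finset.sum_add_distrib]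
  congr 1
  refine Finset.sum_congr rfl fun j _ => ?_
  rw [map_sub]
  ring

end Poly

/-- the degree of an effective divisor with prescribed specialisation. -/
theorem natDegree_divPoly_of_spDiv (z : F) {W W0 : Divisor K F} {dW : ℕ} (hW : 0 ≤ W)
    (hsp : G.spDiv W = G.spDiv W0) (hW0 : Divisor.degree W0 = dW) :
    (divPoly z W).natDegree = dW := by
  have h1 := natDegree_divPoly_of_nonneg z hW G.rrF.deg_one
  rw [← G.degree_spDiv, hsp, G.degree_spDiv, hW0] at h1
  exact_mod_cast h1

/-! ### The glue -/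

section Main

variable {I1 I2 I3 : Type*} [Fintype I1] [Fintype I2] [DecidableEq I1] [DecidableEq I2]
variable (I : InertiaData G) {B₀ : Type*} [CommRing B₀] [Algebra I.fixedRing B₀]

/-- **The true-solution hypothesis** of the glue: for the effective divisor `W` there is a
residual divisor `Es` and a solution of the factorisation system with `R_fix = ρ_W`, with
coordinates `xs` in `A` congruent to the base solution `x0`. -/
def HasTrueSol (D : Data I.fixedRing B₀ I1 I2 I3) (ι : B₀ →+* F) (z : F) (m : ℕ)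
    (Dc : Divisor K F) (x0 : Idx I1 I2 G.g → I.fixedRing) (W : Divisor K F) : Prop :=
  ∃ Es : Divisor K F, 0 ≤ Es ∧ Divisor.degree Es = G.g ∧
    Divisor.IsPrincipal (W + Es - G.mulOo m) ∧ G.spDiv Es = G.spDiv Dc ∧
    ∃ xs : Idx I1 I2 G.g → A,
      (∑ s, (xs (uIdx s) : K) • ι (D.b1 s)) * (∑ t, (xs (vIdx t) : K) • ι (D.b2 t))
        = Polynomial.aeval z (divPoly z W) * Polynomial.aeval z (divPoly z Es) ∧
      xs (uIdx D.t0) = ψA I D.α0 ∧
      (∀ l : Fin G.g, (xs (rIdx l) : K) = (divPoly z Es).coeff l) ∧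
      ∀ i, xs i - ψA I (x0 i) ∈ IsLocalRing.maximalIdeal A

/-- a true solution is a solution of the parametrised system over `K`. -/
theorem isSolP_of_trueSol (D : Data I.fixedRing B₀ I1 I2 I3) (ι : B₀ →+* F) (z : F)
    (hz : ι D.z = z) {dW : ℕ} {W0 W Es : Divisor K F}
    (hrfix : ι D.rfix = Polynomial.aeval z (divPoly z W0))
    (hdW0 : (divPoly z W0).natDegree = dW) (hdW : (divPoly z W).natDegree = dW)
    (hdEs : (divPoly z Es).natDegree = G.g)
    (xs : Idx I1 I2 G.g → A)
    (hprod : (∑ s, (xs (uIdx s) : K) • ι (D.b1 s)) * (∑ t, (xs (vIdx t) : K) • ι (D.b2 t))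
        = Polynomial.aeval z (divPoly z W) * Polynomial.aeval z (divPoly z Es))
    (hα : xs (uIdx D.t0) = ψA I D.α0)
    (hr : ∀ l : Fin G.g, (xs (rIdx l) : K) = (divPoly z Es).coeff l) :
    IsSolP (P := K) (BP := F) D (ψK I) ι (fun j : Fin dW => (j : ℕ))
      (fun j : Fin dW => (divPoly z W).coeff j - (divPoly z W0).coeff j)
      (fun i => (xs i : K)) := by
  constructor
  · have hu : (coreP (P := K) D ι (fun j : Fin dW => (j : ℕ))
        (fun j : Fin dW => (divPoly z W).coeff j - (divPoly z W0).coeff j)).uOf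
          (ptP (BP := F) fun i => (xs i : K)) = ∑ s, (xs (uIdx s) : K) • ι (D.b1 s) := by
      simp only [Core.uOf, coreP, ptP, Algebra.smul_def]
    have hv : (coreP (P := K) D ι (fun j : Fin dW => (j : ℕ))
        (fun j : Fin dW => (divPoly z W).coeff j - (divPoly z W0).coeff j)).vOf
          (ptP (BP := F) fun i => (xs i : K)) = ∑ t, (xs (vIdx t) : K) • ι (D.b2 t) := by
      simp only [Core.vOf, coreP, ptP, Algebra.smul_def]
    have hf : (coreP (P := K) D ι (fun j : Fin dW => (j : ℕ))
        (fun j : Fin dW => (divPoly z W).coeff j - (divPoly z W0).coeff j)).rfix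
          = Polynomial.aeval z (divPoly z W) := by
      rw [aeval_sub_of_monic (divPoly_monic z W) hdW (divPoly_monic z W0) hdW0 z]
      simp only [coreP, hrfix, hz]
    have hrv : (coreP (P := K) D ι (fun j : Fin dW => (j : ℕ))
        (fun j : Fin dW => (divPoly z W).coeff j - (divPoly z W0).coeff j)).rvar
          (ptP (BP := F) fun i => (xs i : K)) = Polynomial.aeval z (divPoly z Es) := by
      rw [aeval_eq_of_monic (divPoly_monic z Es) hdEs z]
      simp only [Core.rvar, Core.rdot, coreP, ptP, hz, hr]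
    rw [hu, hv, hf, hrv, hprod]
  · show ((xs (uIdx D.t0) : A) : K) = ψK I D.α0
    rw [hα]
    rfl

/-- a unit multiple: if `t` is a unit of `A` every element of `A` is divisible by `t ^ N`. -/
theorem dvdInA_of_isUnit {t : K} (ht : t ∈ A) (hu : IsUnit (⟨t, ht⟩ : A)) (N : ℕ) (y : A) :
    DvdInA A (t ^ N) (y : K) := by
  obtain ⟨u, hu⟩ := hu
  refine ⟨(((u⁻¹ : Aˣ) : A) ^ N * y : A), (((u⁻¹ : Aˣ) : A) ^ N * y).2, ?_⟩
  have h1 : ((u : A) : K) = t := by rw [hu]
  have h2 : ((u : A) : K) * (((u⁻¹ : Aˣ) : A) : K) = 1 := by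
    have h := Units.mul_inv u
    have h' : (((u : A) * ((u⁻¹ : Aˣ) : A) : A) : K) = ((1 : A) : K) := by rw [h]
    exact h'
  have h3 : t ^ N * ((((u⁻¹ : Aˣ) : A) : K)) ^ N = 1 := by
    rw [← mul_pow, ← h1, h2, one_pow]
  show (y : K) = t ^ N * ((((u⁻¹ : Aˣ) : A) : K) ^ N * (y : K))
  rw [← mul_assoc, h3, one_mul]

/-- **The abstract glue of the Residual Theorem.** -/
theorem exists_residualOut (D : Data I.fixedRing B₀ I1 I2 I3) (hn : D.n = 1)
    (e : I3 ⊕ Unit ≃ Idx I1 I2 G.g) (ι : B₀ →+* F)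
    (ΦK : I3 → (F →ₗ[K] K)) (hΦ : ∀ w b, ΦK w (ι b) = ψK I (D.φ w b))
    (x0 : Idx I1 I2 G.g → I.fixedRing) (hx0 : D.IsSol x0)
    (hJ : IsUnit (Matrix.det (Matrix.of fun i j =>
      eval x0 (pderiv i (FactorJac.sq D e j)))))
    (z : F) (hz : ι D.z = z) (m dW : ℕ) (W0 Dc : Divisor K F)
    (W0_nonneg : 0 ≤ W0) (W0_deg : Divisor.degree W0 = dW) (Dc_nonneg : 0 ≤ Dc)
    (Dc_deg : Divisor.degree Dc = G.g)
    (base_principal : Divisor.IsPrincipal (W0 + Dc - G.mulOo m))
    (hrfix : ι D.rfix = Polynomial.aeval z (divPoly z W0))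
    (hx0r : ∀ l : Fin G.g, ψK I (x0 (rIdx l)) = (divPoly z Dc).coeff l)
    (htrue : ∀ W : Divisor K F, 0 ≤ W → G.spDiv W = G.spDiv W0 →
      HasTrueSol I D ι z m Dc x0 W) :
    ∃ R : ResidualOut I, R.z = z ∧ R.m = m ∧ R.W0 = W0 ∧ R.Dc = Dc ∧ R.dW = dW := by
  classical
  refine ⟨{ z := z, m := m, W0 := W0, Dc := Dc, dW := dW, W0_nonneg := W0_nonneg,
            W0_deg := W0_deg, Dc_nonneg := Dc_nonneg, Dc_deg := Dc_deg,
            base_principal := base_principal, spec := ?_ }, rfl, rfl, rfl, rfl, rfl⟩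
  intro n
  set d : Fin dW → ℕ := fun j => (j : ℕ) with hd
  have hbase : ∀ j, eval (NewtonApproxB.basePt (κ := Fin dW) x0) (sqP D d e j) = 0 := fun j =>
    eval_GP_base_eq_zero D d x0 hx0 (e.symm j)
  have hJ' : IsUnit (NewtonApproxB.baseJac (sqP D d e) x0).det := by
    rw [ResidualCoreNA.baseJac_eq]; exact hJ
  have hdW0 : (divPoly z W0).natDegree = dW :=
    natDegree_divPoly_of_spDiv (G := G) z W0_nonneg rfl W0_deg
  refine ⟨fun l => NewtonApproxB.approx (sqP D d e) x0 n (rIdx l) - C (x0 (rIdx l)),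
    fun l => ?_, ?_⟩
  · rw [(constantCoeff (R := I.fixedRing) (σ := Fin dW)).map_sub,
      NewtonApproxB.constantCoeff_approx (sqP D d e) x0 hbase n, constantCoeff_C, sub_self]
  intro W hW hspW
  obtain ⟨Es, hEs, hEsdeg, hprinc, hspEs, xs, hprod, hα, hr, hnear⟩ := htrue W hW hspW
  refine ⟨Es, hEs, hEsdeg, hprinc, hspEs, ?_⟩
  intro t ht hdiv l
  have hdW : (divPoly z W).natDegree = dW := natDegree_divPoly_of_spDiv z hW hspW W0_deg
  have hdEs : (divPoly z Es).natDegree = G.g := by
    have h1 := natDegree_divPoly_of_nonneg z hEs G.rrF.deg_one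
    rw [hEsdeg] at h1
    exact_mod_cast h1
  -- the parameters, in `A`
  have haA : ∀ j : Fin dW, (divPoly z W).coeff j - (divPoly z W0).coeff j ∈ A := fun j => by
    obtain ⟨c, hc, hcj⟩ := hdiv j
    rw [hcj]
    exact A.mul_mem _ _ ht hc
  set aK : Fin dW → K := fun j => (divPoly z W).coeff j - (divPoly z W0).coeff j with haK
  set a : Fin dW → A := fun j => ⟨aK j, haA j⟩ with ha
  -- the true solution is a zero of the parametrised system, over `K`, hence over `A`
  have hsolK := isSolP_of_trueSol I D ι z hz hrfix hdW0 hdW hdEs xs hprod hα hr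
  have hzeroK : ∀ j, eval₂ (ψK I) (Sum.elim (fun i => (xs i : K)) aK) (GP D d j) = 0 := fun j =>
    eval₂_GP_eq_zero (P := K) (BP := F) D hn d (ψK I) ι ΦK hΦ aK (fun i => (xs i : K)) hsolK j
  have hzero : ∀ j, eval₂ (ψA I) (Sum.elim xs a) (sqP D d e j) = 0 := by
    intro j
    apply Subtype.ext
    rw [coe_eval₂]
    have : (fun s => ((Sum.elim xs a s : A) : K)) = Sum.elim (fun i => (xs i : K)) aK := by
      funext s
      rcases s with i | j <;> rfl
    rw [this]
    exact hzeroK (e.symm j)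
  -- the quantity to estimate is the coercion of an element of `A`
  set y : A := xs (rIdx l) - eval₂ (ψA I) a (NewtonApproxB.approx (sqP D d e) x0 n (rIdx l))
    with hy
  have hyK : (divPoly z Es).coeff l - (divPoly z Dc).coeff l -
      MvPolynomial.aeval (fun j : Fin dW => (divPoly z W).coeff j - (divPoly z W0).coeff j)
        (NewtonApproxB.approx (sqP D d e) x0 n (rIdx l) - C (x0 (rIdx l))) = (y : K) := by
    rw [aeval_def, algebraMap_fixedRing_K, eval₂_sub, eval₂_C, ← hr l, ← hx0r l, hy]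
    have h1 := coe_eval₂ I a (NewtonApproxB.approx (sqP D d e) x0 n (rIdx l))
    have h2 : (fun s => ((a s : A) : K)) = aK := rfl
    rw [h2] at h1
    push_cast
    rw [h1]
    ring
  rw [hyK]
  by_cases hu : IsUnit (⟨t, ht⟩ : A)
  · exact dvdInA_of_isUnit ht hu (n + 1) y
  · -- `t` is a nonunit: Newton approximation
    have htm : (⟨t, ht⟩ : A) ∈ IsLocalRing.maximalIdeal A := by
      rw [IsLocalRing.mem_maximalIdeal, mem_nonunits_iff]
      exact hu
    have h𝔞 : Ideal.span {(⟨t, ht⟩ : A)} ≤ IsLocalRing.maximalIdeal A := by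
      rw [Ideal.span_le]
      intro x hx
      rw [Set.mem_singleton_iff] at hx
      rw [hx]
      exact htm
    have ha𝔞 : ∀ j, a j ∈ Ideal.span {(⟨t, ht⟩ : A)} := by
      intro j
      obtain ⟨c, hc, hcj⟩ := hdiv j
      rw [Ideal.mem_span_singleton]
      exact ⟨⟨c, hc⟩, Subtype.ext hcj⟩
    have hmem := NewtonApproxB.approx_spec (ψA I) (sqP D d e) x0 hbase hJ' n a
      (Ideal.span {(⟨t, ht⟩ : A)}) h𝔞 ha𝔞 xs hzero hnear (rIdx l)
    rw [Ideal.span_singleton_pow, Ideal.mem_span_singleton] at hmem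
    obtain ⟨c, hc⟩ := hmem
    refine ⟨(c : K), c.2, ?_⟩
    have h1 : ((y : A) : K) = (((⟨t, ht⟩ : A) ^ (n + 1) * c : A) : K) := by rw [hy, hc]
    rw [h1]
    push_cast
    rfl

end Main

end Fermat.Agent.S19x.Geo.Residual.Glue
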