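import Fermat.Agent.S19x.Geo.Residual.ExtFun
import Fermat.Agent.S19x.Geo.Residual.FrameSystem
import Fermat.Agent.S19x.Geo.Residual.Glue

/-!
# P-S19, BLOCK A, leaf (L6), piece (X), adapter (helper43)

The `K`-linear functionals `ΦK` and their compatibility `hΦ` in the exact shape of the arguments of
`Glue.exists_residualOut`, for the factorisation system `FrameSystem.sysData` of a frame of
`B^S = ⋃ₘ Λ(m∞)^S` (`φ w = coord w`) and the inclusion `ι = (BS G I).val.toRingHom : B^S →+* F`.
-/

set_option autoImplicit false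
set_option linter.unusedSectionVars false

noncomputable section

namespace Fermat.Agent.S19x.Geo.Residual.ExtFun

open AlgebraicCurve
open Fermat.Agent.S19x.Geo Fermat.Agent.S19x.Geo.Frame Fermat.Agent.S19x.Geo.FrameAlg

universe u v w z

variable {K : Type u} [Field K] {A : ValuationSubring K}
  {F : Type v} [Field F] [Algebra K F] {O : ValuationSubring F}
  {k : Type w} {κ : Type z} [Field k] [Field κ] [Algebra k κ]
  {G : GeoSetting A O k κ} {I : InertiaData G}
  [HasPrincipalDivisors K F] [ValuationRing I.fixedRing]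

/-- **`ΦK` and `hΦ` of `Glue.exists_residualOut`** for `D := FrameSystem.sysData FD …` and
`ι := (BS G I).val.toRingHom`. -/
theorem exists_ΦK_sysData (FD : FiltRed (πS G I) (BS G I) (Bbar G))
    (hred : ∀ x, FD.red x = resB G I x) (j1 j2 j3 : ℕ) (zB rfixB : BS G I)
    (t0 : Fin (FD.r0 + j1)) (α0 : I.fixedRing) :
    ∃ ΦK : Fin (FD.r0 + j3) → (F →ₗ[K] K),
      ∀ (w : Fin (FD.r0 + j3)) (b : BS G I),
        ΦK w ((BS G I).val.toRingHom b) =
          Glue.ψK I ((FrameSystem.sysData FD j1 j2 j3 zB rfixB t0 α0).φ w b) := by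
  obtain ⟨Φ, -, hΦ⟩ := exists_extFun_frame FD hred
  exact ⟨fun w => Φ (w : ℕ), fun w b => hΦ (w : ℕ) b⟩

end Fermat.Agent.S19x.Geo.Residual.ExtFun
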