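import Fermat.Agent.S19x.Geo.FactorJac
import Fermat.Agent.S19x.Geo.JacKerMult

/-!
# P-S19, BLOCK A, leaf (L6), part (J): the Jacobian of the Residual system is invertible

Abstract dictionary between

* the kernel condition `hker` of `Geo/FactorJac.isUnit_det_jacobian` (a `dval`-kernel vector of the
  reduced factorisation system `S27x/Lift/FactorSystem`, exponent `n = 1`), and
* the kernel lemma with multiplicities `Geo/JacKerMult` (`ResSolM`, `KerVecM`,
  `ResSolM.exists_smul_eq`, `ResSolM.eq_zero_of_v_eq_zero`).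

Setting: `D : FactorSystem.Data A B I1 I2 I3` with `D.n = 1`, a ring hom `π : A → k`, a reduction
`red : B → Bbar` to a `k`-algebra `Bbar` together with a `k`-algebra hom `ι : Bbar → κ` into the
residue function field (`Bbar = κ`, `ι = id` is allowed; so is a subalgebra with `ι = val`), and a
base point `x0 : Idx I1 I2 g → A`.  Write `b1bar s = ι (red (b1 s))`, `b2bar t = ι (red (b2 t))`,
`zb = ι (red z)`, `ub = ∑ π (x0_s) b1bar s`, `ub' = ∑ π (x0_t) b2bar t`.  Hypotheses:

* `S : ResSolM P Uvar Ufix μ zb val ub ub'` with `l(Uvar) = 1`, `g = #Uvar`,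
  `ι (red rfix) = Rfix(zb)`;
* the `b1bar s` (resp. `b2bar t`) are regular off `P` with pole order at `P` at most that of `ub`
  (resp. `ub'`), and are `k`-linearly independent;
* the normalised coordinate of the base point is a unit: `π (x0 (uIdx t0)) ≠ 0`;
* the functionals `φbar` separate the points of a `k`-subspace `Lbar ⊆ Bbar` containing the
  products `red (b1 s) * red (b2 t)` and `red rfix * red z ^ l` (`l < g`).

Conclusions: `hker_of_resSolM` (the hypothesis `hker` of `FactorJac`), and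
`isUnit_det_jacobian_of_resSolM`: the Jacobian determinant of the square system at `x0` is a unit
of the local ring `A`.  Variants `_rr` with the pole conditions phrased with Riemann-Roch spaces
`L(m • P)`.
-/

set_option autoImplicit false
set_option linter.unusedSectionVars false
set_option linter.style.haveILetI false

noncomputable section

namespace Fermat.Agent.S19x.Geo.Residual.JacDict

open AlgebraicCurve Module
open Fermat.Agent.S27x.Lift.FactorSystem Fermat.Agent.S27x.Lift.NiceRep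
  Fermat.Agent.S27x.Lift.JacInj Fermat.Agent.S19x.Geo.JacKerMult Fermat.Agent.S19x.Geo.FactorJac

variable {I1 I2 I3 : Type*} {g : ℕ} [Fintype I1] [Fintype I2] [DecidableEq I1] [DecidableEq I2]
variable {A B : Type*} [CommRing A] [CommRing B] [Algebra A B]
variable {k : Type*} [Field k] {Bbar : Type*} [CommRing Bbar] [Algebra k Bbar]
variable {κ : Type*} [Field κ] [Algebra k κ]


/-! ### Auxiliary lemmas -/

section Aux

omit [DecidableEq I1] [DecidableEq I2] in
theorem ordGE_smul (w : Place k κ) (c : k) {x : κ} {m : ℤ} (h : OrdGE w x m) :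
    OrdGE w (c • x) m := by
  rw [Algebra.smul_def]
  exact ((OrdGE.algebraMap w c).mul h).mono (by simp)

omit [DecidableEq I1] [DecidableEq I2] in
theorem ordGE_sum {J : Type*} (s : Finset J) (w : Place k κ) (x : J → κ) (m : ℤ)
    (h : ∀ j ∈ s, OrdGE w (x j) m) : OrdGE w (∑ j ∈ s, x j) m := by
  classical
  induction s using Finset.induction_on with
  | empty => simpa using OrdGE.zero w m
  | insert a s ha ih =>
    rw [Finset.sum_insert ha]
    exact (h a (Finset.mem_insert_self a s)).add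
      (ih fun j hj => h j (Finset.mem_insert_of_mem hj))

omit [DecidableEq I1] [DecidableEq I2] in
theorem ι_uOf (K : Core B I1 I2) (red : B →+* Bbar) (ι : Bbar →ₐ[k] κ) (v : Idx I1 I2 g → k) :
    ι ((K.map red).uOf (ptbar v)) = ∑ s, v (uIdx s) • ι (red (K.b1 s)) := by
  simp only [Core.uOf, Core.map, ptbar, map_sum, map_mul, AlgHom.commutes, Algebra.smul_def]

omit [DecidableEq I1] [DecidableEq I2] in
theorem ι_vOf (K : Core B I1 I2) (red : B →+* Bbar) (ι : Bbar →ₐ[k] κ) (v : Idx I1 I2 g → k) :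
    ι ((K.map red).vOf (ptbar v)) = ∑ t, v (vIdx t) • ι (red (K.b2 t)) := by
  simp only [Core.vOf, Core.map, ptbar, map_sum, map_mul, AlgHom.commutes, Algebra.smul_def]

omit [DecidableEq I1] [DecidableEq I2] in
theorem ι_rdot (K : Core B I1 I2) (red : B →+* Bbar) (ι : Bbar →ₐ[k] κ) (v : Idx I1 I2 g → k) :
    ι ((K.map red).rdot (ptbar v)) = Polynomial.aeval (ι (red K.z))
      (∑ l : Fin g, Polynomial.C (v (rIdx l)) * Polynomial.X ^ (l : ℕ)) := by
  simp only [Core.rdot, Core.map, ptbar, map_sum, map_mul, map_pow, AlgHom.commutes,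
    Polynomial.aeval_C, Polynomial.aeval_X]

omit [DecidableEq I1] [DecidableEq I2] in
/-- the differential of the system for the exponent `n = 1`. -/
theorem dval_of_n_eq_one (K : Core Bbar I1 I2) (hn : K.n = 1) (y v : Idx I1 I2 g → Bbar) :
    K.dval y v = K.uOf v * K.vOf y + K.uOf y * K.vOf v - K.rfix * K.rdot v := by
  rw [Core.dval, hn]
  simp

omit [DecidableEq I1] [DecidableEq I2] in
/-- the values of the differential of the reduced system lie in any `k`-subspace containing the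
products `b1bar s * b2bar t` and `rfixbar * zbar ^ l`. -/
theorem dval_mem (K : Core B I1 I2) (hn : K.n = 1) (red : B →+* Bbar) (Lbar : Submodule k Bbar)
    (hmul : ∀ s t, red (K.b1 s) * red (K.b2 t) ∈ Lbar)
    (hrz : ∀ l : Fin g, red K.rfix * red K.z ^ (l : ℕ) ∈ Lbar) (y v : Idx I1 I2 g → k) :
    (K.map red).dval (ptbar y) (ptbar v) ∈ Lbar := by
  have hprod : ∀ a b : Idx I1 I2 g → k,
      (K.map red).uOf (ptbar a) * (K.map red).vOf (ptbar b) ∈ Lbar := by
    intro a b
    simp only [Core.uOf, Core.vOf, Core.map, ptbar]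
    rw [Finset.sum_mul_sum]
    refine Submodule.sum_mem _ fun s _ => Submodule.sum_mem _ fun t _ => ?_
    have : algebraMap k Bbar (a (uIdx s)) * red (K.b1 s) *
        (algebraMap k Bbar (b (vIdx t)) * red (K.b2 t))
        = (a (uIdx s) * b (vIdx t)) • (red (K.b1 s) * red (K.b2 t)) := by
      rw [Algebra.smul_def, map_mul]; ring
    rw [this]
    exact Submodule.smul_mem _ _ (hmul s t)
  have hr : (K.map red).rfix * (K.map red).rdot (ptbar v) ∈ Lbar := by
    simp only [Core.rdot, Core.map, ptbar]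
    rw [Finset.mul_sum]
    refine Submodule.sum_mem _ fun l _ => ?_
    have : red K.rfix * (algebraMap k Bbar (v (rIdx l)) * red K.z ^ (l : ℕ))
        = v (rIdx l) • (red K.rfix * red K.z ^ (l : ℕ)) := by
      rw [Algebra.smul_def]; ring
    rw [this]
    exact Submodule.smul_mem _ _ (hrz l)
  rw [dval_of_n_eq_one _ (show (K.map red).n = 1 from hn)]
  exact Submodule.sub_mem _ (Submodule.add_mem _ (hprod v y) (hprod y v)) hr

end Aux

/-- **The kernel condition of `FactorJac.isUnit_det_jacobian` from the kernel lemma with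
multiplicities.** -/
theorem hker_of_resSolM (π : A →+* k) (D : Data A B I1 I2 I3) (hn : D.n = 1)
    (red : B →+* Bbar) (ι : Bbar →ₐ[k] κ) (φbar : I3 → (Bbar →ₗ[k] k))
    (x0 : Idx I1 I2 g → A)
    {P : Place k κ} {Uvar Ufix : Finset (Place k κ)} {μ : Place k κ → ℕ} {val : Place k κ → k}
    {zb ub ub' : κ}
    (S : ResSolM P Uvar Ufix μ zb val ub ub')
    (hl : finrank k (riemannRochSpace (finDiv Uvar)) = 1)
    (hg : g = Uvar.card)
    (hz : ι (red D.z) = zb)
    (hu : ι ((D.toCore.map red).uOf (ptbar fun i => π (x0 i))) = ub)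
    (hu' : ι ((D.toCore.map red).vOf (ptbar fun i => π (x0 i))) = ub')
    (hrfix : ι (red D.rfix) = Polynomial.aeval zb (rootPolyMult val Ufix μ))
    (hb1_reg : ∀ s (w : Place k κ), w ≠ P → ι (red (D.b1 s)) ∈ w.toValuationSubring)
    (hb1_P : ∀ s, OrdGE P (ι (red (D.b1 s))) (P.ord ub))
    (hb2_reg : ∀ t (w : Place k κ), w ≠ P → ι (red (D.b2 t)) ∈ w.toValuationSubring)
    (hb2_P : ∀ t, OrdGE P (ι (red (D.b2 t))) (P.ord ub'))
    (hli1 : LinearIndependent k fun s => ι (red (D.b1 s)))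
    (hli2 : LinearIndependent k fun t => ι (red (D.b2 t)))
    (ht0 : π (x0 (uIdx D.t0)) ≠ 0)
    (Lbar : Submodule k Bbar)
    (hsep : ∀ y ∈ Lbar, (∀ w, φbar w y = 0) → y = 0)
    (hmul : ∀ s t, red (D.b1 s) * red (D.b2 t) ∈ Lbar)
    (hrz : ∀ l : Fin g, red D.rfix * red D.z ^ (l : ℕ) ∈ Lbar) :
    ∀ v : Idx I1 I2 g → k,
      (∀ w, φbar w ((D.toCore.map red).dval (ptbar fun i => π (x0 i)) (ptbar v)) = 0) →
      v (uIdx D.t0) = 0 → v = 0 := by
  intro v hv hvt
  classical
  have hn' : (D.toCore.map red).n = 1 := hn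
  -- the value of `dval` vanishes
  have hd0 : (D.toCore.map red).dval (ptbar fun i => π (x0 i)) (ptbar v) = 0 :=
    hsep _ (dval_mem D.toCore hn red Lbar hmul hrz _ v) hv
  -- the kernel vector in `κ`
  set V : κ := ∑ s, v (uIdx s) • ι (red (D.b1 s)) with hV
  set V' : κ := ∑ t, v (vIdx t) • ι (red (D.b2 t)) with hV'
  set dR : Polynomial k :=
    ∑ l : Fin g, Polynomial.C (v (rIdx l)) * Polynomial.X ^ (l : ℕ) with hdR
  have heq : V * ub' + ub * V'
      = Polynomial.aeval zb (rootPolyMult val Ufix μ) * Polynomial.aeval zb dR := by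
    have h1 := congrArg ι hd0
    rw [dval_of_n_eq_one _ hn', map_zero, map_sub, map_add, map_mul, map_mul, map_mul, hu, hu',
      ι_uOf, ι_vOf, ι_rdot] at h1
    have h2 : ι (D.toCore.map red).rfix = Polynomial.aeval zb (rootPolyMult val Ufix μ) := hrfix
    rw [h2, hz] at h1
    exact sub_eq_zero.mp h1
  have T : KerVecM P Uvar Ufix μ zb val ub ub' V V' dR :=
    { v_reg := fun w hw => (ordGE_sum _ w _ 0 fun s _ =>
        ordGE_smul w _ (OrdGE.of_mem (hb1_reg s w hw))).mem
      v_P := ordGE_sum _ P _ _ fun s _ => ordGE_smul P _ (hb1_P s)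
      v'_reg := fun w hw => (ordGE_sum _ w _ 0 fun t _ =>
        ordGE_smul w _ (OrdGE.of_mem (hb2_reg t w hw))).mem
      v'_P := ordGE_sum _ P _ _ fun t _ => ordGE_smul P _ (hb2_P t)
      deg := by rw [← hg]; exact Polynomial.degree_sum_fin_lt _
      eq := heq }
  obtain ⟨c, hc⟩ := S.exists_smul_eq T hl
  -- comparison of coordinates
  have hub : ub = ∑ s, π (x0 (uIdx s)) • ι (red (D.b1 s)) := by rw [← hu, ι_uOf]
  have hcoord : ∀ s, v (uIdx s) = c * π (x0 (uIdx s)) := by
    have h0 : ∑ s, (v (uIdx s) - c * π (x0 (uIdx s))) • ι (red (D.b1 s)) = 0 := by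
      simp only [sub_smul, Finset.sum_sub_distrib, mul_smul, ← Finset.smul_sum]
      rw [← hub, ← hc, sub_self]
    intro s
    exact sub_eq_zero.mp (Fintype.linearIndependent_iff.mp hli1 _ h0 s)
  have hc0 : c = 0 := by
    have h1 := hcoord D.t0
    rw [hvt] at h1
    exact (mul_eq_zero.mp h1.symm).resolve_right ht0
  have hV0 : V = 0 := by rw [hc, hc0, zero_smul]
  obtain ⟨hdR0, hV'0⟩ := S.eq_zero_of_v_eq_zero T hV0
  have hv1 : ∀ s, v (uIdx s) = 0 := fun s => by rw [hcoord s, hc0, zero_mul]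
  have hv2 : ∀ t, v (vIdx t) = 0 := fun t =>
    Fintype.linearIndependent_iff.mp hli2 _ hV'0 t
  have hv3 : ∀ l, v (rIdx l) = 0 := by
    intro l
    have h1 := coeff_rvarPoly (fun l : Fin g => v (rIdx l)) l
    have h4 : rvarPoly (fun l : Fin g => v (rIdx l)) = Polynomial.X ^ g + dR := rfl
    rw [h4, hdR0, add_zero, Polynomial.coeff_X_pow, if_neg (ne_of_lt l.2)] at h1
    exact h1.symm
  funext i
  rcases i with s | t | l
  · exact hv1 s
  · exact hv2 t
  · exact hv3 l

/-- **The Jacobian determinant of the Residual system at the base point is a unit.** -/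
theorem isUnit_det_jacobian_of_resSolM [IsLocalRing A] (π : A →+* k)
    (hπ : Function.Surjective π) (D : Data A B I1 I2 I3) (hn : D.n = 1)
    (e : I3 ⊕ Unit ≃ Idx I1 I2 g)
    (red : B →+* Bbar) (ι : Bbar →ₐ[k] κ) (φbar : I3 → (Bbar →ₗ[k] k))
    (hφ : ∀ w b, φbar w (red b) = π (D.φ w b))
    (x0 : Idx I1 I2 g → A)
    {P : Place k κ} {Uvar Ufix : Finset (Place k κ)} {μ : Place k κ → ℕ} {val : Place k κ → k}
    {zb ub ub' : κ}
    (S : ResSolM P Uvar Ufix μ zb val ub ub')
    (hl : finrank k (riemannRochSpace (finDiv Uvar)) = 1)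
    (hg : g = Uvar.card)
    (hz : ι (red D.z) = zb)
    (hu : ι ((D.toCore.map red).uOf (ptbar fun i => π (x0 i))) = ub)
    (hu' : ι ((D.toCore.map red).vOf (ptbar fun i => π (x0 i))) = ub')
    (hrfix : ι (red D.rfix) = Polynomial.aeval zb (rootPolyMult val Ufix μ))
    (hb1_reg : ∀ s (w : Place k κ), w ≠ P → ι (red (D.b1 s)) ∈ w.toValuationSubring)
    (hb1_P : ∀ s, OrdGE P (ι (red (D.b1 s))) (P.ord ub))
    (hb2_reg : ∀ t (w : Place k κ), w ≠ P → ι (red (D.b2 t)) ∈ w.toValuationSubring)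
    (hb2_P : ∀ t, OrdGE P (ι (red (D.b2 t))) (P.ord ub'))
    (hli1 : LinearIndependent k fun s => ι (red (D.b1 s)))
    (hli2 : LinearIndependent k fun t => ι (red (D.b2 t)))
    (ht0 : π (x0 (uIdx D.t0)) ≠ 0)
    (Lbar : Submodule k Bbar)
    (hsep : ∀ y ∈ Lbar, (∀ w, φbar w y = 0) → y = 0)
    (hmul : ∀ s t, red (D.b1 s) * red (D.b2 t) ∈ Lbar)
    (hrz : ∀ l : Fin g, red D.rfix * red D.z ^ (l : ℕ) ∈ Lbar) :
    IsUnit (Matrix.det (Matrix.of fun i j =>
      MvPolynomial.eval x0 (MvPolynomial.pderiv i (sq D e j)))) :=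
  isUnit_det_jacobian π hπ D e red φbar hφ x0
    (hker_of_resSolM π D hn red ι φbar x0 S hl hg hz hu hu' hrfix hb1_reg hb1_P hb2_reg hb2_P
      hli1 hli2 ht0 Lbar hsep hmul hrz)


/-! ### Riemann-Roch-space form of the pole conditions -/

omit [DecidableEq I1] [DecidableEq I2] in
/-- an element of `L(m • P)` is regular off `P` and has pole order at most `m` at `P`. -/
theorem reg_of_mem_rr {P : Place k κ} {m : ℤ} {f : κ}
    (hf : f ∈ riemannRochSpace (Finsupp.single P m : Divisor k κ)) :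
    (∀ w : Place k κ, w ≠ P → f ∈ w.toValuationSubring) ∧ OrdGE P f (-m) := by
  classical
  rw [mem_riemannRochSpace_iff_ordGE] at hf
  refine ⟨fun w hw => ?_, ?_⟩
  · have h1 := hf w
    rw [Finsupp.single_apply, if_neg (Ne.symm hw), neg_zero] at h1
    exact h1.mem
  · have h1 := hf P
    rwa [Finsupp.single_apply, if_pos rfl] at h1

/-- `hker_of_resSolM` with the pole conditions on `b1bar`, `b2bar` phrased with the
Riemann-Roch spaces `L(m • P)`, `L(m' • P)`. -/
theorem hker_of_resSolM_rr (π : A →+* k) (D : Data A B I1 I2 I3) (hn : D.n = 1)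
    (red : B →+* Bbar) (ι : Bbar →ₐ[k] κ) (φbar : I3 → (Bbar →ₗ[k] k))
    (x0 : Idx I1 I2 g → A)
    {P : Place k κ} {Uvar Ufix : Finset (Place k κ)} {μ : Place k κ → ℕ} {val : Place k κ → k}
    {zb ub ub' : κ}
    (S : ResSolM P Uvar Ufix μ zb val ub ub')
    (hl : finrank k (riemannRochSpace (finDiv Uvar)) = 1)
    (hg : g = Uvar.card)
    (hz : ι (red D.z) = zb)
    (hu : ι ((D.toCore.map red).uOf (ptbar fun i => π (x0 i))) = ub)
    (hu' : ι ((D.toCore.map red).vOf (ptbar fun i => π (x0 i))) = ub')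
    (hrfix : ι (red D.rfix) = Polynomial.aeval zb (rootPolyMult val Ufix μ))
    (m m' : ℤ) (hPu : P.ord ub ≤ -m) (hPu' : P.ord ub' ≤ -m')
    (hb1 : ∀ s, ι (red (D.b1 s)) ∈ riemannRochSpace (Finsupp.single P m : Divisor k κ))
    (hb2 : ∀ t, ι (red (D.b2 t)) ∈ riemannRochSpace (Finsupp.single P m' : Divisor k κ))
    (hli1 : LinearIndependent k fun s => ι (red (D.b1 s)))
    (hli2 : LinearIndependent k fun t => ι (red (D.b2 t)))
    (ht0 : π (x0 (uIdx D.t0)) ≠ 0)
    (Lbar : Submodule k Bbar)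
    (hsep : ∀ y ∈ Lbar, (∀ w, φbar w y = 0) → y = 0)
    (hmul : ∀ s t, red (D.b1 s) * red (D.b2 t) ∈ Lbar)
    (hrz : ∀ l : Fin g, red D.rfix * red D.z ^ (l : ℕ) ∈ Lbar) :
    ∀ v : Idx I1 I2 g → k,
      (∀ w, φbar w ((D.toCore.map red).dval (ptbar fun i => π (x0 i)) (ptbar v)) = 0) →
      v (uIdx D.t0) = 0 → v = 0 :=
  hker_of_resSolM π D hn red ι φbar x0 S hl hg hz hu hu' hrfix
    (fun s => (reg_of_mem_rr (hb1 s)).1) (fun s => (reg_of_mem_rr (hb1 s)).2.mono hPu)
    (fun t => (reg_of_mem_rr (hb2 t)).1) (fun t => (reg_of_mem_rr (hb2 t)).2.mono hPu')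
    hli1 hli2 ht0 Lbar hsep hmul hrz

/-- `isUnit_det_jacobian_of_resSolM` with the pole conditions phrased with Riemann-Roch
spaces. -/
theorem isUnit_det_jacobian_of_resSolM_rr [IsLocalRing A] (π : A →+* k)
    (hπ : Function.Surjective π) (D : Data A B I1 I2 I3) (hn : D.n = 1)
    (e : I3 ⊕ Unit ≃ Idx I1 I2 g)
    (red : B →+* Bbar) (ι : Bbar →ₐ[k] κ) (φbar : I3 → (Bbar →ₗ[k] k))
    (hφ : ∀ w b, φbar w (red b) = π (D.φ w b))
    (x0 : Idx I1 I2 g → A)
    {P : Place k κ} {Uvar Ufix : Finset (Place k κ)} {μ : Place k κ → ℕ} {val : Place k κ → k}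
    {zb ub ub' : κ}
    (S : ResSolM P Uvar Ufix μ zb val ub ub')
    (hl : finrank k (riemannRochSpace (finDiv Uvar)) = 1)
    (hg : g = Uvar.card)
    (hz : ι (red D.z) = zb)
    (hu : ι ((D.toCore.map red).uOf (ptbar fun i => π (x0 i))) = ub)
    (hu' : ι ((D.toCore.map red).vOf (ptbar fun i => π (x0 i))) = ub')
    (hrfix : ι (red D.rfix) = Polynomial.aeval zb (rootPolyMult val Ufix μ))
    (m m' : ℤ) (hPu : P.ord ub ≤ -m) (hPu' : P.ord ub' ≤ -m')
    (hb1 : ∀ s, ι (red (D.b1 s)) ∈ riemannRochSpace (Finsupp.single P m : Divisor k κ))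
    (hb2 : ∀ t, ι (red (D.b2 t)) ∈ riemannRochSpace (Finsupp.single P m' : Divisor k κ))
    (hli1 : LinearIndependent k fun s => ι (red (D.b1 s)))
    (hli2 : LinearIndependent k fun t => ι (red (D.b2 t)))
    (ht0 : π (x0 (uIdx D.t0)) ≠ 0)
    (Lbar : Submodule k Bbar)
    (hsep : ∀ y ∈ Lbar, (∀ w, φbar w y = 0) → y = 0)
    (hmul : ∀ s t, red (D.b1 s) * red (D.b2 t) ∈ Lbar)
    (hrz : ∀ l : Fin g, red D.rfix * red D.z ^ (l : ℕ) ∈ Lbar) :
    IsUnit (Matrix.det (Matrix.of fun i j =>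
      MvPolynomial.eval x0 (MvPolynomial.pderiv i (sq D e j)))) :=
  isUnit_det_jacobian π hπ D e red φbar hφ x0
    (hker_of_resSolM_rr π D hn red ι φbar x0 S hl hg hz hu hu' hrfix m m' hPu hPu' hb1 hb2
      hli1 hli2 ht0 Lbar hsep hmul hrz)

end Fermat.Agent.S19x.Geo.Residual.JacDict
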