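import Fermat.Agent.S19x.Geo.FrameAlg
import Fermat.Agent.S19x.Geo.Residual.JacDict

/-!
# P-S19, BLOCK A, leaf (L6), part (J-inst): the Jacobian of a frame-slice system is invertible

Adapter between the adapted frames of `Geo/FrameAlg` (`FiltRed`) and the abstract dictionary
`Geo/Residual/JacDict`.

* `nP P n = n • P`, with the elementary calculus of the spaces `L(n • P)` (`mul_mem_rr`,
  `pow_mem_rr`, `aeval_mem_rr`, `rr_mono`), via `OrdGE` only;
* `FrameGeo FD redR ι P` : the geometric identification of a filtered reduction datum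
  `FD : FiltRed π B Bbar` (`B` a commutative `R`-algebra): a ring hom `redR` inducing `FD.red`, an
  injective `k`-algebra hom `ι : Bbar → κ`, and `y ∈ FD.Lbar (N0 + j) ↔ ι y ∈ L((N0 + j) • P)`
  (for `Geo/Frame.frameData` this is `mem_frameData_Lbar`);
* `hker_of_frame`, `isUnit_det_jacobian_of_frame` : for ANY `D : FactorSystem.Data R B I1 I2 I3`
  with exponent `1` whose `b1`, `b2`, `φ` are slices of the frame
  (`D.b1 s = FD.frame (i1 s)`, `i1 s < r0 + j1`; `D.b2 t = FD.frame (i2 t)`, `i2 t < r0 + j2`;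
  `D.φ w = FD.coord (i3 w)`, `i3` onto `[0, r0 + (N0 + j1 + j2))`), a base point `x0` whose
  reduction is a residue solution `ResSolM` with exact pole orders
  `ord_P ub ≤ -(N0 + j1)`, `ord_P ub' ≤ -(N0 + j2)`, non-special `Uvar`, and a unit normalised
  coordinate: the kernel condition of `Geo/FactorJac` holds and the Jacobian determinant of the
  square system at `x0` is a unit of `R`.  All the frame-side inputs of `JacDict` (independence,
  pole conditions, separation, products) are derived here from `FiltRed` + `FrameGeo`.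
-/

set_option autoImplicit false
set_option linter.unusedSectionVars false
set_option linter.style.haveILetI false

noncomputable section

namespace Fermat.Agent.S19x.Geo.Residual.JacInst

open AlgebraicCurve Module
open Fermat.Agent.S27x.Lift.FactorSystem Fermat.Agent.S27x.Lift.NiceRep
  Fermat.Agent.S27x.Lift.JacInj Fermat.Agent.S19x.Geo.JacKerMult Fermat.Agent.S19x.Geo.FactorJac
  Fermat.Agent.S19x.Geo.FrameAlg Fermat.Agent.S19x.Geo.Residual.JacDict

/-! ### The spaces `L(n • P)` -/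

section RR

variable {k κ : Type*} [Field k] [Field κ] [Algebra k κ] (P : Place k κ)

/-- the divisor `n • P`. -/
def nP (n : ℕ) : Divisor k κ := Finsupp.single P (n : ℤ)

variable {P}

theorem mem_rr_iff {n : ℕ} {f : κ} :
    f ∈ riemannRochSpace (nP P n) ↔
      (∀ w : Place k κ, w ≠ P → OrdGE w f 0) ∧ OrdGE P f (-(n : ℤ)) := by
  classical
  rw [mem_riemannRochSpace_iff_ordGE]
  constructor
  · intro h
    refine ⟨fun w hw => ?_, ?_⟩
    · have h1 := h w
      rwa [nP, Finsupp.single_apply, if_neg (Ne.symm hw), neg_zero] at h1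
    · have h1 := h P
      rwa [nP, Finsupp.single_apply, if_pos rfl] at h1
  · rintro ⟨h1, h2⟩ w
    by_cases hw : w = P
    · subst hw
      rwa [nP, Finsupp.single_apply, if_pos rfl]
    · rw [nP, Finsupp.single_apply, if_neg (Ne.symm hw), neg_zero]
      exact h1 w hw

theorem rr_mono {a b : ℕ} (h : a ≤ b) {f : κ} (hf : f ∈ riemannRochSpace (nP P a)) :
    f ∈ riemannRochSpace (nP P b) := by
  rw [mem_rr_iff] at hf ⊢
  exact ⟨hf.1, hf.2.mono (by omega)⟩

theorem one_mem_rr : (1 : κ) ∈ riemannRochSpace (nP P 0) := by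
  rw [mem_rr_iff]
  refine ⟨fun w _ => Or.inr ?_, Or.inr ?_⟩
  · rw [Place.ord_one]
  · rw [Place.ord_one]; simp

theorem mul_mem_rr {a b : ℕ} {f g : κ} (hf : f ∈ riemannRochSpace (nP P a))
    (hg : g ∈ riemannRochSpace (nP P b)) : f * g ∈ riemannRochSpace (nP P (a + b)) := by
  rw [mem_rr_iff] at hf hg ⊢
  refine ⟨fun w hw => ((hf.1 w hw).mul (hg.1 w hw)).mono (by norm_num), ?_⟩
  exact (hf.2.mul hg.2).mono (by push_cast; omega)

theorem pow_mem_rr {e : ℕ} {z : κ} (hz : z ∈ riemannRochSpace (nP P e)) (i : ℕ) :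
    z ^ i ∈ riemannRochSpace (nP P (e * i)) := by
  induction i with
  | zero => simpa using one_mem_rr (P := P)
  | succ i ih =>
    rw [pow_succ, Nat.mul_succ]
    exact mul_mem_rr ih hz

theorem aeval_mem_rr {e : ℕ} {z : κ} (hz : z ∈ riemannRochSpace (nP P e)) (p : Polynomial k)
    {N : ℕ} (hN : e * p.natDegree ≤ N) : Polynomial.aeval z p ∈ riemannRochSpace (nP P N) := by
  rw [Polynomial.aeval_eq_sum_range]
  refine Submodule.sum_mem _ fun i hi => Submodule.smul_mem _ _ ?_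
  refine rr_mono ?_ (pow_mem_rr hz i)
  refine le_trans (Nat.mul_le_mul_left e ?_) hN
  exact Nat.lt_succ_iff.mp (Finset.mem_range.mp hi)

end RR

/-! ### The geometric identification of a filtered reduction datum -/

section Main

variable {R : Type*} [CommRing R] [IsDomain R] [ValuationRing R] {k : Type*} [Field k]
  {π : R →+* k}
variable {B : Type*} [CommRing B] [Algebra R B] [NoZeroSMulDivisors R B]
variable {Bbar : Type*} [CommRing Bbar] [Algebra k Bbar]
variable {κ : Type*} [Field κ] [Algebra k κ]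

/-- **Geometric identification** of a filtered reduction datum `FD` on a commutative `R`-algebra
`B`: the reduction is a ring hom, `Bbar` embeds into the function field `κ`, and the levels
`N0 + j` of the filtration of `Bbar` are the Riemann-Roch spaces `L((N0 + j) • P)`. -/
structure FrameGeo (FD : FiltRed π B Bbar) (redR : B →+* Bbar) (ι : Bbar →ₐ[k] κ)
    (P : Place k κ) : Prop where
  red_eq : ∀ x, redR x = FD.red x
  ι_inj : Function.Injective ι
  mem_Lbar : ∀ (j : ℕ) (y : Bbar),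
    y ∈ FD.Lbar (FD.N0 + j) ↔ ι y ∈ riemannRochSpace (nP P (FD.N0 + j))

namespace FrameGeo

variable {FD : FiltRed π B Bbar} {redR : B →+* Bbar} {ι : Bbar →ₐ[k] κ} {P : Place k κ}
  (H : FrameGeo FD redR ι P)
include H

theorem frame_mem_rr (j : ℕ) {i : ℕ} (hi : i < FD.r0 + j) :
    ι (redR (FD.frame i)) ∈ riemannRochSpace (nP P (FD.N0 + j)) := by
  rw [H.red_eq]
  exact (H.mem_Lbar j _).mp (FD.frameBar_mem j hi)

theorem linearIndependent_slice {I : Type*} (i1 : I → ℕ) (hi1 : Function.Injective i1) :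
    LinearIndependent k fun s => ι (redR (FD.frame (i1 s))) := by
  have h1 : LinearIndependent k (fun s => FD.frameBar (i1 s)) :=
    FD.linearIndependent_frameBar.comp i1 hi1
  have h2 := h1.map' ι.toLinearMap (LinearMap.ker_eq_bot.mpr H.ι_inj)
  have h3 : (fun s => ι (redR (FD.frame (i1 s)))) = ⇑ι.toLinearMap ∘ fun s => FD.frameBar (i1 s) := by
    funext s
    simp only [Function.comp_apply, AlgHom.toLinearMap_apply, FiltRed.frameBar, H.red_eq]
  rw [h3]
  exact h2

end FrameGeo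

variable {I1 I2 I3 : Type*} {g : ℕ} [Fintype I1] [Fintype I2] [DecidableEq I1] [DecidableEq I2]

/-- **The kernel condition of `Geo/FactorJac` for a frame-slice system.** -/
theorem hker_of_frame {FD : FiltRed π B Bbar} {redR : B →+* Bbar} {ι : Bbar →ₐ[k] κ}
    {P : Place k κ} (H : FrameGeo FD redR ι P) (j1 j2 : ℕ)
    (D : Data R B I1 I2 I3) (hn : D.n = 1)
    (i1 : I1 → ℕ) (hi1 : Function.Injective i1) (hi1lt : ∀ s, i1 s < FD.r0 + j1)
    (hb1 : ∀ s, D.b1 s = FD.frame (i1 s))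
    (i2 : I2 → ℕ) (hi2 : Function.Injective i2) (hi2lt : ∀ t, i2 t < FD.r0 + j2)
    (hb2 : ∀ t, D.b2 t = FD.frame (i2 t))
    (i3 : I3 → ℕ) (hi3 : ∀ i, i < FD.r0 + (FD.N0 + j1 + j2) → ∃ w, i3 w = i)
    (x0 : Idx I1 I2 g → R)
    {Uvar Ufix : Finset (Place k κ)} {μ : Place k κ → ℕ} {val : Place k κ → k}
    {zb ub ub' : κ}
    (S : ResSolM P Uvar Ufix μ zb val ub ub')
    (hl : finrank k (riemannRochSpace (finDiv Uvar)) = 1)
    (hg : g = Uvar.card)
    (hz : ι (redR D.z) = zb)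
    (hu : ι ((D.toCore.map redR).uOf (ptbar fun i => π (x0 i))) = ub)
    (hu' : ι ((D.toCore.map redR).vOf (ptbar fun i => π (x0 i))) = ub')
    (hrfix : ι (redR D.rfix) = Polynomial.aeval zb (rootPolyMult val Ufix μ))
    (ez : ℕ) (hzmem : zb ∈ riemannRochSpace (nP P ez))
    (hdeg : ez * ((rootPolyMult val Ufix μ).natDegree + g) ≤ (FD.N0 + j1) + (FD.N0 + j2))
    (hPu : P.ord ub ≤ -((FD.N0 + j1 : ℕ) : ℤ)) (hPu' : P.ord ub' ≤ -((FD.N0 + j2 : ℕ) : ℤ))
    (ht0 : π (x0 (uIdx D.t0)) ≠ 0) :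
    ∀ v : Idx I1 I2 g → k,
      (∀ w, FD.coordBar (i3 w)
        ((D.toCore.map redR).dval (ptbar fun i => π (x0 i)) (ptbar v)) = 0) →
      v (uIdx D.t0) = 0 → v = 0 := by
  have hN : FD.N0 + j1 + (FD.N0 + j2) = FD.N0 + (FD.N0 + j1 + j2) := by omega
  refine hker_of_resSolM_rr π D hn redR ι (fun w => FD.coordBar (i3 w)) x0 S hl hg hz hu hu' hrfix
    ((FD.N0 + j1 : ℕ) : ℤ) ((FD.N0 + j2 : ℕ) : ℤ) hPu hPu' ?_ ?_ ?_ ?_ ht0
    (FD.Lbar (FD.N0 + (FD.N0 + j1 + j2))) ?_ ?_ ?_
  · intro s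
    rw [hb1 s]
    exact H.frame_mem_rr j1 (hi1lt s)
  · intro t
    rw [hb2 t]
    exact H.frame_mem_rr j2 (hi2lt t)
  · have := H.linearIndependent_slice i1 hi1
    simpa only [hb1] using this
  · have := H.linearIndependent_slice i2 hi2
    simpa only [hb2] using this
  · intro y hy h
    refine FD.eq_zero_of_coordBar_eq_zero hy fun i hi => ?_
    obtain ⟨w, rfl⟩ := hi3 i hi
    exact h w
  · intro s t
    rw [H.mem_Lbar, map_mul, hb1 s, hb2 t, ← hN]
    exact mul_mem_rr (H.frame_mem_rr j1 (hi1lt s)) (H.frame_mem_rr j2 (hi2lt t))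
  · intro l
    rw [H.mem_Lbar, map_mul, map_pow, hz, hrfix, ← hN]
    have h1 : Polynomial.aeval zb (rootPolyMult val Ufix μ) ∈
        riemannRochSpace (nP P (ez * (rootPolyMult val Ufix μ).natDegree)) :=
      aeval_mem_rr hzmem _ le_rfl
    have h2 := pow_mem_rr hzmem (l : ℕ)
    refine rr_mono ?_ (mul_mem_rr h1 h2)
    calc ez * (rootPolyMult val Ufix μ).natDegree + ez * (l : ℕ)
        = ez * ((rootPolyMult val Ufix μ).natDegree + (l : ℕ)) := by ring
      _ ≤ ez * ((rootPolyMult val Ufix μ).natDegree + g) :=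
          Nat.mul_le_mul_left ez (Nat.add_le_add_left l.2.le _)
      _ ≤ FD.N0 + j1 + (FD.N0 + j2) := hdeg

/-- **The Jacobian determinant of a frame-slice system at the base point is a unit.** -/
theorem isUnit_det_jacobian_of_frame {FD : FiltRed π B Bbar} {redR : B →+* Bbar}
    {ι : Bbar →ₐ[k] κ} {P : Place k κ} (H : FrameGeo FD redR ι P) (j1 j2 : ℕ)
    (D : Data R B I1 I2 I3) (hn : D.n = 1) (e : I3 ⊕ Unit ≃ Idx I1 I2 g)
    (i1 : I1 → ℕ) (hi1 : Function.Injective i1) (hi1lt : ∀ s, i1 s < FD.r0 + j1)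
    (hb1 : ∀ s, D.b1 s = FD.frame (i1 s))
    (i2 : I2 → ℕ) (hi2 : Function.Injective i2) (hi2lt : ∀ t, i2 t < FD.r0 + j2)
    (hb2 : ∀ t, D.b2 t = FD.frame (i2 t))
    (i3 : I3 → ℕ) (hi3 : ∀ i, i < FD.r0 + (FD.N0 + j1 + j2) → ∃ w, i3 w = i)
    (hφD : ∀ w, D.φ w = FD.coord (i3 w))
    (x0 : Idx I1 I2 g → R)
    {Uvar Ufix : Finset (Place k κ)} {μ : Place k κ → ℕ} {val : Place k κ → k}
    {zb ub ub' : κ}
    (S : ResSolM P Uvar Ufix μ zb val ub ub')
    (hl : finrank k (riemannRochSpace (finDiv Uvar)) = 1)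
    (hg : g = Uvar.card)
    (hz : ι (redR D.z) = zb)
    (hu : ι ((D.toCore.map redR).uOf (ptbar fun i => π (x0 i))) = ub)
    (hu' : ι ((D.toCore.map redR).vOf (ptbar fun i => π (x0 i))) = ub')
    (hrfix : ι (redR D.rfix) = Polynomial.aeval zb (rootPolyMult val Ufix μ))
    (ez : ℕ) (hzmem : zb ∈ riemannRochSpace (nP P ez))
    (hdeg : ez * ((rootPolyMult val Ufix μ).natDegree + g) ≤ (FD.N0 + j1) + (FD.N0 + j2))
    (hPu : P.ord ub ≤ -((FD.N0 + j1 : ℕ) : ℤ)) (hPu' : P.ord ub' ≤ -((FD.N0 + j2 : ℕ) : ℤ))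
    (ht0 : π (x0 (uIdx D.t0)) ≠ 0) :
    IsUnit (Matrix.det (Matrix.of fun i j =>
      MvPolynomial.eval x0 (MvPolynomial.pderiv i (sq D e j)))) := by
  refine isUnit_det_jacobian π FD.π_surj D e redR (fun w => FD.coordBar (i3 w)) ?_ x0
    (hker_of_frame H j1 j2 D hn i1 hi1 hi1lt hb1 i2 hi2 hi2lt hb2 i3 hi3 x0 S hl hg hz hu hu'
      hrfix ez hzmem hdeg hPu hPu' ht0)
  intro w b
  rw [hφD w, H.red_eq]
  exact FD.coordBar_red _ _

end Main

end Fermat.Agent.S19x.Geo.Residual.JacInst
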