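import Fermat.Agent.S19x.Geo.Frame
import Fermat.Agent.S19x.Geo.Residual.JacInst

/-!
# P-S19, BLOCK A, leaf (L6), part (J-inst): `FrameGeo` for the frame of `B^S`

The geometric identification `JacInst.FrameGeo` for helper27's frame datum
`Frame.frameData H hN0 : FiltRed (πS G I) (BS G I) (Bbar G)`: reduction `Frame.resB G I`, embedding
`(Bbar G).val : Bbar G →ₐ[k] κ`, place `G.oob`.
-/

set_option autoImplicit false
set_option linter.unusedSectionVars false
set_option linter.style.haveILetI false

noncomputable section

namespace Fermat.Agent.S19x.Geo.Residual.JacInstFrame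

open AlgebraicCurve Module
open Fermat.Agent.S19x.Geo Fermat.Agent.S19x.Geo.Frame Fermat.Agent.S19x.Geo.FrameAlg
  Fermat.Agent.S19x.Geo.Residual.JacInst

universe u v w z

variable {K : Type u} [Field K] {A : ValuationSubring K}
  {F : Type v} [Field F] [Algebra K F] {O : ValuationSubring F}
  {k : Type w} {κ : Type z} [Field k] [Field κ] [Algebra k κ]
  {G : GeoSetting A O k κ} {I : InertiaData G}
  [HasPrincipalDivisors K F] [HasPrincipalDivisors k κ] [∀ v : Place k κ, v.FiniteResidue]
  [ValuationRing I.fixedRing] {N0 : ℕ}

/-- `n • ∞bar` in the two notations. -/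
theorem nOob_eq_nP (n : ℕ) : nOob G n = nP G.oob n := rfl

/-- **The geometric identification of the frame datum of `B^S`.** -/
theorem frameGeo_frameData (H : FixedLatticeFacts G I N0) (hN0 : 2 * (G.g : ℤ) - 1 ≤ N0) :
    FrameGeo (frameData H hN0) (resB G I) (Bbar G).val G.oob where
  red_eq x := (frameData_red H hN0 x).symm
  ι_inj := Subtype.val_injective
  mem_Lbar j y := by
    rw [mem_frameData_Lbar, frameData_N0]
    rfl

end Fermat.Agent.S19x.Geo.Residual.JacInstFrame
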