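import Fermat.Agent.S19x.Geo.Residual.FrameSystem
import Fermat.Agent.S19x.Geo.Residual.JacInst

/-!
# P-S19, BLOCK A, leaf (L6), part (J-inst): the Jacobian of `FrameSystem.sysData` is invertible

`Geo/Residual/JacInst.isUnit_det_jacobian_of_frame` specialised to helper41's system
`FrameSystem.sysData FD j1 j2 j3 z rfix t0 α0` at the base point
`FrameSystem.basePt FD j1 j2 u0 u0' ρ`.  No `RingCompat` is needed: only a ring hom `redR`
inducing `FD.red` and the geometric identification `JacInst.FrameGeo`.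

* `redR_algebraMap`, `uOf_bar_basePt`, `vOf_bar_basePt` : the reduction of the base point
  (`RingCompat`-free versions of the lemmas of `FrameSystem`);
* `hker_sysData` : the kernel condition `hker` of `Geo/FactorJac` / `ResidualCoreNA.residual_core_of_hker`;
* `isUnit_det_jacobian_sysData` : the hypothesis `hJ` of `ResidualCoreNA.residual_core_of_jacobian`.
-/

set_option autoImplicit false
set_option linter.unusedSectionVars false
set_option linter.style.haveILetI false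

noncomputable section

namespace Fermat.Agent.S19x.Geo.Residual.JacInstSys

open AlgebraicCurve Module
open Fermat.Agent.S27x.Lift.FactorSystem Fermat.Agent.S27x.Lift.NiceRep
  Fermat.Agent.S27x.Lift.JacInj Fermat.Agent.S19x.Geo.JacKerMult Fermat.Agent.S19x.Geo.FactorJac
  Fermat.Agent.S19x.Geo.FrameAlg Fermat.Agent.S19x.Geo.Residual.JacInst
  Fermat.Agent.S19x.Geo.Residual.FrameSystem

variable {R : Type*} [CommRing R] [IsDomain R] [ValuationRing R] {k : Type*} [Field k]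
  {π : R →+* k}
variable {B : Type*} [CommRing B] [Algebra R B] [NoZeroSMulDivisors R B]
variable {Bbar : Type*} [CommRing Bbar] [Algebra k Bbar]
variable {κ : Type*} [Field κ] [Algebra k κ]
variable {FD : FiltRed π B Bbar} {redR : B →+* Bbar}

theorem redR_smul (hred : ∀ x, redR x = FD.red x) (a : R) (x : B) :
    redR (a • x) = algebraMap k Bbar (π a) * redR x := by
  rw [hred, hred, FD.red_smul, Algebra.smul_def]

theorem redR_algebraMap (hred : ∀ x, redR x = FD.red x) (a : R) :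
    redR (algebraMap R B a) = algebraMap k Bbar (π a) := by
  have := redR_smul hred a 1
  rwa [Algebra.smul_def, mul_one, map_one, mul_one] at this

variable {j1 j2 j3 g : ℕ} (z rfix : B) (t0 : Fin (FD.r0 + j1)) (α0 : R)

theorem uOf_bar_eq (hred : ∀ x, redR x = FD.red x)
    (x : Idx (Fin (FD.r0 + j1)) (Fin (FD.r0 + j2)) g → R) :
    ((sysData FD j1 j2 j3 z rfix t0 α0).toCore.map redR).uOf (ptbar fun i => π (x i))
      = redR ((sysData FD j1 j2 j3 z rfix t0 α0).toCore.uOf (Data.pt x)) := by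
  simp only [Core.uOf, Core.map, ptbar, Data.pt, map_sum, map_mul, redR_algebraMap hred]

theorem vOf_bar_eq (hred : ∀ x, redR x = FD.red x)
    (x : Idx (Fin (FD.r0 + j1)) (Fin (FD.r0 + j2)) g → R) :
    ((sysData FD j1 j2 j3 z rfix t0 α0).toCore.map redR).vOf (ptbar fun i => π (x i))
      = redR ((sysData FD j1 j2 j3 z rfix t0 α0).toCore.vOf (Data.pt x)) := by
  simp only [Core.vOf, Core.map, ptbar, Data.pt, map_sum, map_mul, redR_algebraMap hred]

/-- the reduction of the `u`-part of the base point. -/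
theorem uOf_bar_basePt (hred : ∀ x, redR x = FD.red x) {u0 : B}
    (hu0 : u0 ∈ FD.L (FD.N0 + j1)) (u0' : B) (ρ : Polynomial R) :
    ((sysData FD j1 j2 j3 z rfix t0 α0).toCore.map redR).uOf
      (ptbar fun i => π (basePt FD j1 j2 (g := g) u0 u0' ρ i)) = redR u0 := by
  rw [uOf_bar_eq z rfix t0 α0 hred, uOf_basePt FD z rfix t0 α0 hu0]

/-- the reduction of the `u'`-part of the base point. -/
theorem vOf_bar_basePt (hred : ∀ x, redR x = FD.red x) (u0 : B) {u0' : B}
    (hu0' : u0' ∈ FD.L (FD.N0 + j2)) (ρ : Polynomial R) :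
    ((sysData FD j1 j2 j3 z rfix t0 α0).toCore.map redR).vOf
      (ptbar fun i => π (basePt FD j1 j2 (g := g) u0 u0' ρ i)) = redR u0' := by
  rw [vOf_bar_eq z rfix t0 α0 hred, vOf_basePt FD z rfix t0 α0 u0 hu0']

theorem π_basePt_t0 (hred : ∀ x, redR x = FD.red x) (u0 u0' : B) (ρ : Polynomial R) :
    π (basePt FD j1 j2 (g := g) u0 u0' ρ (uIdx t0)) = FD.coordBar t0 (redR u0) := by
  rw [hred, FD.coordBar_red]
  rfl

variable {ι : Bbar →ₐ[k] κ} {P : Place k κ}

/-- **The kernel condition for `sysData` at the base point.** -/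
theorem hker_sysData (H : FrameGeo FD redR ι P)
    (hlev : FD.N0 + j1 + (FD.N0 + j2) ≤ FD.N0 + j3)
    {u0 u0' : B} (hu0 : u0 ∈ FD.L (FD.N0 + j1)) (hu0' : u0' ∈ FD.L (FD.N0 + j2))
    (ρ : Polynomial R)
    {Uvar Ufix : Finset (Place k κ)} {μ : Place k κ → ℕ} {val : Place k κ → k}
    (S : ResSolM P Uvar Ufix μ (ι (redR z)) val (ι (redR u0)) (ι (redR u0')))
    (hl : finrank k (riemannRochSpace (finDiv Uvar)) = 1)
    (hg : g = Uvar.card)
    (hrfix : ι (redR rfix) = Polynomial.aeval (ι (redR z)) (rootPolyMult val Ufix μ))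
    (ez : ℕ) (hzmem : ι (redR z) ∈ riemannRochSpace (nP P ez))
    (hdeg : ez * ((rootPolyMult val Ufix μ).natDegree + g) ≤ (FD.N0 + j1) + (FD.N0 + j2))
    (hPu : P.ord (ι (redR u0)) ≤ -((FD.N0 + j1 : ℕ) : ℤ))
    (hPu' : P.ord (ι (redR u0')) ≤ -((FD.N0 + j2 : ℕ) : ℤ))
    (ht0 : FD.coordBar t0 (redR u0) ≠ 0) :
    ∀ v : Idx (Fin (FD.r0 + j1)) (Fin (FD.r0 + j2)) g → k,
      (∀ w : Fin (FD.r0 + j3), FD.coordBar w
        (((sysData FD j1 j2 j3 z rfix t0 α0).toCore.map redR).dval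
          (ptbar fun i => π (basePt FD j1 j2 (g := g) u0 u0' ρ i)) (ptbar v)) = 0) →
      v (uIdx (sysData FD j1 j2 j3 z rfix t0 α0).t0) = 0 → v = 0 := by
  refine hker_of_frame H j1 j2 (sysData FD j1 j2 j3 z rfix t0 α0) rfl
    (fun s => (s : ℕ)) Fin.val_injective (fun s => s.2) (fun _ => rfl)
    (fun t => (t : ℕ)) Fin.val_injective (fun t => t.2) (fun _ => rfl)
    (fun w => (w : ℕ)) (fun i hi => ⟨⟨i, by omega⟩, rfl⟩)
    (basePt FD j1 j2 (g := g) u0 u0' ρ) S hl hg rfl ?_ ?_ hrfix ez hzmem hdeg hPu hPu' ?_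
  · rw [uOf_bar_basePt z rfix t0 α0 H.red_eq hu0]
  · rw [vOf_bar_basePt z rfix t0 α0 H.red_eq u0 hu0']
  · show π (basePt FD j1 j2 (g := g) u0 u0' ρ (uIdx t0)) ≠ 0
    rw [π_basePt_t0 t0 H.red_eq]
    exact ht0

/-- **The Jacobian determinant of `sysData` at the base point is a unit**: the hypothesis `hJ` of
`ResidualCoreNA.residual_core_of_jacobian`. -/
theorem isUnit_det_jacobian_sysData (H : FrameGeo FD redR ι P)
    (hlev : FD.N0 + j1 + (FD.N0 + j2) ≤ FD.N0 + j3)
    (e : Fin (FD.r0 + j3) ⊕ Unit ≃ Idx (Fin (FD.r0 + j1)) (Fin (FD.r0 + j2)) g)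
    {u0 u0' : B} (hu0 : u0 ∈ FD.L (FD.N0 + j1)) (hu0' : u0' ∈ FD.L (FD.N0 + j2))
    (ρ : Polynomial R)
    {Uvar Ufix : Finset (Place k κ)} {μ : Place k κ → ℕ} {val : Place k κ → k}
    (S : ResSolM P Uvar Ufix μ (ι (redR z)) val (ι (redR u0)) (ι (redR u0')))
    (hl : finrank k (riemannRochSpace (finDiv Uvar)) = 1)
    (hg : g = Uvar.card)
    (hrfix : ι (redR rfix) = Polynomial.aeval (ι (redR z)) (rootPolyMult val Ufix μ))
    (ez : ℕ) (hzmem : ι (redR z) ∈ riemannRochSpace (nP P ez))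
    (hdeg : ez * ((rootPolyMult val Ufix μ).natDegree + g) ≤ (FD.N0 + j1) + (FD.N0 + j2))
    (hPu : P.ord (ι (redR u0)) ≤ -((FD.N0 + j1 : ℕ) : ℤ))
    (hPu' : P.ord (ι (redR u0')) ≤ -((FD.N0 + j2 : ℕ) : ℤ))
    (ht0 : FD.coordBar t0 (redR u0) ≠ 0) :
    IsUnit (Matrix.det (Matrix.of fun i j =>
      MvPolynomial.eval (basePt FD j1 j2 (g := g) u0 u0' ρ)
        (MvPolynomial.pderiv i (sq (sysData FD j1 j2 j3 z rfix t0 α0) e j)))) := by
  refine isUnit_det_jacobian π FD.π_surj (sysData FD j1 j2 j3 z rfix t0 α0) e redR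
    (fun w => FD.coordBar w) ?_ (basePt FD j1 j2 (g := g) u0 u0' ρ)
    (hker_sysData z rfix t0 α0 H hlev hu0 hu0' ρ S hl hg hrfix ez hzmem hdeg hPu hPu' ht0)
  intro w b
  rw [H.red_eq]
  exact FD.coordBar_red w b

end Fermat.Agent.S19x.Geo.Residual.JacInstSys
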