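import Fermat.Agent.S19x.Geo.Residual.Coord
import Fermat.Agent.S19x.Geo.Residual.JacInstSys
import Fermat.Agent.S19x.Geo.Residual.JacInstFrame
import Fermat.Agent.S19x.Geo.Residual.ExtFun

/-!
# P-S19, block A, leaf L6, FINAL on the Glue route (helper92)

`exists_residualOut_of_frames` : from the frame datum `Frame.frameData H hN0` of `B^S`, a base
solution `(zB, u0B, u0'B, ρW0, ρDc)` in `B^S` (levels `m = N0 + j1`, `ez m - m = N0 + j2`) and a
`TrueSol.Input` whose residue solution is `(res u0B, res u0'B)`, the structure `ResidualOut I`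
with prescribed `z, m, W0, Dc, dW`.

Assembly of: `Glue.exists_residualOut` (helper33), `FrameSystem.sysData/basePt/isSol_basePt`
(helper41), `JacInstSys.isUnit_det_jacobian_sysData` + `JacInstFrame.frameGeo_frameData`
(helper10), `ExtFun.exists_extFun_frame` (helper43), `Coord.htrue_of_input` (helper92).
-/

set_option autoImplicit false
set_option linter.unusedSectionVars false
set_option linter.style.haveILetI false

noncomputable section

namespace Fermat.Agent.S19x.Geo.Residual.FinalGlue

open AlgebraicCurve IsLocalRing Module Polynomial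
open Fermat.Agent.Gateway.C0 Fermat.Agent.Gateway.Red Fermat.Agent.S27x.Spec.Inj
  Fermat.Agent.S27x.Spec.Disc Fermat.Agent.S19x.Geo Fermat.Agent.S19x.Geo.Lattice
  Fermat.Agent.S19x.Geo.FrameAlg Fermat.Agent.S19x.Geo.Frame Fermat.Agent.S19x.Geo.FrameA
  Fermat.Agent.S27x.Lift.FactorSystem Fermat.Agent.S19x.Geo.Residual.FrameSystem
  Fermat.Agent.S19x.Geo.Residual.Glue Fermat.Agent.S19x.Geo.Residual.Coord
  Fermat.Agent.S19x.Geo.TrueSol Fermat.Agent.S19x.Geo.JacKerMult
  Fermat.Agent.S27x.Lift.NiceRep Fermat.Agent.S19x.Geo.Residual.JacInst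
  Fermat.Agent.S19x.Geo.Residual.JacInstSys Fermat.Agent.S19x.Geo.Residual.JacInstFrame
  Fermat.Agent.S19x.Geo.Residual.ExtFun

universe u v w z

variable {K : Type u} [Field K] {A : ValuationSubring K}
  {F : Type v} [Field F] [Algebra K F] {O : ValuationSubring F}
  {k : Type w} {κ : Type z} [Field k] [Field κ] [Algebra k κ]
  [HasPrincipalDivisors K F] [∀ v : Place K F, v.FiniteResidue]
  [HasPrincipalDivisors k κ] [∀ v : Place k κ, v.FiniteResidue]
  {G : GeoSetting A O k κ} {I : InertiaData G} [ValuationRing I.fixedRing]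
  {N0 : ℕ} (H : FixedLatticeFacts G I N0) (hN0 : 2 * (G.g : ℤ) - 1 ≤ N0)

/-- the value in `F` of a polynomial over `A^S` at an element of `B^S`. -/
theorem algebraMap_fixedRing_F (a : I.fixedRing) :
    algebraMap I.fixedRing F a = algebraMap K F (ψK I a) := by
  rw [Algebra.algebraMap_eq_smul_one, fixedRing_smul_eq, mul_one]
  rfl

theorem coe_aeval (zB : BS G I) (p : Polynomial I.fixedRing) :
    ((aeval zB p : BS G I) : F) = aeval (zB : F) (p.map (ψK I)) := by
  induction p using Polynomial.induction_on' with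
  | add p q hp hq =>
    rw [map_add, Polynomial.map_add, map_add, Subalgebra.coe_add, hp, hq]
  | monomial n a =>
    rw [Polynomial.aeval_monomial, Polynomial.map_monomial, Polynomial.aeval_monomial,
      Subalgebra.coe_mul, Subalgebra.coe_pow, Subalgebra.coe_algebraMap,
      algebraMap_fixedRing_F]

/-- the reduction of the value of a polynomial over `A^S` at an element of `B^S`. -/
theorem coe_resB_algebraMap (a : I.fixedRing) :
    ((resB G I (algebraMap I.fixedRing (BS G I) a) : Bbar G) : κ) =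
      algebraMap k κ (πS G I a) := by
  have h1 : algebraMap I.fixedRing (BS G I) a = a • (1 : BS G I) :=
    Algebra.algebraMap_eq_smul_one a
  rw [h1, resB_smul, map_one, Algebra.algebraMap_eq_smul_one]
  rfl

theorem coe_resB_aeval (zB : BS G I) (p : Polynomial I.fixedRing) :
    ((resB G I (aeval zB p) : Bbar G) : κ) =
      aeval ((resB G I zB : Bbar G) : κ) (p.map (πS G I)) := by
  induction p using Polynomial.induction_on' with
  | add p q hp hq =>
    rw [map_add, map_add, Polynomial.map_add, map_add, Subalgebra.coe_add, hp, hq]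
  | monomial n a =>
    rw [Polynomial.aeval_monomial, Polynomial.map_monomial, Polynomial.aeval_monomial,
      map_mul, map_pow, Subalgebra.coe_mul, Subalgebra.coe_pow, coe_resB_algebraMap]

include H hN0 in
/-- **FINAL (Glue route)**: the Residual Theorem for one configuration, from the frames and a
base solution in `B^S`. -/
theorem exists_residualOut_of_frames (j1 j2 : ℕ) {m ez dW : ℕ} (hm : m = N0 + j1)
    (hN2 : (ez : ℤ) * m - m = ((N0 + j2 : ℕ) : ℤ))
    (zB u0B u0'B : BS G I)
    (hu0 : (u0B : F) ∈ LamS G I (N0 + j1)) (hu0' : (u0'B : F) ∈ LamS G I (N0 + j2))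
    (ρW0 ρDc : Polynomial I.fixedRing) (hρDc : ρDc.Monic) (hdegDc : ρDc.natDegree = G.g)
    {W0 Dc : Divisor K F}
    {zb : κ} {Uvar Ufix : Finset (Place k κ)} {μ : Place k κ → ℕ} {val : Place k κ → k}
    (hmapW0 : ρW0.map (ψK I) = divPoly (zB : F) W0)
    (hmapDc : ρDc.map (ψK I) = divPoly (zB : F) Dc)
    (hbarW0 : ρW0.map (πS G I) = rootPolyMult val Ufix μ)
    (base_eq : u0B * u0'B = aeval zB ρW0 * aeval zB ρDc)
    (Inp : Input G m ez (zB : F) zb (fun Q => valAt Q (zB : F)) Uvar Ufix μ val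
      (G.R.res ⟨(u0B : F), mem_O_of_mem_BS G I u0B.2⟩)
      (G.R.res ⟨(u0'B : F), mem_O_of_mem_BS G I u0'B.2⟩))
    (hord' : G.oob.ord (G.R.res ⟨(u0'B : F), mem_O_of_mem_BS G I u0'B.2⟩)
      ≤ -((N0 + j2 : ℕ) : ℤ))
    (hspW0 : G.spDiv W0 = multDiv Ufix μ) (hspDc : G.spDiv Dc = finDiv Uvar)
    (W0_nonneg : 0 ≤ W0) (W0_deg : Divisor.degree W0 = dW) (Dc_nonneg : 0 ≤ Dc)
    (Dc_deg : Divisor.degree Dc = G.g)
    (base_principal : Divisor.IsPrincipal (W0 + Dc - G.mulOo m)) :
    ∃ R : ResidualOut I, R.z = (zB : F) ∧ R.m = m ∧ R.W0 = W0 ∧ R.Dc = Dc ∧ R.dW = dW := by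
  classical
  have hN0' := frameData_N0 H hN0
  have hr0 := frameData_r0 H hN0
  set j3 : ℕ := N0 + j1 + j2 with hj3
  -- memberships at the frame levels
  have hu0L : u0B ∈ (frameData H hN0).L ((frameData H hN0).N0 + j1) :=
    (mem_frameData_L H hN0 j1 u0B).mpr hu0
  have hu0'L : u0'B ∈ (frameData H hN0).L ((frameData H hN0).N0 + j2) :=
    (mem_frameData_L H hN0 j2 u0'B).mpr hu0'
  have HG := frameGeo_frameData H hN0
  -- the residue solution in the shape of `JacInstSys`
  have hzb : (Bbar G).val (resB G I zB) = zb := Inp.res_z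
  have S : ResSolM G.oob Uvar Ufix μ ((Bbar G).val (resB G I zB)) val
      ((Bbar G).val (resB G I u0B)) ((Bbar G).val (resB G I u0'B)) := by
    rw [hzb]
    exact Inp.resSol
  -- the normalisation index
  have hresne : resB G I u0B ≠ 0 := by
    intro h
    apply S.u_ne
    rw [h, map_zero]
  obtain ⟨t0, ht0⟩ : ∃ t0 : Fin ((frameData H hN0).r0 + j1),
      (frameData H hN0).coordBar t0 (resB G I u0B) ≠ 0 := by
    by_contra hcon
    have hcon' : ∀ t0 : Fin ((frameData H hN0).r0 + j1),
        (frameData H hN0).coordBar t0 (resB G I u0B) = 0 := fun t0 => by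
      by_contra h
      exact hcon ⟨t0, h⟩
    apply hresne
    have hmemLbar : resB G I u0B ∈ (frameData H hN0).Lbar ((frameData H hN0).N0 + j1) := by
      rw [← frameData_red H hN0]
      exact (frameData H hN0).red_mem _ _ hu0L
    exact (frameData H hN0).eq_zero_of_coordBar_eq_zero hmemLbar (fun i hi => hcon' ⟨i, hi⟩)
  have hα0 : πS G I ((frameData H hN0).coord t0 u0B) ≠ 0 := by
    rw [← (frameData H hN0).coordBar_red, frameData_red]
    exact ht0
  -- the system
  set rfixB : BS G I := aeval zB ρW0 with hrfixB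
  have hsq : (frameData H hN0).r0 + j3 + 1 =
      ((frameData H hN0).r0 + j1) + ((frameData H hN0).r0 + j2) + G.g := by
    omega
  -- the base solution
  have hx0 : (sysData (frameData H hN0) j1 j2 j3 zB rfixB t0
      ((frameData H hN0).coord t0 u0B)).IsSol
        (basePt (frameData H hN0) j1 j2 (g := G.g) u0B u0'B ρDc) :=
    isSol_basePt (frameData H hN0) zB rfixB t0 hu0L hu0'L hρDc hdegDc base_eq
  -- the Jacobian
  have hlev : (frameData H hN0).N0 + j1 + ((frameData H hN0).N0 + j2) ≤
      (frameData H hN0).N0 + j3 := by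
    rw [hN0']
    omega
  have hrfix' : (Bbar G).val (resB G I rfixB) =
      aeval ((Bbar G).val (resB G I zB)) (rootPolyMult val Ufix μ) := by
    show ((resB G I (aeval zB ρW0) : Bbar G) : κ) = _
    rw [coe_resB_aeval, hbarW0]
    rfl
  have hzmem : (Bbar G).val (resB G I zB) ∈ riemannRochSpace (nP G.oob ez) := by
    have h1 := res_mem_rrs G.spCompat Inp.z_mem Inp.z_rrs
    rw [spD_single] at h1
    exact h1
  have hmez : (ez : ℤ) * m = ((N0 + j1 : ℕ) : ℤ) + ((N0 + j2 : ℕ) : ℤ) := by
    rw [← hm]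
    linarith
  have hdeg : ez * ((rootPolyMult val Ufix μ).natDegree + G.g) ≤
      ((frameData H hN0).N0 + j1) + ((frameData H hN0).N0 + j2) := by
    rw [natDegree_rootPolyMult, hN0']
    have h1 := Inp.m_eq
    have h2 := Inp.card_var
    have h4 : (∑ Q ∈ Ufix, μ Q) + G.g = m := by
      have h3 : ((∑ Q ∈ Ufix, μ Q : ℕ) : ℤ) + (G.g : ℤ) = m := by
        push_cast
        rw [h1, h2]
      exact_mod_cast h3
    rw [h4]
    have : ((ez * m : ℕ) : ℤ) = ((N0 + j1 + (N0 + j2) : ℕ) : ℤ) := by
      push_cast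
      push_cast at hmez
      linarith
    exact (Nat.cast_injective this).le
  have hPu : G.oob.ord ((Bbar G).val (resB G I u0B)) ≤
      -(((frameData H hN0).N0 + j1 : ℕ) : ℤ) := by
    rw [hN0', ← hm]
    exact Inp.ord_oob.le
  have hPu' : G.oob.ord ((Bbar G).val (resB G I u0'B)) ≤
      -(((frameData H hN0).N0 + j2 : ℕ) : ℤ) := by
    rw [hN0']
    exact hord'
  have hJ := isUnit_det_jacobian_sysData zB rfixB t0 ((frameData H hN0).coord t0 u0B) HG hlev
    (sqEquiv (frameData H hN0) hsq) hu0L hu0'L ρDc S Inp.nonspecial Inp.card_var.symm hrfix' ez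
    hzmem hdeg hPu hPu' ht0
  -- the extension functionals
  obtain ⟨ΦK', -, hΦ'⟩ := exists_extFun_frame (frameData H hN0) (frameData_red H hN0)
  -- the true solutions
  have hρDc' : ∀ l : Fin G.g, ψK I (ρDc.coeff l) = (divPoly (zB : F) Dc).coeff l := by
    intro l
    rw [← hmapDc, Polynomial.coeff_map]
  have htrue := htrue_of_input H hN0 j1 j2 j3 zB rfixB t0 u0B u0'B hα0 ρDc Inp hm hN2 hspW0
    Dc_nonneg hspDc hρDc'
  have hrfixF : ιF G I (sysData (frameData H hN0) j1 j2 j3 zB rfixB t0
      ((frameData H hN0).coord t0 u0B)).rfix = aeval (zB : F) (divPoly (zB : F) W0) := by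
    show ((aeval zB ρW0 : BS G I) : F) = _
    rw [coe_aeval, hmapW0]
  exact exists_residualOut I (sysData (frameData H hN0) j1 j2 j3 zB rfixB t0
      ((frameData H hN0).coord t0 u0B)) rfl (sqEquiv (frameData H hN0) hsq) (ιF G I)
    (fun w => ΦK' w) (fun w b => hΦ' w b)
    (basePt (frameData H hN0) j1 j2 (g := G.g) u0B u0'B ρDc) hx0 hJ (zB : F) rfl m dW W0 Dc
    W0_nonneg W0_deg Dc_nonneg Dc_deg base_principal hrfixF hρDc' htrue

end Fermat.Agent.S19x.Geo.Residual.FinalGlue
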