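import Fermat.Agent.S19x.Geo.Residual.Wrap
import Fermat.Agent.S19x.Geo.Residual.FrameSystem
import Fermat.Agent.S19x.Geo.Residual.JacInst
import Fermat.Agent.S19x.Geo.FrameA
import Fermat.Agent.S19x.Geo.ResidualNorm
import Fermat.Agent.S19x.Geo.TrueSolOut
import Fermat.Agent.S19x.Geo.TrueSolInt

/-!
# P-S19, BLOCK A, leaf (L6): the Residual Theorem from a base configuration (helper33)

`exists_residualOut_of_base`: in the abstract setting `G : GeoSetting A O k κ`, `I : InertiaData G`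
with the frame inputs `H : Frame.FixedLatticeFacts G I N0`, from a BASE CONFIGURATION

* `z ∈ Λ(e∞)^S`, `u0 ∈ Λ(m∞)^S`, `u0' ∈ Λ(N2∞)^S` (`N2 + m = e m`),
* effective divisors `W0`, `Dc` with `ρ_W0`, `ρ_Dc ∈ A^S[T]`, `u0 u0' = ρ_W0(z) ρ_Dc(z)`,
  `W0 + Dc ∼ m∞`,
* a residue solution `ResSolM oob Uvar Ufix μ (res z) val (res u0) (res u0')` with non-special
  `Uvar` of cardinality `g`, exact pole orders, `sp W0 = ∑ μ Q • Q`, `sp Dc = Uvar`,

the structure `ResidualOut I` with these `z`, `m`, `W0`, `Dc`.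

Plugging only (`A`-route): `FrameSystem.sysData` / `basePt` (helper41), `JacInst` (helper10),
`FrameA.coordA` (helper27), `ResidualNorm` (helper87, helper62), `TrueSolOut` / `TrueSolInt`
(helper72, helper57), `Residual/Wrap` (helper33).
-/

set_option autoImplicit false
set_option linter.unusedSectionVars false
set_option linter.unusedVariables false
set_option linter.style.haveILetI false

noncomputable section

namespace Fermat.Agent.S19x.Geo.Residual.Main

open AlgebraicCurve MvPolynomial IsLocalRing Module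
open Fermat.Agent.Gateway.C0 Fermat.Agent.Gateway.Red Fermat.Agent.S27x.Spec.Inj
  Fermat.Agent.S27x.Spec.Disc Fermat.Agent.S27x.Lift.NiceRep Fermat.Agent.S27x.Lift.JacInj
  Fermat.Agent.S19x.Geo Fermat.Agent.S19x.Geo.Lattice Fermat.Agent.S19x.Geo.FrameAlg
  Fermat.Agent.S19x.Geo.Frame Fermat.Agent.S19x.Geo.FrameA
  Fermat.Agent.S19x.Geo.JacKerMult Fermat.Agent.S27x.Lift.FactorSystem
  Fermat.Agent.S19x.Geo.Residual.FrameSystem Fermat.Agent.S19x.Geo.Residual.JacInst
  Fermat.Agent.S19x.Geo.Residual.Glue Fermat.Agent.S19x.Geo.ResidualCore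

universe u v w z

variable {K : Type u} [Field K] {A : ValuationSubring K}
  {F : Type v} [Field F] [Algebra K F] {O : ValuationSubring F}
  {k : Type w} {κ : Type z} [Field k] [Field κ] [Algebra k κ]
  [HasPrincipalDivisors K F] [∀ v : Place K F, v.FiniteResidue]
  [HasPrincipalDivisors k κ] [∀ v : Place k κ, v.FiniteResidue]
  {G : GeoSetting A O k κ} {I : InertiaData G} [ValuationRing I.fixedRing]
  {N0 : ℕ} (H : FixedLatticeFacts G I N0) (hN0 : 2 * (G.g : ℤ) - 1 ≤ N0)

/-! ### The reduction of a point of a factorisation system (no `RingCompat`) -/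

section Bar

variable {R : Type*} [CommRing R] [IsDomain R] [ValuationRing R] {k' : Type*} [Field k']
  {π : R →+* k'} {B : Type*} [CommRing B] [Algebra R B]
  {Bbar : Type*} [CommRing Bbar] [Algebra k' Bbar]
  {I1 I2 I3 : Type*} {g : ℕ} [Fintype I1] [Fintype I2]

theorem redR_algebraMap' (FD : FiltRed π B Bbar) (redR : B →+* Bbar)
    (hred : ∀ x, redR x = FD.red x) (a : R) :
    redR (algebraMap R B a) = algebraMap k' Bbar (π a) := by
  have h := FD.red_smul a 1
  rw [← hred, ← hred, map_one, Algebra.smul_def, mul_one, Algebra.smul_def, mul_one] at h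
  exact h

theorem uOf_bar_eq' (FD : FiltRed π B Bbar) (redR : B →+* Bbar)
    (hred : ∀ x, redR x = FD.red x) (D : Data R B I1 I2 I3) (x : Idx I1 I2 g → R) :
    (D.toCore.map redR).uOf (ptbar fun i => π (x i)) = redR (D.toCore.uOf (Data.pt x)) := by
  simp only [Core.uOf, Core.map, ptbar, Data.pt, map_sum, map_mul,
    redR_algebraMap' FD redR hred]

theorem vOf_bar_eq' (FD : FiltRed π B Bbar) (redR : B →+* Bbar)
    (hred : ∀ x, redR x = FD.red x) (D : Data R B I1 I2 I3) (x : Idx I1 I2 g → R) :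
    (D.toCore.map redR).vOf (ptbar fun i => π (x i)) = redR (D.toCore.vOf (Data.pt x)) := by
  simp only [Core.vOf, Core.map, ptbar, Data.pt, map_sum, map_mul,
    redR_algebraMap' FD redR hred]

end Bar

/-! ### The geometric identification of the frame datum -/

/-- `JacInst.FrameGeo` for the frame datum of `B^S`. -/
theorem frameGeo : FrameGeo (frameData H hN0) (resB G I) (Bbar G).val G.oob where
  red_eq := fun x => (frameData_red H hN0 x).symm
  ι_inj := Subtype.val_injective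
  mem_Lbar := fun j y => by
    have h := mem_frameData_Lbar H hN0 j y
    rw [frameData_N0 H hN0] at h ⊢
    exact h

/-- the rank of the base level. -/
theorem r0_add_g : (frameData H hN0).r0 + G.g = N0 + 1 := by
  have h := frameData_r0 H hN0
  have h2 : (0 : ℤ) ≤ (G.g : ℤ) := Int.natCast_nonneg _
  omega

/-! ### Values of polynomials over `A^S` at elements of `B^S` -/

omit [HasPrincipalDivisors K F] [∀ v : Place K F, v.FiniteResidue] [HasPrincipalDivisors k κ]
  [∀ v : Place k κ, v.FiniteResidue] [ValuationRing I.fixedRing] in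
/-- evaluation over `A^S` and over `K` agree. -/
theorem aeval_fixedRing_eq (f : F) (p : Polynomial I.fixedRing) :
    Polynomial.aeval f p = Polynomial.aeval f (p.map (ψK I)) := by
  induction p using Polynomial.induction_on' with
  | add p q hp hq => rw [map_add, Polynomial.map_add, map_add, hp, hq]
  | monomial n a =>
    rw [Polynomial.map_monomial, Polynomial.aeval_monomial, Polynomial.aeval_monomial]
    rfl

omit [HasPrincipalDivisors K F] [∀ v : Place K F, v.FiniteResidue] [HasPrincipalDivisors k κ]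
  [∀ v : Place k κ, v.FiniteResidue] [ValuationRing I.fixedRing] in
/-- the value in `F` of a polynomial over `A^S` at an element of `B^S`. -/
theorem coe_aeval_BS (x : BS G I) (p : Polynomial I.fixedRing) :
    ((Polynomial.aeval x p : BS G I) : F) = Polynomial.aeval (x : F) (p.map (ψK I)) := by
  rw [← aeval_fixedRing_eq]
  exact (Polynomial.aeval_algHom_apply (BS G I).val x p).symm

/-- the reduction of the value of a polynomial over `A^S` at an element of `B^S`. -/
theorem coe_resB_aeval (x : BS G I) (p : Polynomial I.fixedRing) :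
    ((resB G I (Polynomial.aeval x p) : Bbar G) : κ)
      = Polynomial.aeval ((resB G I x : Bbar G) : κ) (p.map (πS G I)) := by
  induction p using Polynomial.induction_on' with
  | add p q hp hq =>
    rw [map_add, map_add, Polynomial.map_add, map_add, ← hp, ← hq]
    rfl
  | monomial n a =>
    rw [Polynomial.map_monomial, Polynomial.aeval_monomial, Polynomial.aeval_monomial, map_mul,
      map_pow]
    have h1 : resB G I (algebraMap I.fixedRing (BS G I) a) = algebraMap k (Bbar G) (πS G I a) := by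
      have := resB_smul G I a 1
      rwa [Algebra.smul_def, mul_one, map_one, Algebra.smul_def, mul_one] at this
    rw [h1]
    rfl

/-! ### The base configuration -/

/-- **The base configuration of the Residual Theorem**: `z ∈ Λ(e∞)^S`, `u0 ∈ Λ(m∞)^S`,
`u0' ∈ Λ(N2∞)^S` (`N2 + m = e m`; `m = N0 + j1`, `N2 = N0 + j2`), effective divisors `W0`, `Dc`
whose root polynomials `ρ0`, `ρc` have coefficients in `A^S`, the base factorisation
`u0 u0' = ρ_W0(z) ρ_Dc(z)`, and its reduction, a residue solution in the sense of `JacKerMult`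
with non-special variable part of cardinality `g` and exact pole orders. -/
structure Base (I : InertiaData G) (N0 e m N2 j1 j2 : ℕ) (z u0 u0' : F) (W0 Dc : Divisor K F)
    (ρ0 ρc : Polynomial I.fixedRing)
    (Uvar Ufix : Finset (Place k κ)) (μ : Place k κ → ℕ) (val : Place k κ → k) : Prop where
  hj1 : N0 + j1 = m
  hj2 : N0 + j2 = N2
  hN2 : N2 + m = e * m
  hz : z ∈ LamS G I e
  hu0 : u0 ∈ LamS G I m
  hu0' : u0' ∈ LamS G I N2
  W0_nonneg : 0 ≤ W0
  Dc_nonneg : 0 ≤ Dc
  base_principal : Divisor.IsPrincipal (W0 + Dc - G.mulOo m)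
  hρ0 : ρ0.map (ψK I) = divPoly z W0
  hρc : ρc.map (ψK I) = divPoly z Dc
  hprod : u0 * u0' = Polynomial.aeval z (divPoly z W0) * Polynomial.aeval z (divPoly z Dc)
  resSol : ResSolM G.oob Uvar Ufix μ (G.R.res ⟨z, hz.1.2⟩) val (G.R.res ⟨u0, hu0.1.2⟩)
    (G.R.res ⟨u0', hu0'.1.2⟩)
  nonspecial : finrank k (riemannRochSpace (finDiv Uvar)) = 1
  card_var : Uvar.card = G.g
  ord_u0 : G.oob.ord (G.R.res ⟨u0, hu0.1.2⟩) = -(m : ℤ)
  ord_u0' : G.oob.ord (G.R.res ⟨u0', hu0'.1.2⟩) ≤ -(N2 : ℤ)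
  spW0 : G.spDiv W0 = multDiv Ufix μ
  spDc : G.spDiv Dc = finDiv Uvar

namespace Base

variable {e m N2 j1 j2 : ℕ} {z u0 u0' : F} {W0 Dc : Divisor K F}
  {ρ0 ρc : Polynomial I.fixedRing}
  {Uvar Ufix : Finset (Place k κ)} {μ : Place k κ → ℕ} {val : Place k κ → k}
  (Bs : Base I N0 e m N2 j1 j2 z u0 u0' W0 Dc ρ0 ρc Uvar Ufix μ val)
include Bs

/-- the input of the true solution. -/
theorem input : TrueSol.Input G m e z (G.R.res ⟨z, Bs.hz.1.2⟩) (fun Q => valAt Q z) Uvar Ufix μ val
    (G.R.res ⟨u0, Bs.hu0.1.2⟩) (G.R.res ⟨u0', Bs.hu0'.1.2⟩) :=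
  TrueSol.Input.of_valAt Bs.hz.1.2 rfl Bs.hz.1.1 Bs.resSol Bs.nonspecial Bs.card_var Bs.ord_u0

theorem ψK_injective : Function.Injective (ψK I) := fun a b h =>
  Subtype.ext (Subtype.ext h)

theorem ρ0_monic : ρ0.Monic :=
  Polynomial.monic_of_injective Bs.ψK_injective (by rw [Bs.hρ0]; exact divPoly_monic z W0)

theorem ρc_monic : ρc.Monic :=
  Polynomial.monic_of_injective Bs.ψK_injective (by rw [Bs.hρc]; exact divPoly_monic z Dc)

theorem Dc_deg : Divisor.degree Dc = G.g := by
  haveI := G.nonempty_placeκ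
  rw [← G.degree_spDiv, Bs.spDc]
  unfold finDiv
  rw [G.rrκ.degree_sum_single, Bs.card_var]

theorem natDegree_ρc : ρc.natDegree = G.g := by
  have h1 := natDegree_divPoly_of_nonneg z Bs.Dc_nonneg G.rrF.deg_one
  rw [Bs.Dc_deg, ← Bs.hρc, Polynomial.natDegree_map_eq_of_injective Bs.ψK_injective] at h1
  exact_mod_cast h1

theorem W0_deg : Divisor.degree W0 = ρ0.natDegree := by
  have h1 := natDegree_divPoly_of_nonneg z Bs.W0_nonneg G.rrF.deg_one
  rw [← Bs.hρ0, Polynomial.natDegree_map_eq_of_injective Bs.ψK_injective] at h1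
  exact h1.symm

/-- the reduction of `ρ0` is the root polynomial with multiplicities. -/
theorem ρ0_bar : ρ0.map (πS G I) = rootPolyMult val Ufix μ := by
  obtain ⟨q, -, h2, h3⟩ := TrueSolInt.exists_monic_map_eq_fix Bs.input Bs.W0_nonneg Bs.spW0
  have h4 : ρ0.map (ψA I) = q := by
    apply Polynomial.map_injective A.subtype Subtype.val_injective
    rw [Polynomial.map_map, h2, TrueSol.rhoV_valAt]
    exact Bs.hρ0
  rw [← h3, ← h4, Polynomial.map_map]
  rfl

end Base

/-! ### The system attached to a base configuration -/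

section System

variable {e m N2 j1 j2 : ℕ} {z u0 u0' : F} {W0 Dc : Divisor K F}
  {ρ0 ρc : Polynomial I.fixedRing}
  {Uvar Ufix : Finset (Place k κ)} {μ : Place k κ → ℕ} {val : Place k κ → k}
  (Bs : Base I N0 e m N2 j1 j2 z u0 u0' W0 Dc ρ0 ρc Uvar Ufix μ val)

/-- `z` as an element of `B^S`. -/
def zB : BS G I := ⟨z, mem_BS_of_mem_LamS G I Bs.hz⟩
/-- `u0` as an element of `B^S`. -/
def u0B : BS G I := ⟨u0, mem_BS_of_mem_LamS G I Bs.hu0⟩
/-- `u0'` as an element of `B^S`. -/
def u0'B : BS G I := ⟨u0', mem_BS_of_mem_LamS G I Bs.hu0'⟩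
/-- `ρ_W0(z)` as an element of `B^S`. -/
def rfixB : BS G I := Polynomial.aeval (zB Bs) ρ0

/-- the factorisation system of the base configuration, normalised at the coordinate `t0`. -/
def sysD (t0 : Fin ((frameData H hN0).r0 + j1)) :
    Data I.fixedRing (BS G I) (Fin ((frameData H hN0).r0 + j1)) (Fin ((frameData H hN0).r0 + j2))
      (Fin ((frameData H hN0).r0 + ((frameData H hN0).N0 + j1 + j2))) :=
  sysData (frameData H hN0) j1 j2 ((frameData H hN0).N0 + j1 + j2) (zB Bs) (rfixB Bs) t0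
    ((frameData H hN0).coord t0 (u0B Bs))

/-- the base solution. -/
def x0 : Idx (Fin ((frameData H hN0).r0 + j1)) (Fin ((frameData H hN0).r0 + j2)) G.g →
    I.fixedRing :=
  basePt (frameData H hN0) j1 j2 (g := G.g) (u0B Bs) (u0'B Bs) ρc

theorem hsq : (frameData H hN0).r0 + ((frameData H hN0).N0 + j1 + j2) + 1
    = ((frameData H hN0).r0 + j1) + ((frameData H hN0).r0 + j2) + G.g := by
  have hr0 := r0_add_g H hN0
  have hN := frameData_N0 H hN0
  omega

/-- equations ≃ unknowns. -/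
def sqE : Fin ((frameData H hN0).r0 + ((frameData H hN0).N0 + j1 + j2)) ⊕ Unit ≃
    Idx (Fin ((frameData H hN0).r0 + j1)) (Fin ((frameData H hN0).r0 + j2)) G.g :=
  sqEquiv (frameData H hN0) (hsq H hN0)

include Bs in
theorem u0B_mem : u0B Bs ∈ (frameData H hN0).L ((frameData H hN0).N0 + j1) := by
  rw [mem_frameData_L H hN0 j1 (u0B Bs), Bs.hj1]
  exact Bs.hu0

include Bs in
theorem u0'B_mem : u0'B Bs ∈ (frameData H hN0).L ((frameData H hN0).N0 + j2) := by
  rw [mem_frameData_L H hN0 j2 (u0'B Bs), Bs.hj2]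
  exact Bs.hu0'

include Bs in
theorem hprodB : u0B Bs * u0'B Bs = rfixB Bs * Polynomial.aeval (zB Bs) ρc := by
  apply Subtype.ext
  show u0 * u0' = ((Polynomial.aeval (zB Bs) ρ0 : BS G I) : F)
    * ((Polynomial.aeval (zB Bs) ρc : BS G I) : F)
  rw [coe_aeval_BS, coe_aeval_BS, Bs.hρ0, Bs.hρc]
  exact Bs.hprod

/-- the base solution solves the system. -/
theorem isSol_x0 (t0 : Fin ((frameData H hN0).r0 + j1)) :
    (sysD H hN0 Bs t0).IsSol (x0 H hN0 Bs) :=
  isSol_basePt (frameData H hN0) (zB Bs) (rfixB Bs) t0 (u0B_mem H hN0 Bs) (u0'B_mem H hN0 Bs)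
    Bs.ρc_monic Bs.natDegree_ρc (hprodB Bs)

include Bs in
/-- a coordinate of `u0` with nonzero residue. -/
theorem exists_t0 : ∃ t0 : Fin ((frameData H hN0).r0 + j1),
    (frameData H hN0).coordBar t0 ((frameData H hN0).red (u0B Bs)) ≠ 0 := by
  by_contra hcon
  simp only [not_exists, not_not] at hcon
  have h0 : (frameData H hN0).red (u0B Bs) = 0 :=
    (frameData H hN0).eq_zero_of_coordBar_eq_zero
      ((frameData H hN0).red_mem _ _ (u0B_mem H hN0 Bs)) fun i hi => hcon ⟨i, hi⟩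
  rw [frameData_red H hN0] at h0
  have h1 : G.R.res ⟨u0, Bs.hu0.1.2⟩ = 0 := by
    have h2 : ((resB G I (u0B Bs) : Bbar G) : κ) = G.R.res ⟨u0, Bs.hu0.1.2⟩ := rfl
    rw [← h2, h0]
    rfl
  exact Bs.resSol.u_ne h1

include Bs in
theorem hdegroot : (rootPolyMult val Ufix μ).natDegree + G.g = m := by
  have hmint : (m : ℤ) = ∑ Q ∈ Ufix, (μ Q : ℤ) + Uvar.card := Bs.input.m_eq
  rw [natDegree_rootPolyMult, ← Bs.card_var]
  have : ((∑ Q ∈ Ufix, μ Q + Uvar.card : ℕ) : ℤ) = (m : ℤ) := by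
    rw [hmint]; push_cast; rfl
  exact_mod_cast this

/-- **the Jacobian of the system at the base solution is invertible.** -/
theorem isUnit_jac (t0 : Fin ((frameData H hN0).r0 + j1))
    (ht0 : (frameData H hN0).coordBar t0 ((frameData H hN0).red (u0B Bs)) ≠ 0) :
    IsUnit (Matrix.det (Matrix.of fun i j =>
      eval (x0 H hN0 Bs) (pderiv i (FactorJac.sq (sysD H hN0 Bs t0) (sqE H hN0) j)))) := by
  classical
  haveI := G.nonempty_placeF
  haveI := G.nonempty_placeκ
  have hFDN0 : (frameData H hN0).N0 = N0 := frameData_N0 H hN0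
  have hredeq : ∀ x, resB G I x = (frameData H hN0).red x :=
    fun x => (frameData_red H hN0 x).symm
  refine isUnit_det_jacobian_of_frame (frameGeo H hN0) j1 j2 (sysD H hN0 Bs t0) rfl (sqE H hN0)
    (fun s => (s : ℕ)) Fin.val_injective (fun s => s.2) (fun _ => rfl)
    (fun t => (t : ℕ)) Fin.val_injective (fun t => t.2) (fun _ => rfl)
    (fun w => (w : ℕ)) (fun i hi => ⟨⟨i, hi⟩, rfl⟩) (fun _ => rfl) (x0 H hN0 Bs) Bs.resSol
    Bs.nonspecial Bs.card_var.symm rfl ?_ ?_ ?_ e ?_ ?_ ?_ ?_ ?_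
  · rw [uOf_bar_eq' (frameData H hN0) (resB G I) hredeq (sysD H hN0 Bs t0) (x0 H hN0 Bs)]
    have := uOf_basePt (frameData H hN0) (zB Bs) (rfixB Bs) t0
      ((frameData H hN0).coord t0 (u0B Bs)) (j2 := j2)
      (j3 := (frameData H hN0).N0 + j1 + j2) (g := G.g) (u0B_mem H hN0 Bs) (u0'B Bs) ρc
    rw [sysD, x0, this]
    rfl
  · rw [vOf_bar_eq' (frameData H hN0) (resB G I) hredeq (sysD H hN0 Bs t0) (x0 H hN0 Bs)]
    have := vOf_basePt (frameData H hN0) (zB Bs) (rfixB Bs) t0
      ((frameData H hN0).coord t0 (u0B Bs)) (j1 := j1)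
      (j3 := (frameData H hN0).N0 + j1 + j2) (g := G.g) (u0B Bs) (u0'B_mem H hN0 Bs) ρc
    rw [sysD, x0, this]
    rfl
  · have h := coe_resB_aeval (zB Bs) ρ0
    rw [Bs.ρ0_bar] at h
    exact h
  · exact res_mem_rrs_of_mem_LamS G I Bs.hz
  · rw [hdegroot Bs, hFDN0, Bs.hj1, Bs.hj2]
    have := Bs.hN2
    omega
  · rw [hFDN0, Bs.hj1]
    exact le_of_eq Bs.ord_u0
  · rw [hFDN0, Bs.hj2]
    exact Bs.ord_u0'
  · have h := (frameData H hN0).coordBar_red t0 (u0B Bs)
    rw [h] at ht0
    exact ht0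

/-- the normalising coordinate is a unit of `A`. -/
theorem isUnit_α0 (t0 : Fin ((frameData H hN0).r0 + j1))
    (ht0 : (frameData H hN0).coordBar t0 ((frameData H hN0).red (u0B Bs)) ≠ 0) :
    IsUnit (ψA I (sysD H hN0 Bs t0).α0) := by
  have h := (frameData H hN0).coordBar_red t0 (u0B Bs)
  rw [h] at ht0
  by_contra hnu
  have h2 : ψA I ((frameData H hN0).coord t0 (u0B Bs)) ∈ IsLocalRing.maximalIdeal A :=
    (IsLocalRing.mem_maximalIdeal _).mpr hnu
  exact ht0 ((G.R.π_eq_zero_iff _).mpr h2)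

/-! ### The coordinates of a true solution -/

/-- the coordinates of a function of `Λ((N0+j)∞)` in the extended frame. -/
theorem sum_coordA_smul {j : ℕ} {x : BA G} (hx : (x : F) ∈ Lam G.R (nOo G (N0 + j))) :
    ∑ s : Fin ((frameData H hN0).r0 + j),
      algebraMap A (BA G) (coordA H hN0 s x) * ιBA G I ((frameData H hN0).frame s) = x := by
  have h1 := sum_coord_smul_frame (frameDataA H hN0) (j := j) (x := x)
    ((mem_frameDataA_L H hN0 j x).mpr hx)
  conv_rhs => rw [← h1]
  refine Finset.sum_congr rfl fun s _ => ?_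
  rw [frameA_eq, Algebra.smul_def]
  rfl

/-- two functions of `B_A` with the same reduction have congruent coordinates. -/
theorem coordA_sub_mem (w : ℕ) {x y : BA G} (hxy : resBA G x = resBA G y) :
    coordA H hN0 w x - coordA H hN0 w y ∈ IsLocalRing.maximalIdeal A := by
  rw [← map_sub, ← G.R.π_eq_zero_iff, ← coordBar_resBA H hN0 w (x - y), map_sub, hxy, sub_self,
    map_zero]

include Bs in
/-- **the coordinates of a true solution**: a solution over `A` of the (unnormalised) system,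
congruent to the base solution. -/
theorem exists_coords (t0 : Fin ((frameData H hN0).r0 + j1)) {W E : Divisor K F}
    (hW : 0 ≤ W) (hspW : G.spDiv W = G.spDiv W0) (hE : 0 ≤ E)
    (hEdeg : Divisor.degree E = G.g) (hspE : G.spDiv E = finDiv Uvar) {u u' : F}
    (huLam : u ∈ Lam G.R (G.mulOo m))
    (hu'Lam : u' ∈ Lam G.R (Finsupp.single G.oo ((e : ℤ) * m - m)))
    (hres : ∃ (hu : u ∈ O) (hu' : u' ∈ O), G.R.res ⟨u, hu⟩ = G.R.res ⟨u0, Bs.hu0.1.2⟩ ∧
      G.R.res ⟨u', hu'⟩ = G.R.res ⟨u0', Bs.hu0'.1.2⟩)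
    (hprodW : u * u' = Polynomial.aeval z (divPoly z W) * Polynomial.aeval z (divPoly z E))
    (a : Fin ρ0.natDegree → A)
    (ha : ∀ j, (a j : K) = (divPoly z W).coeff j - (divPoly z W0).coeff j) :
    ∃ ys : Idx (Fin ((frameData H hN0).r0 + j1)) (Fin ((frameData H hN0).r0 + j2)) G.g → A,
      ResidualNorm.IsSolPU (sysD H hN0 Bs t0) (ιBA G I) (fun j : Fin ρ0.natDegree => (j : ℕ)) a ys ∧
      (∀ i, ys i - ψA I (x0 H hN0 Bs i) ∈ IsLocalRing.maximalIdeal A) ∧
      ∀ l : Fin G.g, (ys (rIdx l) : K) = (divPoly z E).coeff l := by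
  classical
  haveI := G.nonempty_placeF
  haveI := G.nonempty_placeκ
  obtain ⟨hu, hu', hresu, hresu'⟩ := hres
  have huLam' : u ∈ Lam G.R (nOo G (N0 + j1)) := by rw [Bs.hj1]; exact huLam
  have hu'Lam' : u' ∈ Lam G.R (nOo G (N0 + j2)) := by
    rw [Bs.hj2]
    have h1 : ((e : ℤ) * m - m) = (N2 : ℤ) := by
      have h2 : ((N2 + m : ℕ) : ℤ) = ((e * m : ℕ) : ℤ) := by rw [Bs.hN2]
      push_cast at h2
      linarith
    rw [h1] at hu'Lam
    exact hu'Lam
  obtain ⟨uA, huA⟩ : ∃ uA : BA G, (uA : F) = u := ⟨⟨u, ⟨N0 + j1, huLam'⟩⟩, rfl⟩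
  obtain ⟨u'A, hu'A⟩ : ∃ u'A : BA G, (u'A : F) = u' := ⟨⟨u', ⟨N0 + j2, hu'Lam'⟩⟩, rfl⟩
  have hcoefA : ∀ l : ℕ, (divPoly z E).coeff l ∈ A := fun l =>
    TrueSolInt.coeff_rhoV_mem Bs.input hE (U := Uvar) (μ' := fun _ => 1)
      (by rw [hspE, TrueSol.multDiv_one]) (fun _ hw => Or.inl hw) l
  have hdW0 : (divPoly z W0).natDegree = ρ0.natDegree := by
    rw [← Bs.hρ0, Polynomial.natDegree_map_eq_of_injective Bs.ψK_injective]
  have hdW : (divPoly z W).natDegree = ρ0.natDegree :=
    natDegree_divPoly_of_spDiv z hW hspW Bs.W0_deg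
  have hdE : (divPoly z E).natDegree = G.g := by
    have h1 := natDegree_divPoly_of_nonneg z hE G.rrF.deg_one
    rw [hEdeg] at h1
    exact_mod_cast h1
  refine ⟨Sum.elim (fun s => coordA H hN0 s uA)
      (Sum.elim (fun t => coordA H hN0 t u'A) fun l => ⟨(divPoly z E).coeff l, hcoefA l⟩),
    ?_, ?_, fun l => rfl⟩
  · -- the true solution solves the system over `A`
    unfold ResidualNorm.IsSolPU
    have hU : (coreP (sysD H hN0 Bs t0) (ιBA G I) (fun j : Fin ρ0.natDegree => (j : ℕ)) a).uOf (g := G.g)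
        (ptP (Sum.elim (fun s => coordA H hN0 s uA)
          (Sum.elim (fun t => coordA H hN0 t u'A) fun l => ⟨(divPoly z E).coeff l, hcoefA l⟩)))
        = uA := by
      exact sum_coordA_smul H hN0 (j := j1) (x := uA) (by rw [huA]; exact huLam')
    have hV : (coreP (sysD H hN0 Bs t0) (ιBA G I) (fun j : Fin ρ0.natDegree => (j : ℕ)) a).vOf (g := G.g)
        (ptP (Sum.elim (fun s => coordA H hN0 s uA)
          (Sum.elim (fun t => coordA H hN0 t u'A) fun l => ⟨(divPoly z E).coeff l, hcoefA l⟩)))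
        = u'A := by
      exact sum_coordA_smul H hN0 (j := j2) (x := u'A) (by rw [hu'A]; exact hu'Lam')
    rw [hU, hV]
    apply Subtype.ext
    have hz0 : ((zB Bs : BS G I) : F) = z := rfl
    have hRf : (((coreP (sysD H hN0 Bs t0) (ιBA G I)
        (fun j : Fin ρ0.natDegree => (j : ℕ)) a).rfix : BA G) : F)
        = Polynomial.aeval z (divPoly z W) := by
      rw [aeval_sub_of_monic (divPoly_monic z W) hdW (divPoly_monic z W0) hdW0 z]
      have h0 : ((rfixB Bs : BS G I) : F) = Polynomial.aeval z (divPoly z W0) := by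
        rw [rfixB, coe_aeval_BS, Bs.hρ0]
        rfl
      show ((ιBA G I (rfixB Bs) + ∑ l : Fin ρ0.natDegree,
        algebraMap A (BA G) (a l) * ιBA G I (zB Bs) ^ (l : ℕ) : BA G) : F) = _
      push_cast
      rw [coe_ιBA, coe_ιBA, h0, hz0]
      congr 1
      refine Finset.sum_congr rfl fun j _ => ?_
      congr 1
      have h1 : algebraMap (↥A) F (a j) = algebraMap K F ((a j : A) : K) := rfl
      rw [h1, ha j, map_sub]
    have hRv : (((coreP (sysD H hN0 Bs t0) (ιBA G I)
        (fun j : Fin ρ0.natDegree => (j : ℕ)) a).rvar (g := G.g)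
        (ptP (Sum.elim (fun s => coordA H hN0 s uA)
          (Sum.elim (fun t => coordA H hN0 t u'A) fun l => ⟨(divPoly z E).coeff l, hcoefA l⟩)))
          : BA G) : F) = Polynomial.aeval z (divPoly z E) := by
      rw [aeval_eq_of_monic (divPoly_monic z E) hdE z]
      show ((ιBA G I (zB Bs) ^ G.g + ∑ l : Fin G.g,
        algebraMap A (BA G) (⟨(divPoly z E).coeff l, hcoefA l⟩ : A) * ιBA G I (zB Bs) ^ (l : ℕ)
          : BA G) : F) = _
      push_cast
      rw [coe_ιBA, hz0]
      rfl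
    show (uA : F) * (u'A : F) = _ * _
    rw [hRf, hRv, huA, hu'A]
    exact hprodW
  · -- congruence to the base solution
    have hresA : resBA G uA = resBA G (ιBA G I (u0B Bs)) := by
      apply Subtype.ext
      rw [coe_resBA, coe_resBA]
      have h1 : (⟨(uA : F), mem_O_of_mem_BA G uA.2⟩ : O) = ⟨u, hu⟩ := Subtype.ext huA
      rw [h1, hresu]
      rfl
    have hresA' : resBA G u'A = resBA G (ιBA G I (u0'B Bs)) := by
      apply Subtype.ext
      rw [coe_resBA, coe_resBA]
      have h1 : (⟨(u'A : F), mem_O_of_mem_BA G u'A.2⟩ : O) = ⟨u', hu'⟩ := Subtype.ext hu'A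
      rw [h1, hresu']
      rfl
    rintro (s | t | l)
    · show coordA H hN0 s uA - ψA I ((frameData H hN0).coord s (u0B Bs)) ∈ _
      have h2 : ψA I ((frameData H hN0).coord s (u0B Bs))
          = coordA H hN0 s (ιBA G I (u0B Bs)) := (coordA_ι H hN0 s (u0B Bs)).symm
      rw [h2]
      exact coordA_sub_mem H hN0 s hresA
    · show coordA H hN0 t u'A - ψA I ((frameData H hN0).coord t (u0'B Bs)) ∈ _
      have h2 : ψA I ((frameData H hN0).coord t (u0'B Bs))
          = coordA H hN0 t (ιBA G I (u0'B Bs)) := (coordA_ι H hN0 t (u0'B Bs)).symm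
      rw [h2]
      exact coordA_sub_mem H hN0 t hresA'
    · show (⟨(divPoly z E).coeff l, hcoefA l⟩ : A) - ψA I (ρc.coeff l) ∈ _
      have h3 := TrueSolInt.coeff_rhoV_sub_mem_nonunits_var Bs.input hE Bs.Dc_nonneg hspE
        Bs.spDc l
      obtain ⟨hmem, hmax⟩ := (ValuationSubring.mem_nonunits_iff_exists_mem_maximalIdeal).mp h3
      have h4 : (⟨(divPoly z E).coeff l, hcoefA l⟩ : A) - ψA I (ρc.coeff l)
          = ⟨_, hmem⟩ := by
        apply Subtype.ext
        show (divPoly z E).coeff l - ψK I (ρc.coeff l) = _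
        rw [← Polynomial.coeff_map, Bs.hρc]
        rfl
      rw [h4]
      exact hmax

/-! ### The main theorem -/

include H hN0 Bs in
/-- **The Residual Theorem from a base configuration.** -/
theorem exists_residualOut_of_base :
    ∃ R : ResidualOut I, R.z = z ∧ R.m = m ∧ R.W0 = W0 ∧ R.Dc = Dc ∧ R.dW = ρ0.natDegree := by
  classical
  haveI := G.nonempty_placeF
  haveI := G.nonempty_placeκ
  obtain ⟨t0, ht0⟩ := exists_t0 H hN0 Bs
  refine Wrap.exists_residualOut_of_core I
    (ι := Idx (Fin ((frameData H hN0).r0 + j1)) (Fin ((frameData H hN0).r0 + j2)) G.g) rIdx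
    (x0 H hN0 Bs) z m ρ0.natDegree W0 Dc
    (fun a ys => ResidualNorm.IsSolPU (sysD H hN0 Bs t0) (ιBA G I)
      (fun j : Fin ρ0.natDegree => (j : ℕ)) a ys) ?_ Bs.W0_nonneg Bs.W0_deg Bs.Dc_nonneg
    Bs.Dc_deg Bs.base_principal ?_ ?_
  · intro n
    exact ResidualNorm.residual_core_of_jacobian_unnormalised (sysD H hN0 Bs t0) rfl
      (fun j : Fin ρ0.natDegree => (j : ℕ)) (sqE H hN0) (ψA I) (ιBA G I)
      (fun w => coordA H hN0 w) (fun w b => coordA_ι H hN0 w b) (x0 H hN0 Bs)
      (isSol_x0 H hN0 Bs t0) (isUnit_α0 H hN0 Bs t0 ht0) (isUnit_jac H hN0 Bs t0 ht0) n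
  · intro l
    show ψK I (ρc.coeff l) = _
    rw [← Bs.hρc, Polynomial.coeff_map]
  · intro W hW hspW
    obtain ⟨E, u, u', hE, hEdeg, hspE, hprinc, huLam, hu'Lam, hres, hprodW⟩ :=
      TrueSol.exists_trueSol_divPoly Bs.input hW (hspW.trans Bs.spW0)
    refine ⟨E, hE, hEdeg, hprinc, hspE.trans Bs.spDc.symm, ?_⟩
    intro a ha
    exact exists_coords H hN0 Bs t0 hW hspW hE hEdeg hspE huLam hu'Lam hres hprodW a ha

end System

end Fermat.Agent.S19x.Geo.Residual.Main
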