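import Fermat.Agent.S19x.Geo.TrueSolCfg
import Fermat.Agent.S19x.Geo.FrameA
import Fermat.Agent.S19x.Geo.DivPolyRed
import Fermat.Agent.S19x.Geo.ConfigOfLeaves

/-!
# P-S19, block A, leaf L6: the true solutions in `B_A` form (helper72)

The true solutions of `Geo/TrueSolCfg.lean` (for every effective `W` with the specialisation of
the fixed part `W0` of the configuration) repackaged in the shape consumed by
`ResidualFrames.Hyp.spec_of_frames` with `DP := FrameA.frameDataA`:

* `IsBASol G z zb m N2 W E Dc ub ub' us us' ρE` : `us, us' : B_A = ⋃ₙ Λ(n∞)` with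
  `us ∈ Λ(m∞)`, `us' ∈ Λ(N2∞)`, prescribed reductions `ub`, `ub'`, an integral monic model
  `ρE : A[X]` of `ρ_E = divPoly z E` of degree `g` reducing to `ρ_{sp Dc}(zb)`, and the product
  formula `us * us' = ρ_W(z) ρ_E(z)` in `F`;
* `IsBASol.prod_literal` : the product formula in the literal form of `spec_of_frames`
  (`us * us' = (f_{W0} + ∑ a_l z^l) * aeval z ρE` in `B_A`, `a_l` the differences of the lower
  coefficients of `ρ_W` and `ρ_{W0}`);
* `IsBASol.π_coeff_eq` : `π (ρE.coeff l) = π (ρDc.coeff l)` for every integral model of `ρ_Dc`;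
* `param_mem_maximalIdeal` : the parameters `a_l` lie in the maximal ideal;
* `exists_trueSolBA1`, `exists_trueSolBA2` : the two configurations of a lifted configuration;
* `W01_eq`, `W02_eq`, `D0L_eq`, `D1L_eq` : the bridges to the divisors of `Geo/ConfigOfLeaves`.
-/

set_option autoImplicit false
set_option linter.unusedSectionVars false
set_option linter.unusedVariables false
set_option linter.style.haveILetI false

noncomputable section

namespace Fermat.Agent.S19x.Geo.Residual.TrueSolBA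

open AlgebraicCurve Polynomial Module IsLocalRing
open Fermat.Agent.Gateway.C0 Fermat.Agent.Gateway.Red Fermat.Agent.S27x.Spec.Inj
  Fermat.Agent.S27x.Spec.Disc Fermat.Agent.S27x.Lift.NiceRep Fermat.Agent.S27x.Lift.JacInj
  Fermat.Agent.S19x.Geo.JacKerMult Fermat.Agent.S19x.Geo.Lattice
  Fermat.Agent.S19x.Geo.NiceRepL Fermat.Agent.S19x.Geo.BaseCfgResSol Fermat.Agent.S19x.Geo.LiftCfg
  Fermat.Agent.S19x.Geo.Frame Fermat.Agent.S19x.Geo.FrameA Fermat.Agent.S19x.Geo.DivPolyRed
  Fermat.Agent.S19x.Geo.TrueSol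

universe u v w z

variable {K : Type u} [Field K] {A : ValuationSubring K}
  {F : Type v} [Field F] [Algebra K F] {O : ValuationSubring F}
  {k : Type w} {κ : Type z} [Field k] [Field κ] [Algebra k κ]
  [HasPrincipalDivisors K F] [∀ v : Place K F, v.FiniteResidue]
  [HasPrincipalDivisors k κ] [∀ v : Place k κ, v.FiniteResidue]
  {G : GeoSetting A O k κ}

/-! ### One true solution in `B_A` form -/

/-- **A true solution in `B_A` form**: the hypotheses of `ResidualFrames.Hyp.spec_of_frames` on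
`(us, us', ρE)`, at the level of the function field. -/
structure IsBASol (G : GeoSetting A O k κ) (z : F) (zb : κ) (m N2 : ℕ) (W E Dc : Divisor K F)
    (ub ub' : κ) (us us' : BA G) (ρE : A[X]) : Prop where
  us_mem : (us : F) ∈ Lam G.R (nOo G m)
  us'_mem : (us' : F) ∈ Lam G.R (nOo G N2)
  monic : ρE.Monic
  natDegree_eq : ρE.natDegree = G.g
  map_subtype : ρE.map A.subtype = divPoly z E
  map_π : ρE.map G.R.π = divPoly zb (G.spDiv Dc)
  res_us : ((resBA G us : Bbar G) : κ) = ub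
  res_us' : ((resBA G us' : Bbar G) : κ) = ub'
  prod : (us : F) * (us' : F) = aeval z (divPoly z W) * aeval z (divPoly z E)

section Generic

variable {z : F} {zb : κ} {m N2 : ℕ} {W E Dc : Divisor K F} {ub ub' : κ} {us us' : BA G}
  {ρE : A[X]}

/-- the coefficients of the integral model are those of `ρ_E`. -/
theorem IsBASol.coe_coeff (h : IsBASol G z zb m N2 W E Dc ub ub' us us' ρE) (l : ℕ) :
    ((ρE.coeff l : A) : K) = (divPoly z E).coeff l := by
  rw [← h.map_subtype, coeff_map]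
  rfl

/-- the value of the integral model at `z`. -/
theorem IsBASol.aeval_eq (h : IsBASol G z zb m N2 W E Dc ub ub' us us' ρE) :
    aeval z ρE = aeval z (divPoly z E) := by
  rw [← h.map_subtype]
  exact (aeval_map_algebraMap (A := K) z ρE).symm

/-- **Reduction of the coefficients**: for every integral model `ρDc` (over any subring `RS` of
`A`, e.g. `A^S`) of `ρ_Dc`, the lower coefficients of `ρE` and `ρDc` have the same reduction. -/
theorem IsBASol.π_coeff_eq (h : IsBASol G z zb m N2 W E Dc ub ub' us us' ρE) (hz : z ∈ O)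
    (hzb : G.R.res ⟨z, hz⟩ = zb) (hDc : 0 ≤ Dc) (hreg : RegSupp G z Dc) {a : A} {l : ℕ}
    (ha : (a : K) = (divPoly z Dc).coeff l) : G.R.π (ρE.coeff l) = G.R.π a := by
  have h1 : G.R.π (ρE.coeff l) = (divPoly zb (G.spDiv Dc)).coeff l := by
    rw [← h.map_π, coeff_map]
  have h2 := π_coeff_divPoly hz hDc hreg l
  rw [hzb] at h2
  rw [h1, ← h2]
  congr 1
  exact Subtype.ext ha.symm

/-- **The product formula in the literal form of `spec_of_frames`.** -/
theorem IsBASol.prod_literal (h : IsBASol G z zb m N2 W E Dc ub ub' us us' ρE)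
    {W0 : Divisor K F} {dW : ℕ} (hW : 0 ≤ W) (hW0 : 0 ≤ W0) (hdW0 : Divisor.degree W0 = dW)
    (hdW : Divisor.degree W = dW) (zA fW0 : BA G) (hzA : (zA : F) = z)
    (hfW0 : (fW0 : F) = aeval z (divPoly z W0)) (a : Fin dW → A)
    (ha : ∀ j, ((a j : A) : K) = (divPoly z W).coeff j - (divPoly z W0).coeff j) :
    us * us' = (fW0 + ∑ l : Fin dW, algebraMap A (BA G) (a l) * zA ^ (l : ℕ)) * aeval zA ρE := by
  apply Subtype.ext
  have hnW : (divPoly z W).natDegree = dW := by
    have := natDegree_divPoly_eq (z := z) G hW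
    rw [hdW] at this
    exact_mod_cast this
  have hnW0 : (divPoly z W0).natDegree = dW := by
    have := natDegree_divPoly_eq (z := z) G hW0
    rw [hdW0] at this
    exact_mod_cast this
  have h1 : ((aeval zA ρE : BA G) : F) = aeval z (divPoly z E) := by
    rw [Polynomial.aeval_subalgebra_coe, hzA]
    exact h.aeval_eq
  have h2 : ((fW0 + ∑ l : Fin dW, algebraMap A (BA G) (a l) * zA ^ (l : ℕ) : BA G) : F)
      = aeval z (divPoly z W) := by
    conv_rhs => rw [divPoly_eq_add_sum z hnW hnW0]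
    rw [map_add, map_sum]
    push_cast
    rw [hfW0]
    congr 1
    refine Finset.sum_congr rfl fun l _ => ?_
    rw [map_mul, map_pow, aeval_X, aeval_C, hzA, ← ha l]
    rfl
  show (us : F) * (us' : F) = ((fW0 + ∑ l : Fin dW, algebraMap A (BA G) (a l) * zA ^ (l : ℕ) : BA G) : F)
    * ((aeval zA ρE : BA G) : F)
  rw [h1, h2, h.prod]

/-- **The parameters lie in the maximal ideal.** -/
theorem param_mem_maximalIdeal {z : F} (hz : z ∈ O) {W W0 : Divisor K F} (hW : 0 ≤ W)
    (hW0 : 0 ≤ W0) (hreg : RegSupp G z W) (hreg0 : RegSupp G z W0)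
    (hsp : G.spDiv W = G.spDiv W0) {a : A} {l : ℕ}
    (ha : (a : K) = (divPoly z W).coeff l - (divPoly z W0).coeff l) : a ∈ maximalIdeal A := by
  have h := coeff_sub_mem_maximalIdeal hz hW hW0 hreg hreg0 hsp l
  have : a = (⟨(divPoly z W).coeff l, coeff_divPoly_mem hz hreg l⟩ : A) -
      ⟨(divPoly z W0).coeff l, coeff_divPoly_mem hz hreg0 l⟩ := Subtype.ext ha
  rw [this]
  exact h

/-- the parameters exist (the coefficients of `ρ_W`, `ρ_{W0}` are integral). -/
theorem exists_param {z : F} (hz : z ∈ O) {W W0 : Divisor K F} (hreg : RegSupp G z W)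
    (hreg0 : RegSupp G z W0) (dW : ℕ) :
    ∃ a : Fin dW → A, ∀ j, ((a j : A) : K) = (divPoly z W).coeff j - (divPoly z W0).coeff j :=
  ⟨fun j => ⟨(divPoly z W).coeff j - (divPoly z W0).coeff j,
    sub_mem (coeff_divPoly_mem hz hreg j) (coeff_divPoly_mem hz hreg0 j)⟩, fun _ => rfl⟩

/-- **From a true solution to its `B_A` form.** -/
theorem exists_isBASol {n : ℕ} (hz : z ∈ O) (hzb : G.R.res ⟨z, hz⟩ = zb)
    (hzL : z ∈ riemannRochSpace (G.mulOo n)) (hN2 : N2 + m = n * m)
    (hE : 0 ≤ E) (hdegE : Divisor.degree E = G.g) (hspE : G.spDiv E = G.spDiv Dc)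
    (hoob : G.oob ∉ (G.spDiv Dc).support) {u u' : F} (hu : u ∈ Lam G.R (G.mulOo m))
    (hu' : u' ∈ Lam G.R (Finsupp.single G.oo ((n : ℤ) * m - m)))
    (hres : ∃ (huO : u ∈ O) (hu'O : u' ∈ O), G.R.res ⟨u, huO⟩ = ub ∧ G.R.res ⟨u', hu'O⟩ = ub')
    (hprod : u * u' = aeval z (divPoly z W) * aeval z (divPoly z E)) :
    ∃ (us us' : BA G) (ρE : A[X]), (us : F) = u ∧ (us' : F) = u' ∧
      IsBASol G z zb m N2 W E Dc ub ub' us us' ρE := by
  obtain ⟨huO, hu'O, hru, hru'⟩ := hres
  have hreg : RegSupp G z E := regSupp_of_mem_rrs hzL hE (by rw [hspE]; exact hoob)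
  have hcast : (Finsupp.single G.oo ((n : ℤ) * m - m) : Divisor K F) = nOo G N2 := by
    rw [nOo]
    congr 1
    have : ((N2 + m : ℕ) : ℤ) = ((n * m : ℕ) : ℤ) := by rw [hN2]
    push_cast at this
    omega
  rw [hcast] at hu'
  refine ⟨⟨u, ⟨m, hu⟩⟩, ⟨u', ⟨N2, hu'⟩⟩, intPoly A z E, rfl, rfl, ?_⟩
  refine ⟨hu, hu', intPoly_monic z E, ?_, map_subtype_intPoly hz hreg, ?_, hru, hru', hprod⟩
  · have h1 := natDegree_divPoly_eq (z := z) G hE
    rw [← map_subtype_intPoly hz hreg, hdegE,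
      natDegree_map_eq_of_injective A.subtype_injective] at h1
    exact_mod_cast h1
  · rw [map_π_intPoly hz hE hreg, hzb, hspE]

end Generic

/-! ### The two configurations of a lifted configuration -/

section Cfg

variable {I' : InertiaData G} [Nonempty (Place k κ)] [IsAlgClosed k] {m m' n : ℕ}
  {c : BaseCfg G.oob m m' (n : ℤ)} (L : LiftedCfg (I := I') c)

/-! #### Bridges to `Geo/ConfigOfLeaves` -/

theorem D0L_eq : D0L L = ConfigOfLeaves.D0 L := rfl

theorem D1L_eq : D1L L = ConfigOfLeaves.D1 L := rfl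

theorem W01_eq : W01 L = ConfigOfLeaves.W1 L := by
  rw [W01, ConfigOfLeaves.W1, D0L_eq]
  congr 1

theorem W02_eq : W02 L = ConfigOfLeaves.W2 L := rfl

/-! #### Supports off the residue disc of `oo` -/

theorem oob_notMem_spDiv_D0L : G.oob ∉ (G.spDiv (D0L L)).support := by
  rw [spDiv_D0L, Finsupp.mem_support_iff, not_not]
  exact finDiv_apply_of_notMem c.oo_notMem_D0

theorem oob_notMem_spDiv_D1L : G.oob ∉ (G.spDiv (D1L L)).support := by
  rw [spDiv_D1L, Finsupp.mem_support_iff, not_not]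
  exact finDiv_apply_of_notMem c.oo_notMem_D1

theorem z_mem_mulOo : L.z ∈ riemannRochSpace (G.mulOo n) := L.z_mem

theorem oob_notMem_spDiv_W01 : G.oob ∉ (G.spDiv (W01 L)).support := by
  rw [spDiv_W01, Finsupp.mem_support_iff, not_not]
  exact multDiv_apply_of_notMem (resSolM1 c).P_notMem_fix

theorem oob_notMem_spDiv_W02 : G.oob ∉ (G.spDiv (W02 L)).support := by
  rw [spDiv_W02, Finsupp.mem_support_iff, not_not]
  exact multDiv_apply_of_notMem (resSolM2 c).P_notMem_fix

/-- `z` is regular on the discs of the points of every effective divisor whose specialisation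
avoids `oob`. -/
theorem regSupp_z {W : Divisor K F} (hW : 0 ≤ W) (h : G.oob ∉ (G.spDiv W).support) :
    RegSupp G L.z W :=
  regSupp_of_mem_rrs (z_mem_mulOo L) hW h

theorem regSupp_W01 : RegSupp G L.z (W01 L) := regSupp_z L (W01_nonneg L) (oob_notMem_spDiv_W01 L)

theorem regSupp_W02 : RegSupp G L.z (W02 L) := regSupp_z L (W02_nonneg L) (oob_notMem_spDiv_W02 L)

theorem regSupp_D0L : RegSupp G L.z (D0L L) := regSupp_z L (D0L_nonneg L) (oob_notMem_spDiv_D0L L)

theorem regSupp_D1L : RegSupp G L.z (D1L L) := regSupp_z L (D1L_nonneg L) (oob_notMem_spDiv_D1L L)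

theorem regSupp_of_spDiv_eq1 {W : Divisor K F} (hW : 0 ≤ W)
    (hspW : G.spDiv W = G.spDiv (W01 L)) : RegSupp G L.z W :=
  regSupp_z L hW (by rw [hspW]; exact oob_notMem_spDiv_W01 L)

theorem regSupp_of_spDiv_eq2 {W : Divisor K F} (hW : 0 ≤ W)
    (hspW : G.spDiv W = G.spDiv (W02 L)) : RegSupp G L.z W :=
  regSupp_z L hW (by rw [hspW]; exact oob_notMem_spDiv_W02 L)

variable (hgen : genusFF k κ = G.g)
include hgen

/-- **The true solutions of `Cfg1` in `B_A` form.** -/
theorem exists_trueSolBA1 {N2 : ℕ} (hN2 : N2 + m = n * m) {W : Divisor K F} (hW : 0 ≤ W)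
    (hspW : G.spDiv W = G.spDiv (W01 L)) :
    ∃ Es : Divisor K F, 0 ≤ Es ∧ Divisor.degree Es = G.g ∧
      Divisor.IsPrincipal (W + Es - G.mulOo m) ∧ G.spDiv Es = G.spDiv (D1L L) ∧
      ∃ (us us' : BA G) (ρE : A[X]),
        IsBASol G L.z c.z m N2 W Es (D1L L) (G.R.res ⟨L.u0, L.hu0⟩)
          (G.R.res ⟨u0cof1 L, (isTrueSol_base1 L hgen).u'_mem⟩) us us' ρE := by
  obtain ⟨E, u, u', hE, hdeg, hspE, hprinc, hu, hu', hres, hprod⟩ :=
    exists_trueSol1 L hgen hW hspW
  obtain ⟨us, us', ρE, -, -, h⟩ := exists_isBASol (W := W) (Dc := D1L L) L.hz L.res_z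
    (z_mem_mulOo L) hN2 hE hdeg hspE (oob_notMem_spDiv_D1L L) hu hu' hres hprod
  exact ⟨E, hE, hdeg, hprinc, hspE, us, us', ρE, h⟩

/-- **The true solutions of `Cfg2` in `B_A` form.** -/
theorem exists_trueSolBA2 {N2 : ℕ} (hN2 : N2 + m' = n * m') {W : Divisor K F} (hW : 0 ≤ W)
    (hspW : G.spDiv W = G.spDiv (W02 L)) :
    ∃ Es : Divisor K F, 0 ≤ Es ∧ Divisor.degree Es = G.g ∧
      Divisor.IsPrincipal (W + Es - G.mulOo m') ∧ G.spDiv Es = G.spDiv (D0L L) ∧
      ∃ (us us' : BA G) (ρE : A[X]),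
        IsBASol G L.z c.z m' N2 W Es (D0L L) (G.R.res ⟨L.u0', L.hu0'⟩)
          (G.R.res ⟨u0cof2 L, (isTrueSol_base2 L hgen).u'_mem⟩) us us' ρE := by
  obtain ⟨E, u, u', hE, hdeg, hspE, hprinc, hu, hu', hres, hprod⟩ :=
    exists_trueSol2 L hgen hW hspW
  obtain ⟨us, us', ρE, -, -, h⟩ := exists_isBASol (W := W) (Dc := D0L L) L.hz L.res_z
    (z_mem_mulOo L) hN2 hE hdeg hspE (oob_notMem_spDiv_D0L L) hu hu' hres hprod
  exact ⟨E, hE, hdeg, hprinc, hspE, us, us', ρE, h⟩

end Cfg

end Fermat.Agent.S19x.Geo.Residual.TrueSolBA
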