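import Fermat.Agent.S19x.Geo.Residual.Glue

/-!
# P-S19, BLOCK A, leaf (L6): the wrapper to `ResidualOut` (helper33)

`exists_residualOut_of_core`: the literal `ResidualOut I` of `Geo/Targets.lean` from

* `hcore` : an approximation statement in ideal form over the local ring `A` (the output of
  `ResidualCoreNA.residual_core_of_jacobian` or `ResidualNorm.residual_core_of_*_unnormalised`),
  for an ARBITRARY solution predicate `Sol a ys` (`a` = parameters, `ys` = unknowns in `A`);
* `htrue` : for every effective `W` with the specialisation of `W0` a residual divisor `Es` and,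
  for the parameters `a_j = coeff_j ρ_W - coeff_j ρ_W0`, a solution `ys` congruent to the base
  solution whose `r l`-coordinates are the lower coefficients of `ρ_Es`.

Independent of the route (`K`-linear or `A`-linear functionals) by which `hcore` is obtained.
-/

set_option autoImplicit false
set_option linter.unusedSectionVars false
set_option linter.unusedVariables false

noncomputable section

namespace Fermat.Agent.S19x.Geo.Residual.Wrap

open AlgebraicCurve MvPolynomial
open Fermat.Agent.S19x.Geo Fermat.Agent.S19x.Geo.Residual.Glue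

universe u v w z

variable {K : Type u} [Field K] {A : ValuationSubring K}
  {F : Type v} [Field F] [Algebra K F] {O : ValuationSubring F}
  {k : Type w} {κ : Type z} [Field k] [Field κ] [Algebra k κ]
  {G : GeoSetting A O k κ}

/-- **The wrapper**: ideal-form approximation + true solutions ⟹ `ResidualOut`. -/
theorem exists_residualOut_of_core (I : InertiaData G) {ι : Type*} (r : Fin G.g → ι)
    (x0 : ι → I.fixedRing) (z : F) (m dW : ℕ) (W0 Dc : Divisor K F)
    (Sol : (Fin dW → A) → (ι → A) → Prop)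
    (hcore : ∀ n : ℕ, ∃ Θ : Fin G.g → MvPolynomial (Fin dW) I.fixedRing,
      (∀ l, constantCoeff (Θ l) = 0) ∧
      ∀ (a : Fin dW → A) (𝔞 : Ideal A), 𝔞 ≤ IsLocalRing.maximalIdeal A → (∀ j, a j ∈ 𝔞) →
        ∀ ys : ι → A, Sol a ys → (∀ i, ys i - ψA I (x0 i) ∈ IsLocalRing.maximalIdeal A) →
          ∀ l : Fin G.g, ys (r l) - ψA I (x0 (r l)) - eval₂ (ψA I) a (Θ l) ∈ 𝔞 ^ (n + 1))
    (W0_nonneg : 0 ≤ W0) (W0_deg : Divisor.degree W0 = dW) (Dc_nonneg : 0 ≤ Dc)
    (Dc_deg : Divisor.degree Dc = G.g)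
    (base_principal : Divisor.IsPrincipal (W0 + Dc - G.mulOo m))
    (hx0r : ∀ l : Fin G.g, ψK I (x0 (r l)) = (divPoly z Dc).coeff l)
    (htrue : ∀ W : Divisor K F, 0 ≤ W → G.spDiv W = G.spDiv W0 →
      ∃ Es : Divisor K F, 0 ≤ Es ∧ Divisor.degree Es = G.g ∧
        Divisor.IsPrincipal (W + Es - G.mulOo m) ∧ G.spDiv Es = G.spDiv Dc ∧
        ∀ a : Fin dW → A,
          (∀ j, (a j : K) = (divPoly z W).coeff j - (divPoly z W0).coeff j) →
          ∃ ys : ι → A, Sol a ys ∧
            (∀ i, ys i - ψA I (x0 i) ∈ IsLocalRing.maximalIdeal A) ∧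
            ∀ l : Fin G.g, (ys (r l) : K) = (divPoly z Es).coeff l) :
    ∃ R : ResidualOut I, R.z = z ∧ R.m = m ∧ R.W0 = W0 ∧ R.Dc = Dc ∧ R.dW = dW := by
  classical
  refine ⟨{ z := z, m := m, W0 := W0, Dc := Dc, dW := dW, W0_nonneg := W0_nonneg,
            W0_deg := W0_deg, Dc_nonneg := Dc_nonneg, Dc_deg := Dc_deg,
            base_principal := base_principal, spec := ?_ }, rfl, rfl, rfl, rfl, rfl⟩
  intro n
  obtain ⟨Θ, hΘ0, hΘ⟩ := hcore n
  refine ⟨Θ, hΘ0, ?_⟩
  intro W hW hspW
  obtain ⟨Es, hEs, hEsdeg, hprinc, hspEs, hsol⟩ := htrue W hW hspW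
  refine ⟨Es, hEs, hEsdeg, hprinc, hspEs, ?_⟩
  intro t ht hdiv l
  -- the parameters, in `A`
  have haA : ∀ j : Fin dW, (divPoly z W).coeff j - (divPoly z W0).coeff j ∈ A := fun j => by
    obtain ⟨c, hc, hcj⟩ := hdiv j
    rw [hcj]
    exact A.mul_mem _ _ ht hc
  set aK : Fin dW → K := fun j => (divPoly z W).coeff j - (divPoly z W0).coeff j with haK
  set a : Fin dW → A := fun j => ⟨aK j, haA j⟩ with ha
  obtain ⟨ys, hys, hnear, hr⟩ := hsol a (fun j => rfl)
  -- the quantity to estimate is the coercion of an element of `A`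
  set y : A := ys (r l) - ψA I (x0 (r l)) - eval₂ (ψA I) a (Θ l) with hy
  have hyK : (divPoly z Es).coeff l - (divPoly z Dc).coeff l -
      MvPolynomial.aeval (fun j : Fin dW => (divPoly z W).coeff j - (divPoly z W0).coeff j)
        (Θ l) = (y : K) := by
    rw [aeval_def, algebraMap_fixedRing_K, ← hr l, ← hx0r l, hy]
    have h1 := coe_eval₂ I a (Θ l)
    have h2 : (fun s => ((a s : A) : K)) = aK := rfl
    rw [h2] at h1
    push_cast
    rw [h1]
    rfl
  rw [hyK]
  by_cases hu : IsUnit (⟨t, ht⟩ : A)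
  · exact dvdInA_of_isUnit ht hu (n + 1) y
  · have htm : (⟨t, ht⟩ : A) ∈ IsLocalRing.maximalIdeal A := by
      rw [IsLocalRing.mem_maximalIdeal, mem_nonunits_iff]
      exact hu
    have h𝔞 : Ideal.span {(⟨t, ht⟩ : A)} ≤ IsLocalRing.maximalIdeal A := by
      rw [Ideal.span_le]
      intro x hx
      rw [Set.mem_singleton_iff] at hx
      rw [hx]
      exact htm
    have ha𝔞 : ∀ j, a j ∈ Ideal.span {(⟨t, ht⟩ : A)} := by
      intro j
      obtain ⟨c, hc, hcj⟩ := hdiv j
      rw [Ideal.mem_span_singleton]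
      exact ⟨⟨c, hc⟩, Subtype.ext hcj⟩
    have hmem := hΘ a (Ideal.span {(⟨t, ht⟩ : A)}) h𝔞 ha𝔞 ys hys hnear l
    rw [Ideal.span_singleton_pow, Ideal.mem_span_singleton] at hmem
    obtain ⟨c, hc⟩ := hmem
    refine ⟨(c : K), c.2, ?_⟩
    have h1 : ((y : A) : K) = (((⟨t, ht⟩ : A) ^ (n + 1) * c : A) : K) := by rw [hy, hc]
    rw [h1]
    push_cast
    rfl

end Fermat.Agent.S19x.Geo.Residual.Wrap
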