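import Fermat.Agent.S19x.Geo.ResidualFrames
import Fermat.Agent.S19x.Geo.Residual.Wrap
import Fermat.Agent.S19x.Geo.Residual.TrueSolBA

/-!
# P-S19, block A, leaf L6: from the frame form to `ResidualOut` (helper72)

`exists_residualOut_of_hyp` : the Residual Theorem in frame form
(`ResidualFrames.Hyp.spec_of_frames`, at `DS := Frame.frameData H hN0`,
`DP := FrameA.frameDataA H hN0`) together with the true solutions in `B_A` form
(`TrueSolBA.IsBASol`) gives the literal `ResidualOut I` of `Geo/Targets.lean`, through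
`Wrap.exists_residualOut_of_core`.
-/

set_option autoImplicit false
set_option linter.unusedSectionVars false
set_option linter.unusedVariables false
set_option linter.style.haveILetI false

noncomputable section

namespace Fermat.Agent.S19x.Geo.Residual.WrapFrames

open AlgebraicCurve Polynomial Module IsLocalRing
open Fermat.Agent.Gateway.C0 Fermat.Agent.Gateway.Red Fermat.Agent.S27x.Spec.Inj
  Fermat.Agent.S27x.Spec.Disc
  Fermat.Agent.S19x.Geo Fermat.Agent.S19x.Geo.Lattice
  Fermat.Agent.S19x.Geo.Frame Fermat.Agent.S19x.Geo.FrameA Fermat.Agent.S19x.Geo.DivPolyRed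
  Fermat.Agent.S19x.Geo.Residual.TrueSolBA Fermat.Agent.S19x.Geo.ResidualFrames
  Fermat.Agent.S19x.Geo.Residual.Glue

universe u v w z

variable {K : Type u} [Field K] {A : ValuationSubring K}
  {F : Type v} [Field F] [Algebra K F] {O : ValuationSubring F}
  {k : Type w} {κ : Type z} [Field k] [Field κ] [Algebra k κ]
  [HasPrincipalDivisors K F] [∀ v : Place K F, v.FiniteResidue]
  [HasPrincipalDivisors k κ] [∀ v : Place k κ, v.FiniteResidue]
  {G : GeoSetting A O k κ} {I : InertiaData G} [ValuationRing I.fixedRing]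
  {N0 : ℕ} (H : FixedLatticeFacts G I N0) (hN0 : 2 * (G.g : ℤ) - 1 ≤ N0)

/-- the value in `F` of a polynomial over `A^S` at an element of `B^S`. -/
theorem coe_aeval_BS (zB : BS G I) (p : I.fixedRing[X]) :
    ((aeval zB p : BS G I) : F) = aeval (zB : F) (p.map (algebraMap I.fixedRing K)) := by
  rw [Polynomial.aeval_subalgebra_coe, Polynomial.aeval_map_algebraMap]

/-- **From the frame form to `ResidualOut`.** -/
theorem exists_residualOut_of_hyp {dW m e N2 j1 j2 j3 : ℕ} {zB u0B cofB : BS G I}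
    {ρW0 ρDc : I.fixedRing[X]} {Uvar Ufix : Finset (Place k κ)} {μ : Place k κ → ℕ}
    {val : Place k κ → k}
    (h : Hyp (frameData H hN0) (frameDataA H hN0) I.fixedRing.subtype (ιBA G I) (Bbar G).val
      G.oob G.g dW m e N2 j1 j2 j3 zB u0B cofB ρW0 ρDc Uvar Ufix μ val)
    {W0 Dc : Divisor K F} (W0_nonneg : 0 ≤ W0) (W0_deg : Divisor.degree W0 = dW)
    (Dc_nonneg : 0 ≤ Dc) (Dc_deg : Divisor.degree Dc = G.g)
    (base_principal : Divisor.IsPrincipal (W0 + Dc - G.mulOo m))
    (hρW0 : ρW0.map (algebraMap I.fixedRing K) = divPoly (zB : F) W0)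
    (hρDc : ρDc.map (algebraMap I.fixedRing K) = divPoly (zB : F) Dc)
    (hregDc : RegSupp G (zB : F) Dc)
    (htrue : ∀ W : Divisor K F, 0 ≤ W → G.spDiv W = G.spDiv W0 →
      ∃ Es : Divisor K F, 0 ≤ Es ∧ Divisor.degree Es = G.g ∧
        Divisor.IsPrincipal (W + Es - G.mulOo m) ∧ G.spDiv Es = G.spDiv Dc ∧
        ∃ (us us' : BA G) (ρE : A[X]),
          IsBASol G (zB : F) ((resB G I zB : Bbar G) : κ) m N2 W Es Dc
            ((resB G I u0B : Bbar G) : κ) ((resB G I cofB : Bbar G) : κ) us us' ρE) :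
    ∃ R : ResidualOut I, R.z = (zB : F) ∧ R.m = m ∧ R.W0 = W0 ∧ R.Dc = Dc ∧ R.dW = dW := by
  classical
  have hzO : (zB : F) ∈ O := mem_O_of_mem_BS G I zB.2
  have hDSN0 : (frameData H hN0).N0 = N0 := frameData_N0 H hN0
  -- the solution predicate: the hypotheses of `spec_of_frames`
  let Sol : (Fin dW → A) → (Fin G.g → A) → Prop := fun a ys =>
    ∃ (us us' : BA G) (ρE : A[X]), us ∈ (frameDataA H hN0).L m ∧ us' ∈ (frameDataA H hN0).L N2 ∧
      ρE.Monic ∧ ρE.natDegree = G.g ∧
      (frameDataA H hN0).red us = (frameData H hN0).red u0B ∧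
      (frameDataA H hN0).red us' = (frameData H hN0).red cofB ∧
      (∀ l : Fin G.g, G.R.π (ρE.coeff l) = πS G I (ρDc.coeff l)) ∧
      us * us' = (ιBA G I (aeval zB ρW0) +
        ∑ l : Fin dW, algebraMap A (BA G) (a l) * ιBA G I zB ^ (l : ℕ)) * aeval (ιBA G I zB) ρE ∧
      ∀ l : Fin G.g, ys l = ρE.coeff l
  refine Wrap.exists_residualOut_of_core I (ι := Fin G.g) (fun l => l) (fun l => ρDc.coeff l)
    (zB : F) m dW W0 Dc Sol ?_ W0_nonneg W0_deg Dc_nonneg Dc_deg base_principal ?_ ?_
  · -- the core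
    intro n
    obtain ⟨Θ, hΘ0, hΘ⟩ := h.spec_of_frames n
    refine ⟨Θ, hΘ0, ?_⟩
    intro a 𝔞 h𝔞 ha ys hys hnear l
    obtain ⟨us, us', ρE, h1, h2, h3, h4, h5, h6, h7, h8, h9⟩ := hys
    have := hΘ a 𝔞 h𝔞 ha us us' ρE h1 h2 h3 h4 h5 h6 h7 h8 l
    rw [h9 l]
    exact this
  · -- the base coefficients
    intro l
    rw [← hρDc, coeff_map]
    rfl
  · -- the true solutions
    intro W hW hspW
    obtain ⟨Es, hEs, hdegEs, hprinc, hspEs, us, us', ρE, hsol⟩ := htrue W hW hspW
    refine ⟨Es, hEs, hdegEs, hprinc, hspEs, ?_⟩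
    intro a ha
    have hdW : Divisor.degree W = dW := by
      rw [← G.degree_spDiv, hspW, G.degree_spDiv, W0_deg]
    have hπ : ∀ l : Fin G.g, G.R.π (ρE.coeff l) = πS G I (ρDc.coeff l) := fun l =>
      hsol.π_coeff_eq hzO rfl Dc_nonneg hregDc (a := ((ρDc.coeff l : I.fixedRing) : A)) (by
        rw [← hρDc, coeff_map]
        rfl)
    refine ⟨fun l => ρE.coeff l, ⟨us, us', ρE, ?_, ?_, hsol.monic, hsol.natDegree_eq, ?_, ?_, hπ,
      ?_, fun _ => rfl⟩, ?_, fun l => hsol.coe_coeff l⟩
    · -- `us ∈ DP.L m`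
      have hl : N0 + j1 = m := by
        have := h.level_m
        rwa [hDSN0] at this
      have key := (mem_frameDataA_L H hN0 j1 us).mpr (by rw [hl]; exact hsol.us_mem)
      have e1 : (frameDataA H hN0).N0 + j1 = m := by rw [frameDataA_N0]; exact hl
      rw [e1] at key
      exact key
    · -- `us' ∈ DP.L N2`
      have hl : N0 + j2 = N2 := by
        have := h.level_N2
        rwa [hDSN0] at this
      have key := (mem_frameDataA_L H hN0 j2 us').mpr (by rw [hl]; exact hsol.us'_mem)
      have e1 : (frameDataA H hN0).N0 + j2 = N2 := by rw [frameDataA_N0]; exact hl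
      rw [e1] at key
      exact key
    · -- `red us = red u0`
      rw [frameDataA_red, frameData_red]
      exact Subtype.ext hsol.res_us
    · -- `red us' = red cof`
      rw [frameDataA_red, frameData_red]
      exact Subtype.ext hsol.res_us'
    · -- the product
      refine hsol.prod_literal hW W0_nonneg W0_deg hdW (ιBA G I zB) (ιBA G I (aeval zB ρW0)) rfl
        ?_ a ha
      rw [coe_ιBA, coe_aeval_BS, hρW0]
    · -- congruent to the base solution
      intro l
      show ρE.coeff l - Glue.ψA I (ρDc.coeff l) ∈ maximalIdeal A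
      rw [← G.R.π_eq_zero_iff, map_sub, hπ l]
      exact sub_self _

end Fermat.Agent.S19x.Geo.Residual.WrapFrames
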